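import Mathlib

/-!
# S23: shared definitions

`IsIntSeries p` : the complex power series `p` has integer coefficients.
`intSubring`   : the subring of such series (the image of `ℤ⟦X⟧`).
`intSpan`      : the `ℂ`-span of the integral series (a `ℂ`-submodule closed under products).
-/

set_option autoImplicit false

namespace Fermat.Agent.S23

/-- A complex power series all of whose coefficients are integers. -/
def IsIntSeries (p : PowerSeries ℂ) : Prop := ∀ n : ℕ, ∃ m : ℤ, p.coeff n = (m : ℂ)

/-- The subring of integral power series inside `ℂ⟦X⟧`. -/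
noncomputable def intSubring : Subring (PowerSeries ℂ) := (PowerSeries.map (Int.castRingHom ℂ)).range

theorem isIntSeries_iff_mem_intSubring (p : PowerSeries ℂ) : IsIntSeries p ↔ p ∈ intSubring := by
  constructor
  · intro h
    choose m hm using h
    refine ⟨PowerSeries.mk m, ?_⟩
    ext n
    simp [hm n]
  · rintro ⟨q, rfl⟩ n
    exact ⟨q.coeff n, by simp⟩

theorem IsIntSeries.add {p q : PowerSeries ℂ} (hp : IsIntSeries p) (hq : IsIntSeries q) :
    IsIntSeries (p + q) := by
  rw [isIntSeries_iff_mem_intSubring] at *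
  exact add_mem hp hq

theorem IsIntSeries.mul {p q : PowerSeries ℂ} (hp : IsIntSeries p) (hq : IsIntSeries q) :
    IsIntSeries (p * q) := by
  rw [isIntSeries_iff_mem_intSubring] at *
  exact mul_mem hp hq

theorem IsIntSeries.neg {p : PowerSeries ℂ} (hp : IsIntSeries p) : IsIntSeries (-p) := by
  rw [isIntSeries_iff_mem_intSubring] at *
  exact neg_mem hp

theorem IsIntSeries.sub {p q : PowerSeries ℂ} (hp : IsIntSeries p) (hq : IsIntSeries q) :
    IsIntSeries (p - q) := by
  rw [isIntSeries_iff_mem_intSubring] at *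
  exact sub_mem hp hq

theorem isIntSeries_zero : IsIntSeries 0 := by
  rw [isIntSeries_iff_mem_intSubring]
  exact zero_mem _

theorem isIntSeries_one : IsIntSeries 1 := by
  rw [isIntSeries_iff_mem_intSubring]
  exact one_mem _

theorem IsIntSeries.pow {p : PowerSeries ℂ} (hp : IsIntSeries p) (n : ℕ) : IsIntSeries (p ^ n) := by
  rw [isIntSeries_iff_mem_intSubring] at *
  exact pow_mem hp n

theorem isIntSeries_intCast (m : ℤ) : IsIntSeries (m : PowerSeries ℂ) := by
  rw [isIntSeries_iff_mem_intSubring]
  exact intCast_mem _ m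

theorem isIntSeries_natCast (m : ℕ) : IsIntSeries (m : PowerSeries ℂ) := by
  rw [isIntSeries_iff_mem_intSubring]
  exact natCast_mem _ m

theorem IsIntSeries.zsmul {p : PowerSeries ℂ} (hp : IsIntSeries p) (m : ℤ) :
    IsIntSeries (m • p) := by
  rw [isIntSeries_iff_mem_intSubring] at *
  exact zsmul_mem hp m

theorem isIntSeries_X : IsIntSeries (PowerSeries.X : PowerSeries ℂ) := by
  rw [isIntSeries_iff_mem_intSubring]
  exact ⟨PowerSeries.X, by simp⟩

theorem isIntSeries_sum {ι : Type*} (s : Finset ι) (f : ι → PowerSeries ℂ)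
    (h : ∀ i ∈ s, IsIntSeries (f i)) : IsIntSeries (∑ i ∈ s, f i) := by
  simp only [isIntSeries_iff_mem_intSubring] at *
  exact sum_mem h

theorem isIntSeries_prod {ι : Type*} (s : Finset ι) (f : ι → PowerSeries ℂ)
    (h : ∀ i ∈ s, IsIntSeries (f i)) : IsIntSeries (∏ i ∈ s, f i) := by
  simp only [isIntSeries_iff_mem_intSubring] at *
  exact prod_mem h

/-- An integral series is fixed by every coefficientwise ring endomorphism of `ℂ`. -/
theorem IsIntSeries.map_eq {p : PowerSeries ℂ} (hp : IsIntSeries p) (σ : ℂ →+* ℂ) :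
    p.map σ = p := by
  ext n
  obtain ⟨m, hm⟩ := hp n
  simp [hm]

/-- The `ℂ`-span of the integral power series. -/
noncomputable def intSpan : Submodule ℂ (PowerSeries ℂ) := Submodule.span ℂ {p | IsIntSeries p}

theorem IsIntSeries.mem_intSpan {p : PowerSeries ℂ} (hp : IsIntSeries p) : p ∈ intSpan :=
  Submodule.subset_span hp

theorem one_mem_intSpan : (1 : PowerSeries ℂ) ∈ intSpan := isIntSeries_one.mem_intSpan

theorem mul_mem_intSpan {p q : PowerSeries ℂ} (hp : p ∈ intSpan) (hq : q ∈ intSpan) :
    p * q ∈ intSpan := by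
  have h : intSpan * intSpan ≤ intSpan := by
    unfold intSpan
    rw [Submodule.span_mul_span]
    apply Submodule.span_mono
    rintro _ ⟨a, ha, b, hb, rfl⟩
    exact IsIntSeries.mul ha hb
  exact h (Submodule.mul_mem_mul hp hq)

theorem pow_mem_intSpan {p : PowerSeries ℂ} (hp : p ∈ intSpan) (n : ℕ) : p ^ n ∈ intSpan := by
  induction n with
  | zero => simpa using one_mem_intSpan
  | succ n ih => rw [pow_succ]; exact mul_mem_intSpan ih hp

theorem setOf_isIntSeries_eq_range :
    {p : PowerSeries ℂ | IsIntSeries p} = Set.range (PowerSeries.map (Int.castRingHom ℂ)) := by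
  ext p
  rw [Set.mem_ofPred_eq, isIntSeries_iff_mem_intSubring]
  rfl

/-- `intSpan` spelled out as the span of the image of `ℤ⟦X⟧` (the shape used in
`LevelOneInt.lean` and `BoundedDenom.lean`). -/
theorem intSpan_eq_span_range :
    intSpan = Submodule.span ℂ (Set.range (PowerSeries.map (Int.castRingHom ℂ))) := by
  unfold intSpan
  rw [setOf_isIntSeries_eq_range]

theorem mem_intSpan_iff_mem_span_range {p : PowerSeries ℂ} :
    p ∈ intSpan ↔ p ∈ Submodule.span ℂ (Set.range (PowerSeries.map (Int.castRingHom ℂ))) := by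
  rw [intSpan_eq_span_range]

theorem isIntSeries_map_intCast (q : PowerSeries ℤ) :
    IsIntSeries (PowerSeries.map (Int.castRingHom ℂ) q) :=
  (isIntSeries_iff_mem_intSubring _).mpr ⟨q, rfl⟩

theorem add_mem_intSpan {p q : PowerSeries ℂ} (hp : p ∈ intSpan) (hq : q ∈ intSpan) :
    p + q ∈ intSpan := intSpan.add_mem hp hq

theorem smul_mem_intSpan (c : ℂ) {p : PowerSeries ℂ} (hp : p ∈ intSpan) : c • p ∈ intSpan :=
  intSpan.smul_mem c hp

theorem sum_mem_intSpan {ι : Type*} (s : Finset ι) (f : ι → PowerSeries ℂ)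
    (h : ∀ i ∈ s, f i ∈ intSpan) : ∑ i ∈ s, f i ∈ intSpan := intSpan.sum_mem h

theorem prod_mem_intSpan {ι : Type*} (s : Finset ι) (f : ι → PowerSeries ℂ)
    (h : ∀ i ∈ s, f i ∈ intSpan) : ∏ i ∈ s, f i ∈ intSpan := by
  classical
  induction s using Finset.induction_on with
  | empty => simpa using one_mem_intSpan
  | insert a s ha ih =>
    rw [Finset.prod_insert ha]
    exact mul_mem_intSpan (h a (Finset.mem_insert_self a s))
      (ih fun i hi => h i (Finset.mem_insert_of_mem hi))

end Fermat.Agent.S23
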