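import Mathlib
import Fermat.Agent.S23.Defs

/-!
# `q`-expansions of level-one modular forms lie in the `ℂ`-span of integral power series

The main result is `Fermat.Agent.S23.levelOne_qExpansion_mem_intSpan`: the `q`-expansion of every
level-one modular form is a (finite) `ℂ`-linear combination of power series with integer
coefficients.  It is deduced from a general induction principle
`Fermat.Agent.S23.levelOne_qExpansion_mem_of_E_of_discriminant` for `q`-expansions of level-one
forms (induction on the weight via `c = c(∞) • E_k + Δ * c₁`).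
-/

open UpperHalfPlane ModularForm ModularFormClass EisensteinSeries
open scoped MatrixGroups ModularForm Manifold

noncomputable section

namespace Fermat.Agent.S23

namespace LevelOneInt

/-- Auxiliary statement for the induction: all weights `< n`. -/
theorem mem_aux (P : Submodule ℂ (PowerSeries ℂ)) (h1 : (1 : PowerSeries ℂ) ∈ P)
    (hE : ∀ (k : ℕ) (hk : 3 ≤ k), Even k → qExpansion 1 (E hk) ∈ P)
    (hΔ : ∀ x ∈ P, qExpansion 1 ModularForm.discriminant * x ∈ P) (n : ℕ) :
    ∀ k : ℤ, k < n → ∀ c : ModularForm 𝒮ℒ k, qExpansion 1 c ∈ P := by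
  have hzero : ∀ {k : ℤ} (c : ModularForm 𝒮ℒ k), (c : ℍ → ℂ) = 0 → qExpansion 1 c ∈ P := by
    intro k c hc
    rw [hc, qExpansion_zero]
    exact P.zero_mem
  induction n with
  | zero =>
    intro k hk c
    exact hzero c (levelOne_neg_weight_eq_zero (by simpa using hk) c)
  | succ n ih =>
    intro k hk c
    rcases lt_or_ge k n with hlt | hge
    · exact ih k hlt c
    obtain rfl : k = (n : ℤ) := by push_cast at hk; omega
    -- odd weight
    rcases Nat.even_or_odd n with hev | hodd
    swap
    · have : c = 0 := levelOne_odd_weight_eq_zero (by exact_mod_cast hodd) c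
      exact hzero c (by rw [this, FunLike.coe_zero])
    -- weight `0`
    rcases Nat.eq_zero_or_pos n with rfl | hpos
    · obtain ⟨a, ha⟩ := levelOne_weight_zero_const c
      have hc : (c : ℍ → ℂ) = (a • (1 : ModularForm 𝒮ℒ 0) : ModularForm 𝒮ℒ 0) := by
        rw [ha]; ext z; simp
      rw [hc, FunLike.coe_smul, ModularForm.qExpansion_smul one_pos one_mem_strictPeriods_SL,
        ModularForm.qExpansion_one]
      exact P.smul_mem a h1
    -- weight `2`
    rcases Nat.lt_or_ge n 3 with h3 | h3
    · obtain rfl : n = 2 := by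
        rcases hev with ⟨m, rfl⟩; omega
      have : c = 0 := rank_zero_iff_forall_zero.mp levelOne_weight_two_rank_zero c
      exact hzero c (by rw [this, FunLike.coe_zero])
    -- even weight `≥ 4`
    set a₀ : ℂ := (qExpansion 1 c).coeff 0 with ha₀
    set g : ModularForm 𝒮ℒ (n : ℤ) := c - a₀ • E h3 with hg
    have hE0 : (qExpansion 1 (E h3)).coeff 0 = 1 := E_qExpansion_coeff_zero h3 hev
    have hgq : qExpansion 1 g = qExpansion 1 c - a₀ • qExpansion 1 (E h3) := by
      rw [hg, FunLike.coe_sub, ModularForm.qExpansion_sub one_pos one_mem_strictPeriods_SL,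
        FunLike.coe_smul, ModularForm.qExpansion_smul one_pos one_mem_strictPeriods_SL]
    have hg0 : (qExpansion 1 g).coeff 0 = 0 := by
      rw [hgq, map_sub, PowerSeries.coeff_smul, hE0, smul_eq_mul, mul_one, ha₀, sub_self]
    have hfac := qExpansion_eq_qExpansion_discriminant_mul g hg0
    set c₁ : ModularForm 𝒮ℒ ((n : ℤ) - 12) := CuspForm.discriminantEquiv (toCuspForm g hg0)
      with hc₁
    have hc₁P : qExpansion 1 c₁ ∈ P := ih ((n : ℤ) - 12) (by omega) c₁
    have hcq : qExpansion 1 c = a₀ • qExpansion 1 (E h3) +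
        qExpansion 1 ModularForm.discriminant * qExpansion 1 c₁ := by
      rw [← hfac, hgq]; ring
    rw [hcq]
    exact P.add_mem (P.smul_mem a₀ (hE n h3 hev)) (hΔ _ hc₁P)

/-- The `ℂ`-span of the power series with integer coefficients is closed under multiplication. -/
theorem span_mul_mem {x y : PowerSeries ℂ}
    (hx : x ∈ Submodule.span ℂ (Set.range (PowerSeries.map (Int.castRingHom ℂ))))
    (hy : y ∈ Submodule.span ℂ (Set.range (PowerSeries.map (Int.castRingHom ℂ)))) :
    x * y ∈ Submodule.span ℂ (Set.range (PowerSeries.map (Int.castRingHom ℂ))) := by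
  have h := Submodule.mul_mem_mul hx hy
  rw [Submodule.span_mul_span] at h
  refine Submodule.span_mono ?_ h
  rintro _ ⟨_, ⟨a, rfl⟩, _, ⟨b, rfl⟩, rfl⟩
  exact ⟨a * b, map_mul _ a b⟩

/-- `1` lies in the span of the integral power series. -/
theorem one_mem_span :
    (1 : PowerSeries ℂ) ∈ Submodule.span ℂ (Set.range (PowerSeries.map (Int.castRingHom ℂ))) :=
  Submodule.subset_span ⟨1, map_one _⟩

/-- The span of the integral power series is closed under powers. -/
theorem span_pow_mem {x : PowerSeries ℂ}
    (hx : x ∈ Submodule.span ℂ (Set.range (PowerSeries.map (Int.castRingHom ℂ)))) (n : ℕ) :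
    x ^ n ∈ Submodule.span ℂ (Set.range (PowerSeries.map (Int.castRingHom ℂ))) := by
  induction n with
  | zero => rw [pow_zero]; exact one_mem_span
  | succ n ih => rw [pow_succ]; exact span_mul_mem ih hx

/-- The `q`-expansion of the Eisenstein series `E_k` lies in the span of the integral power
series (its coefficients are rational with bounded denominator). -/
theorem E_qExpansion_mem_span {k : ℕ} (hk : 3 ≤ k) (hk2 : Even k) :
    qExpansion 1 (E hk) ∈
      Submodule.span ℂ (Set.range (PowerSeries.map (Int.castRingHom ℂ))) := by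
  set S : PowerSeries ℤ :=
    PowerSeries.mk fun m => if m = 0 then 0 else ((ArithmeticFunction.sigma (k - 1) m : ℕ) : ℤ)
    with hS
  have key : qExpansion 1 (E hk) =
      (1 : PowerSeries ℂ) + (-(2 * k / bernoulli k : ℂ)) • PowerSeries.map (Int.castRingHom ℂ) S := by
    ext m
    rw [E_qExpansion_coeff hk hk2, map_add, PowerSeries.coeff_smul, PowerSeries.coeff_map, hS,
      PowerSeries.coeff_mk, PowerSeries.coeff_one]
    split_ifs with hm
    · simp
    · simp
  rw [key]
  exact Submodule.add_mem _ one_mem_span (Submodule.smul_mem _ _ (Submodule.subset_span ⟨S, rfl⟩))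

/-- The `q`-expansion of `Δ` in terms of those of `E₄` and `E₆`. -/
theorem discriminant_qExpansion :
    qExpansion 1 ModularForm.discriminant =
      (1 / 1728 : ℂ) • (qExpansion 1 E₄ ^ 3 - qExpansion 1 E₆ ^ 2) := by
  set F : ModularForm 𝒮ℒ 12 :=
    ModularForm.mcast (by decide) (E₄.pow 3) - ModularForm.mcast (by decide) (E₆.pow 2) with hF
  have hfun : (ModularForm.discriminant : ℍ → ℂ) = ((1 / 1728 : ℂ) • F : ModularForm 𝒮ℒ 12) := by
    ext z
    rw [discriminant_eq_E₄_cube_sub_E₆_sq z]
    simp only [hF, smul_apply, sub_apply, coe_mcast, ModularForm.coe_pow,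
      Pi.pow_apply, smul_eq_mul]
    ring
  rw [hfun, FunLike.coe_smul, ModularForm.qExpansion_smul one_pos one_mem_strictPeriods_SL]
  congr 1
  simp only [hF, FunLike.coe_sub, coe_mcast,
    ModularForm.qExpansion_sub one_pos one_mem_strictPeriods_SL,
    ModularForm.qExpansion_pow one_pos one_mem_strictPeriods_SL]

/-- The `q`-expansion of `Δ` lies in the span of the integral power series. -/
theorem discriminant_qExpansion_mem_span :
    qExpansion 1 ModularForm.discriminant ∈
      Submodule.span ℂ (Set.range (PowerSeries.map (Int.castRingHom ℂ))) := by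
  rw [discriminant_qExpansion]
  have h4 : qExpansion 1 E₄ ∈ Submodule.span ℂ (Set.range (PowerSeries.map (Int.castRingHom ℂ))) :=
    E_qExpansion_mem_span _ ⟨2, rfl⟩
  have h6 : qExpansion 1 E₆ ∈ Submodule.span ℂ (Set.range (PowerSeries.map (Int.castRingHom ℂ))) :=
    E_qExpansion_mem_span _ ⟨3, rfl⟩
  exact Submodule.smul_mem _ _ (Submodule.sub_mem _ (span_pow_mem h4 3) (span_pow_mem h6 2))

end LevelOneInt

/-- **Induction principle for `q`-expansions of level-one forms.**  A `ℂ`-subspace of power series
containing `1`, the `q`-expansions of all Eisenstein series `E_k` (`k ≥ 4` even) and stable under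
multiplication by the `q`-expansion of `Δ` contains the `q`-expansion of every level-one modular
form. -/
theorem levelOne_qExpansion_mem_of_E_of_discriminant (P : Submodule ℂ (PowerSeries ℂ))
    (h1 : (1 : PowerSeries ℂ) ∈ P)
    (hE : ∀ (k : ℕ) (hk : 3 ≤ k), Even k → qExpansion 1 (E hk) ∈ P)
    (hΔ : ∀ x ∈ P, qExpansion 1 ModularForm.discriminant * x ∈ P) {k : ℤ}
    (c : ModularForm 𝒮ℒ k) : qExpansion 1 c ∈ P :=
  LevelOneInt.mem_aux P h1 hE hΔ (k.toNat + 1) k (by push_cast; omega) c

/-- **Integrality at level one**, explicit form: the `q`-expansion of every level-one modular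
form lies in the `ℂ`-span of the image of `ℤ⟦X⟧`. -/
theorem levelOne_qExpansion_mem_span_range {k : ℤ} (c : ModularForm 𝒮ℒ k) :
    qExpansion 1 c ∈ Submodule.span ℂ (Set.range (PowerSeries.map (Int.castRingHom ℂ))) :=
  levelOne_qExpansion_mem_of_E_of_discriminant _ LevelOneInt.one_mem_span
    (fun _ hk hk2 => LevelOneInt.E_qExpansion_mem_span hk hk2)
    (fun _ hx => LevelOneInt.span_mul_mem LevelOneInt.discriminant_qExpansion_mem_span hx) c

/-- The explicit span of the image of `ℤ⟦X⟧` is contained in `intSpan`. -/
theorem span_range_le_intSpan :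
    Submodule.span ℂ (Set.range (PowerSeries.map (Int.castRingHom ℂ))) ≤ intSpan := by
  refine Submodule.span_mono ?_
  rintro _ ⟨p, rfl⟩
  exact (isIntSeries_iff_mem_intSubring _).mpr ⟨p, rfl⟩

/-- **Integrality at level one.**  The `q`-expansion of every level-one modular form lies in
`intSpan`, the `ℂ`-span of the power series with integer coefficients. -/
theorem levelOne_qExpansion_mem_intSpan {k : ℤ} (c : ModularForm 𝒮ℒ k) :
    qExpansion 1 c ∈ intSpan :=
  span_range_le_intSpan (levelOne_qExpansion_mem_span_range c)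

/-- Cusp form version of `levelOne_qExpansion_mem_intSpan`. -/
theorem levelOne_cusp_qExpansion_mem_intSpan {k : ℤ} (c : CuspForm 𝒮ℒ k) :
    qExpansion 1 c ∈ intSpan :=
  levelOne_qExpansion_mem_intSpan (CuspForm.toModularFormₗ c)

/-- The `q`-expansion of `E_k` lies in `intSpan`. -/
theorem E_qExpansion_mem_intSpan {k : ℕ} (hk : 3 ≤ k) (hk2 : Even k) :
    qExpansion 1 (E hk) ∈ intSpan :=
  span_range_le_intSpan (LevelOneInt.E_qExpansion_mem_span hk hk2)

/-- The `q`-expansion of `Δ` lies in `intSpan`. -/
theorem discriminant_qExpansion_mem_intSpan :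
    qExpansion 1 ModularForm.discriminant ∈ intSpan :=
  span_range_le_intSpan LevelOneInt.discriminant_qExpansion_mem_span

end Fermat.Agent.S23
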