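import Mathlib

/-!
# S23 helper: functions on the upper half plane with a `q`-expansion

`QAn F` : `F : ℍ → ℂ` is `1`-periodic, holomorphic and bounded at `i∞`.  On such functions
`qExpansion 1` is additive, multiplicative and injective.
-/

set_option autoImplicit false

namespace Fermat.Agent.S23

open UpperHalfPlane Filter Topology
open scoped Manifold

/-- `F : ℍ → ℂ` is `1`-periodic, holomorphic and bounded at `i∞`. -/
structure QAn (F : ℍ → ℂ) : Prop where
  per : Function.Periodic (F ∘ ofComplex) (1 : ℝ)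
  hol : MDiff F
  bdd : IsBoundedAtImInfty F

namespace QAn

variable {F G : ℍ → ℂ}

lemma analytic (hF : QAn F) : AnalyticAt ℂ (cuspFunction 1 F) 0 :=
  analyticAt_cuspFunction_zero one_pos hF.per hF.hol hF.bdd

lemma zero : QAn (0 : ℍ → ℂ) where
  per := fun _ => rfl
  hol := mdifferentiable_const
  bdd := zero_form_isBoundedAtImInfty

lemma const (c : ℂ) : QAn (fun _ : ℍ => c) where
  per := fun _ => rfl
  hol := mdifferentiable_const
  bdd := Filter.const_boundedAtFilter _ c

lemma one : QAn (1 : ℍ → ℂ) := const 1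

lemma add (hF : QAn F) (hG : QAn G) : QAn (F + G) where
  per := hF.per.add hG.per
  hol := hF.hol.add hG.hol
  bdd := hF.bdd.add hG.bdd

lemma neg (hF : QAn F) : QAn (-F) where
  per := fun x => by
    have := hF.per x
    simp only [Function.comp_apply, Pi.neg_apply] at this ⊢
    rw [this]
  hol := hF.hol.neg
  bdd := hF.bdd.neg

lemma sub (hF : QAn F) (hG : QAn G) : QAn (F - G) := by
  rw [sub_eq_add_neg]
  exact hF.add hG.neg

lemma mul (hF : QAn F) (hG : QAn G) : QAn (F * G) where
  per := hF.per.mul hG.per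
  hol := hF.hol.mul hG.hol
  bdd := hF.bdd.mul hG.bdd

lemma smul (c : ℂ) (hF : QAn F) : QAn (c • F) := by
  have h : c • F = (fun _ : ℍ => c) * F := by
    funext τ
    simp
  rw [h]
  exact (const c).mul hF

lemma pow (hF : QAn F) (n : ℕ) : QAn (F ^ n) := by
  induction n with
  | zero => simpa using one
  | succ n ih => rw [pow_succ]; exact ih.mul hF

lemma sum {ι : Type*} (s : Finset ι) {f : ι → ℍ → ℂ} (h : ∀ i ∈ s, QAn (f i)) :
    QAn (∑ i ∈ s, f i) := by
  classical
  induction s using Finset.induction_on with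
  | empty => simpa using zero
  | insert a s ha ih =>
    rw [Finset.sum_insert ha]
    exact (h a (Finset.mem_insert_self a s)).add
      (ih fun i hi => h i (Finset.mem_insert_of_mem hi))

lemma prod {ι : Type*} (s : Finset ι) {f : ι → ℍ → ℂ} (h : ∀ i ∈ s, QAn (f i)) :
    QAn (∏ i ∈ s, f i) := by
  classical
  induction s using Finset.induction_on with
  | empty => simpa using one
  | insert a s ha ih =>
    rw [Finset.prod_insert ha]
    exact (h a (Finset.mem_insert_self a s)).mul
      (ih fun i hi => h i (Finset.mem_insert_of_mem hi))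

/-! ### `q`-expansions -/

lemma qExpansion_add (hF : QAn F) (hG : QAn G) :
    qExpansion 1 (F + G) = qExpansion 1 F + qExpansion 1 G :=
  UpperHalfPlane.qExpansion_add hF.analytic hG.analytic

lemma qExpansion_sub (hF : QAn F) (hG : QAn G) :
    qExpansion 1 (F - G) = qExpansion 1 F - qExpansion 1 G :=
  UpperHalfPlane.qExpansion_sub hF.analytic hG.analytic

lemma qExpansion_neg (hF : QAn F) : qExpansion 1 (-F) = -qExpansion 1 F :=
  UpperHalfPlane.qExpansion_neg hF.analytic

lemma qExpansion_mul (hF : QAn F) (hG : QAn G) :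
    qExpansion 1 (F * G) = qExpansion 1 F * qExpansion 1 G :=
  UpperHalfPlane.qExpansion_mul hF.analytic hG.analytic

lemma qExpansion_smul (c : ℂ) (hF : QAn F) :
    qExpansion 1 (c • F) = c • qExpansion 1 F :=
  UpperHalfPlane.qExpansion_smul hF.analytic c

lemma qExpansion_pow (hF : QAn F) (n : ℕ) :
    qExpansion 1 (F ^ n) = qExpansion 1 F ^ n := by
  induction n with
  | zero => simpa using UpperHalfPlane.qExpansion_one 1
  | succ n ih => rw [pow_succ, pow_succ, qExpansion_mul (hF.pow n) hF, ih]

lemma qExpansion_sum {ι : Type*} (s : Finset ι) {f : ι → ℍ → ℂ} (h : ∀ i ∈ s, QAn (f i)) :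
    qExpansion 1 (∑ i ∈ s, f i) = ∑ i ∈ s, qExpansion 1 (f i) := by
  classical
  induction s using Finset.induction_on with
  | empty => simpa using UpperHalfPlane.qExpansion_zero 1
  | insert a s ha ih =>
    rw [Finset.sum_insert ha, Finset.sum_insert ha,
      qExpansion_add (h a (Finset.mem_insert_self a s))
        (sum s fun i hi => h i (Finset.mem_insert_of_mem hi)),
      ih fun i hi => h i (Finset.mem_insert_of_mem hi)]

lemma eq_zero_of_qExpansion_eq_zero (hF : QAn F) (h : qExpansion 1 F = 0) : F = 0 :=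
  (UpperHalfPlane.qExpansion_eq_zero_iff one_pos hF.per hF.hol hF.bdd).mp h

lemma eq_of_qExpansion_eq (hF : QAn F) (hG : QAn G) (h : qExpansion 1 F = qExpansion 1 G) :
    F = G := by
  have h1 : qExpansion 1 (F - G) = 0 := by
    rw [qExpansion_sub hF hG, h, sub_self]
  exact sub_eq_zero.mp ((hF.sub hG).eq_zero_of_qExpansion_eq_zero h1)

lemma qExpansion_ne_zero (hF : QAn F) (h : F ≠ 0) : qExpansion 1 F ≠ 0 :=
  fun h0 => h (hF.eq_zero_of_qExpansion_eq_zero h0)

/-- A `q`-analytic function tends to the constant term of its `q`-expansion at `i∞`. -/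
lemma tendsto_coeff_zero (hF : QAn F) :
    Tendsto F atImInfty (𝓝 ((qExpansion 1 F).coeff 0)) := by
  have h1 : (qExpansion 1 F).coeff 0 = cuspFunction 1 F 0 := by
    simp [qExpansion_coeff]
  rw [h1]
  have h2 : (cuspFunction 1 F ∘ fun τ : ℍ => Function.Periodic.qParam 1 τ) = F := by
    funext τ
    simpa using eq_cuspFunction τ one_ne_zero hF.per
  have h3 := hF.analytic.continuousAt.tendsto.comp (qParam_tendsto_atImInfty one_pos)
  rwa [h2] at h3

lemma isZeroAtImInfty_iff (hF : QAn F) :
    IsZeroAtImInfty F ↔ (qExpansion 1 F).coeff 0 = 0 := by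
  constructor
  · intro h
    exact tendsto_nhds_unique hF.tendsto_coeff_zero h
  · intro h
    have := hF.tendsto_coeff_zero
    rwa [h] at this

end QAn

end Fermat.Agent.S23
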