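import Mathlib
import Fermat.Prelude.Def_ModularForm_HeckeOperator
import Fermat.Prelude.Thm_CongruenceSubgroup_one_mem_strictPeriods_Gamma0

set_option autoImplicit false

open UpperHalfPlane ModularForm Filter Topology
open scoped MatrixGroups ModularForm Manifold Pointwise

namespace Fermat.Agent.S23

namespace Theta

local notation "𝕢" => Function.Periodic.qParam

/-- A modular form with strict period `1` tends to its constant `q`-coefficient at `i∞`. -/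
theorem tendsto_atImInfty_coeff_zero {Γ : Subgroup (GL (Fin 2) ℝ)} {k : ℤ} (f : ModularForm Γ k)
    (hΓ : (1 : ℝ) ∈ Γ.strictPeriods) :
    Tendsto (f : ℍ → ℂ) atImInfty (𝓝 ((qExpansion 1 f).coeff 0)) := by
  have han := ModularFormClass.analyticAt_cuspFunction_zero f one_pos hΓ
  have hper := SlashInvariantFormClass.periodic_comp_ofComplex f hΓ
  have h0 : (qExpansion 1 f).coeff 0 = cuspFunction 1 f 0 := by
    simp [qExpansion_coeff]
  have hcomp : (cuspFunction 1 f ∘ fun τ : ℍ ↦ 𝕢 1 τ : ℍ → ℂ) = f := by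
    funext τ
    simpa using eq_cuspFunction τ one_ne_zero hper
  rw [h0]
  simpa [hcomp] using han.continuousAt.tendsto.comp (qParam_tendsto_atImInfty one_pos)

/-- Entries of the image of an integral matrix in `GL(2, ℝ)`. -/
theorem mapGL_apply (γ : SL(2, ℤ)) (i j : Fin 2) :
    ((Matrix.SpecialLinearGroup.mapGL ℝ γ : GL (Fin 2) ℝ) : Matrix (Fin 2) (Fin 2) ℝ) i j =
      ((γ i j : ℤ) : ℝ) := rfl

/-- `Γ₀(N) ≤ α⁻¹ SL₂(ℤ) α` for `α = diag(N, 1)`. -/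
theorem gamma0_le_conj (N : ℕ) [NeZero N] :
    ((CongruenceSubgroup.Gamma0 N : Subgroup SL(2, ℤ)) : Subgroup (GL (Fin 2) ℝ)) ≤
      ConjAct.toConjAct (heckeDiagMatrix N)⁻¹ • 𝒮ℒ := by
  rintro _ ⟨γ, hγ, rfl⟩
  rw [Subgroup.mem_pointwise_smul_iff_inv_smul_mem, ConjAct.smul_def]
  simp only [map_inv, inv_inv, ConjAct.ofConjAct_toConjAct]
  have hN : N ≠ 0 := NeZero.ne N
  have hγ' : ((γ 1 0 : ℤ) : ZMod N) = 0 := CongruenceSubgroup.Gamma0_mem.mp hγ
  rw [ZMod.intCast_zmod_eq_zero_iff_dvd] at hγ'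
  obtain ⟨c', hc'⟩ := hγ'
  have hdet : γ 0 0 * γ 1 1 - γ 0 1 * γ 1 0 = 1 := by
    have := γ.det_coe
    rw [Matrix.det_fin_two] at this
    exact this
  let γ' : SL(2, ℤ) := ⟨!![γ 0 0, N * γ 0 1; c', γ 1 1], by
    rw [Matrix.det_fin_two_of]
    rw [hc'] at hdet
    linear_combination hdet⟩
  refine ⟨γ', ?_⟩
  rw [eq_mul_inv_iff_mul_eq]
  apply Units.ext
  rw [Units.val_mul, Units.val_mul, val_heckeDiagMatrix hN]
  have e00 : γ' 0 0 = γ 0 0 := rfl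
  have e01 : γ' 0 1 = N * γ 0 1 := rfl
  have e10 : γ' 1 0 = c' := rfl
  have e11 : γ' 1 1 = γ 1 1 := rfl
  ext i j
  simp only [Matrix.mul_apply, Fin.sum_univ_two, mapGL_apply]
  fin_cases i <;> fin_cases j <;> simp [e00, e01, e10, e11, hc'] <;> ring

/-- The form `θ = E₄ ∣[4] diag(N,1)`, i.e. `θ(τ) = N³ E₄(Nτ)`, as a modular form on `Γ₀(N)`. -/
noncomputable def theta (N : ℕ) [NeZero N] : ModularForm (CongruenceSubgroup.Gamma0 N) 4 where
  toFun := (E₄ : ℍ → ℂ) ∣[(4 : ℤ)] heckeDiagMatrix N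
  slash_action_eq' γ hγ :=
    (ModularForm.translate E₄ (heckeDiagMatrix N)).slash_action_eq' γ (gamma0_le_conj N hγ)
  holo' := (ModularForm.translate E₄ (heckeDiagMatrix N)).holo'
  bdd_at_cusps' hc :=
    (ModularForm.translate E₄ (heckeDiagMatrix N)).bdd_at_cusps' (hc.mono (gamma0_le_conj N))

theorem coe_theta (N : ℕ) [NeZero N] :
    (theta N : ℍ → ℂ) = (E₄ : ℍ → ℂ) ∣[(4 : ℤ)] heckeDiagMatrix N := rfl

theorem theta_apply (N : ℕ) [NeZero N] (τ : ℍ) :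
    theta N τ = (N : ℂ) ^ 3 * E₄ (heckeDiagMatrix N • τ) := by
  show ((E₄ : ℍ → ℂ) ∣[(4 : ℤ)] heckeDiagMatrix N) τ = _
  rw [slash_heckeDiagMatrix_apply 4 (NeZero.ne N)]
  norm_num

theorem qParam_heckeDiagMatrix_smul (N : ℕ) [NeZero N] (τ : ℍ) :
    𝕢 1 ((heckeDiagMatrix N • τ : ℍ) : ℂ) = 𝕢 1 (τ : ℂ) ^ N := by
  rw [coe_heckeDiagMatrix_smul (NeZero.ne N), Function.Periodic.qParam, Function.Periodic.qParam,
    ← Complex.exp_nat_mul]
  congr 1
  push_cast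
  ring

/-- The `q`-coefficients of `E₄` are integers. -/
theorem E4_coeff_int (m : ℕ) : ∃ z : ℤ, (qExpansion 1 E₄).coeff m = (z : ℂ) := by
  rw [EisensteinSeries.E_qExpansion_coeff (by norm_num) ⟨2, rfl⟩ m]
  split_ifs with h
  · exact ⟨1, by simp⟩
  · refine ⟨240 * (ArithmeticFunction.sigma 3 m : ℤ), ?_⟩
    rw [show bernoulli 4 = -1 / 30 by decide +kernel]
    push_cast
    norm_num

/-- The sequence of `q`-coefficients of `θ`. -/
noncomputable def thetaCoeff (N : ℕ) (n : ℕ) : ℂ :=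
  if N ∣ n then (N : ℂ) ^ 3 * (qExpansion 1 E₄).coeff (n / N) else 0

theorem hasSum_thetaCoeff (N : ℕ) [NeZero N] (τ : ℍ) :
    HasSum (fun n ↦ thetaCoeff N n • 𝕢 1 (τ : ℂ) ^ n) (theta N τ) := by
  have hN : N ≠ 0 := NeZero.ne N
  have h := (ModularForm.hasSum_qExpansion E₄ one_pos one_mem_strictPeriods_SL
    (heckeDiagMatrix N • τ)).mul_left ((N : ℂ) ^ 3)
  rw [← theta_apply, qParam_heckeDiagMatrix_smul] at h
  have hinj : Function.Injective (fun m : ℕ ↦ N * m) := fun a b hab ↦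
    Nat.eq_of_mul_eq_mul_left (Nat.pos_of_ne_zero hN) hab
  rw [← hinj.hasSum_iff]
  · have hfun : ((fun n ↦ thetaCoeff N n • 𝕢 1 (τ : ℂ) ^ n) ∘ fun m ↦ N * m) =
        fun i ↦ (N : ℂ) ^ 3 * ((qExpansion 1 E₄).coeff i * (𝕢 1 (τ : ℂ) ^ N) ^ i) := by
      funext m
      simp only [Function.comp_apply, thetaCoeff, dvd_mul_right, if_true,
        Nat.mul_div_cancel_left _ (Nat.pos_of_ne_zero hN), smul_eq_mul, pow_mul]
      ring
    rw [hfun]
    exact h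
  · intro n hn
    have : ¬ N ∣ n := fun ⟨m, hm⟩ ↦ hn ⟨m, hm.symm⟩
    simp [thetaCoeff, this]

theorem qExpansion_theta_coeff (N : ℕ) [NeZero N] (n : ℕ) :
    (qExpansion 1 (theta N)).coeff n = thetaCoeff N n :=
  (ModularFormClass.qExpansion_coeff_unique one_pos
    (CongruenceSubgroup.one_mem_strictPeriods_Gamma0 N) (hasSum_thetaCoeff N) n).symm

theorem theta_coeff_int (N : ℕ) [NeZero N] (n : ℕ) :
    ∃ z : ℤ, (qExpansion 1 (theta N)).coeff n = (z : ℂ) := by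
  rw [qExpansion_theta_coeff, thetaCoeff]
  split_ifs with h
  · obtain ⟨z, hz⟩ := E4_coeff_int (n / N)
    exact ⟨(N : ℤ) ^ 3 * z, by rw [hz]; push_cast; ring⟩
  · exact ⟨0, by simp⟩

/-- An upper triangular matrix of `GL(2, ℝ)` maps neighbourhoods of `i∞` to neighbourhoods of
`i∞`. -/
theorem tendsto_smul_atImInfty_of_upper (g : GL (Fin 2) ℝ)
    (h10 : (g : Matrix (Fin 2) (Fin 2) ℝ) 1 0 = 0) :
    Tendsto (fun τ : ℍ ↦ g • τ) atImInfty atImInfty := by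
  rw [atImInfty, tendsto_comap_iff]
  have hdet : (g : Matrix (Fin 2) (Fin 2) ℝ).det ≠ 0 := by
    rw [← Matrix.GeneralLinearGroup.val_det_apply]
    exact Units.ne_zero _
  have h11 : (g : Matrix (Fin 2) (Fin 2) ℝ) 1 1 ≠ 0 := by
    intro h
    apply hdet
    rw [Matrix.det_fin_two, h10, h]
    ring
  have him : ∀ τ : ℍ, (g • τ).im =
      (|(g : Matrix (Fin 2) (Fin 2) ℝ).det| / ((g : Matrix (Fin 2) (Fin 2) ℝ) 1 1) ^ 2) * τ.im := by
    intro τ
    rw [im_smul_eq_div_normSq, Matrix.GeneralLinearGroup.val_det_apply, denom, h10]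
    simp only [Complex.ofReal_zero, zero_mul, zero_add, Complex.normSq_ofReal]
    field_simp
  have hc : 0 < |(g : Matrix (Fin 2) (Fin 2) ℝ).det| / ((g : Matrix (Fin 2) (Fin 2) ℝ) 1 1) ^ 2 :=
    div_pos (abs_pos.mpr hdet) (by positivity)
  have : (im ∘ fun τ : ℍ ↦ g • τ) =
      fun τ : ℍ ↦ (|(g : Matrix (Fin 2) (Fin 2) ℝ).det| /
        ((g : Matrix (Fin 2) (Fin 2) ℝ) 1 1) ^ 2) * τ.im := by
    funext τ
    exact him τ
  rw [this]
  exact Tendsto.const_mul_atTop hc tendsto_comap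

/-- Slash action of an upper triangular matrix with positive diagonal entries. -/
theorem slash_upperTriangularGL_apply (k : ℤ) (a b d : ℝ) (ha : 0 < a) (hd : 0 < d)
    (f : ℍ → ℂ) (τ : ℍ) :
    (f ∣[k] upperTriangularGL a b d (mul_pos ha hd).ne') τ =
      f (upperTriangularGL a b d (mul_pos ha hd).ne' • τ) * ((a * d : ℝ) : ℂ) ^ (k - 1) *
        (d : ℂ) ^ (-k) := by
  have hdet : ((upperTriangularGL a b d (mul_pos ha hd).ne').det : ℝ) = a * d := by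
    rw [Matrix.GeneralLinearGroup.val_det_apply, val_upperTriangularGL, Matrix.det_fin_two_of]
    ring
  have hσ : UpperHalfPlane.σ (upperTriangularGL a b d (mul_pos ha hd).ne') = .refl ℝ ℂ := by
    rw [UpperHalfPlane.σ, if_pos (by rw [hdet]; exact mul_pos ha hd)]
  rw [ModularForm.slash_apply, hσ, hdet, abs_of_pos (mul_pos ha hd)]
  simp [UpperHalfPlane.denom, val_upperTriangularGL]

/-- The stabiliser of `θ` in `SL(2, ℤ)` (for the weight 4 slash action) is contained in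
`Γ₀(N)`. -/
theorem mem_Gamma0_of_theta_slash_eq (N : ℕ) [NeZero N] (γ : SL(2, ℤ))
    (h : (theta N : ℍ → ℂ) ∣[(4 : ℤ)] γ = theta N) : γ ∈ CongruenceSubgroup.Gamma0 N := by
  have hN : N ≠ 0 := NeZero.ne N
  have hNpos : (0 : ℝ) < N := by exact_mod_cast Nat.pos_of_ne_zero hN
  have hdet : γ 0 0 * γ 1 1 - γ 0 1 * γ 1 0 = 1 := by
    have := γ.det_coe
    rw [Matrix.det_fin_two] at this
    exact this
  -- the gcd of the first column of `diag(N,1) * γ`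
  have hgpos : 0 < Int.gcd ((N : ℤ) * γ 0 0) (γ 1 0) := by
    rw [Int.gcd_pos_iff]
    by_contra hcon
    rw [not_or, not_not, not_not] at hcon
    obtain ⟨h1, h2⟩ := hcon
    have hA : γ 0 0 = 0 := by
      rcases mul_eq_zero.mp h1 with h | h
      · exact absurd (by exact_mod_cast h) hN
      · exact h
    rw [hA, h2] at hdet
    simp at hdet
  obtain ⟨x, y, hxy, hx, hy⟩ := Int.exists_gcd_one hgpos
  set g : ℕ := Int.gcd ((N : ℤ) * γ 0 0) (γ 1 0) with hg_def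
  have hgR : (0 : ℝ) < g := by exact_mod_cast hgpos
  obtain ⟨σ, hσ0, hσ1⟩ := (Int.isCoprime_iff_gcd_eq_one.mpr hxy).exists_SL2_col 0
  have hdetσ : σ 0 0 * σ 1 1 - σ 0 1 * σ 1 0 = 1 := by
    have := σ.det_coe
    rw [Matrix.det_fin_two] at this
    exact this
  -- real versions of the relations
  have hxR : (N : ℝ) * (γ 0 0 : ℤ) = (x : ℝ) * g := by exact_mod_cast hx
  have hyR : ((γ 1 0 : ℤ) : ℝ) = (y : ℝ) * g := by exact_mod_cast hy
  have hdetR : ((γ 0 0 : ℤ) : ℝ) * (γ 1 1 : ℤ) - (γ 0 1 : ℤ) * (γ 1 0 : ℤ) = 1 := by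
    exact_mod_cast hdet
  have hdetσR : (x : ℝ) * (σ 1 1 : ℤ) - (σ 0 1 : ℤ) * y = 1 := by
    rw [hσ0, hσ1] at hdetσ
    exact_mod_cast hdetσ
  -- the upper triangular matrix `T = σ⁻¹ * diag(N,1) * γ`
  set t : ℝ := (σ 1 1 : ℤ) * N * (γ 0 1 : ℤ) - (σ 0 1 : ℤ) * (γ 1 1 : ℤ) with ht
  have hNg : (0 : ℝ) < (N : ℝ) / g := div_pos hNpos hgR
  set T : GL (Fin 2) ℝ := upperTriangularGL (g : ℝ) t ((N : ℝ) / g) (mul_pos hgR hNg).ne' with hT
  have hmat : Matrix.SpecialLinearGroup.mapGL ℝ σ * T =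
      heckeDiagMatrix N * Matrix.SpecialLinearGroup.mapGL ℝ γ := by
    apply Units.ext
    rw [Units.val_mul, Units.val_mul, val_heckeDiagMatrix hN, hT, val_upperTriangularGL]
    ext i j
    simp only [Matrix.mul_apply, Fin.sum_univ_two, mapGL_apply]
    fin_cases i <;> fin_cases j <;> simp [hσ0, hσ1]
    · linear_combination -hxR
    · rw [ht]
      field_simp
      linear_combination ((g : ℝ) * N * (γ 0 1 : ℤ)) * hdetσR +
        ((σ 0 1 : ℤ) : ℝ) * (-(N : ℝ) * (γ 0 1 : ℤ) * hyR + (γ 1 1 : ℤ) * hxR - N * hdetR)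
    · linear_combination -hyR
    · rw [ht]
      field_simp
      linear_combination ((g : ℝ) * (γ 1 1 : ℤ)) * hdetσR +
        ((σ 1 1 : ℤ) : ℝ) * (-(N : ℝ) * (γ 0 1 : ℤ) * hyR + (γ 1 1 : ℤ) * hxR - N * hdetR)
  -- `E₄ ∣ T = θ`
  have hE4T : (E₄ : ℍ → ℂ) ∣[(4 : ℤ)] T = theta N := by
    have h1 : (E₄ : ℍ → ℂ) ∣[(4 : ℤ)] (Matrix.SpecialLinearGroup.mapGL ℝ σ * T) =
        (E₄ : ℍ → ℂ) ∣[(4 : ℤ)] T := by
      rw [SlashAction.slash_mul,
        SlashInvariantFormClass.slash_action_eq E₄ _ (MonoidHom.mem_range.mpr ⟨σ, rfl⟩)]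
    rw [← h1, hmat, SlashAction.slash_mul, ← coe_theta]
    rw [ModularForm.SL_slash] at h
    exact h
  -- evaluate both sides
  have key : ∀ τ : ℍ, E₄ (T • τ) * ((N : ℂ) ^ 3 * ((N : ℂ) / g) ^ (-4 : ℤ)) =
      (N : ℂ) ^ 3 * E₄ (heckeDiagMatrix N • τ) := by
    intro τ
    have h2 := congrFun hE4T τ
    have h3 : (((g : ℝ) * ((N : ℝ) / g) : ℝ) : ℂ) = (N : ℂ) := by
      have : (g : ℝ) * ((N : ℝ) / g) = N := by field_simp
      rw [this]
      simp
    have h5 : (N : ℂ) ^ ((4 : ℤ) - 1) = (N : ℂ) ^ 3 := by norm_num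
    have h6 : (((N : ℝ) / g : ℝ) : ℂ) = (N : ℂ) / g := by push_cast; rfl
    rw [hT, slash_upperTriangularGL_apply 4 _ _ _ hgR hNg, ← hT, theta_apply, h3, h5, h6] at h2
    rw [← h2]
    ring
  -- limits at `i∞`
  have hE4 : Tendsto (E₄ : ℍ → ℂ) atImInfty (𝓝 1) := by
    have := tendsto_atImInfty_coeff_zero E₄ one_mem_strictPeriods_SL
    rwa [EisensteinSeries.E_qExpansion_coeff_zero (by norm_num) ⟨2, rfl⟩] at this
  have hlim1 : Tendsto (fun τ : ℍ ↦ E₄ (T • τ) * ((N : ℂ) ^ 3 * ((N : ℂ) / g) ^ (-4 : ℤ)))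
      atImInfty (𝓝 (1 * ((N : ℂ) ^ 3 * ((N : ℂ) / g) ^ (-4 : ℤ)))) :=
    (hE4.comp (tendsto_smul_atImInfty_of_upper T (by rw [hT, val_upperTriangularGL]; rfl))).mul_const _
  have hlim2 : Tendsto (fun τ : ℍ ↦ (N : ℂ) ^ 3 * E₄ (heckeDiagMatrix N • τ))
      atImInfty (𝓝 ((N : ℂ) ^ 3 * 1)) :=
    (hE4.comp (tendsto_smul_atImInfty_of_upper (heckeDiagMatrix N)
      (by rw [val_heckeDiagMatrix hN]; rfl))).const_mul _
  have hfun : (fun τ : ℍ ↦ E₄ (T • τ) * ((N : ℂ) ^ 3 * ((N : ℂ) / g) ^ (-4 : ℤ))) =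
      fun τ : ℍ ↦ (N : ℂ) ^ 3 * E₄ (heckeDiagMatrix N • τ) := funext key
  rw [hfun] at hlim1
  have : (atImInfty).NeBot := by
    rw [atImInfty]
    exact comap_neBot (fun t ht ↦ by
      obtain ⟨a, ha⟩ := mem_atTop_sets.mp ht
      exact ⟨⟨⟨0, max a 1⟩, by positivity⟩, ha _ (le_max_left _ _)⟩)
  have heq := tendsto_nhds_unique hlim1 hlim2
  -- hence `g = N`
  have hNC : (N : ℂ) ≠ 0 := by exact_mod_cast hN
  have hgC : (g : ℂ) ≠ 0 := by exact_mod_cast hgpos.ne'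
  have h4 : ((N : ℂ) / g) ^ 4 = 1 := by
    have h5 : ((N : ℂ) / g) ^ (-4 : ℤ) = 1 := by
      have h6 : (N : ℂ) ^ 3 * ((N : ℂ) / g) ^ (-4 : ℤ) = (N : ℂ) ^ 3 * 1 := by
        simpa using heq
      exact mul_left_cancel₀ (pow_ne_zero 3 hNC) h6
    rw [zpow_neg, inv_eq_one] at h5
    exact_mod_cast h5
  have h4R : ((N : ℝ) / g) ^ 4 = 1 := by
    apply Complex.ofReal_injective
    push_cast
    exact h4
  have hone : (N : ℝ) / g = 1 :=
    (pow_eq_one_iff_of_nonneg hNg.le (by norm_num)).mp h4R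
  have hgN : (g : ℝ) = N := by
    field_simp at hone
    exact hone.symm
  have hgN' : g = N := by exact_mod_cast hgN
  rw [CongruenceSubgroup.Gamma0_mem, ZMod.intCast_zmod_eq_zero_iff_dvd]
  rw [hy, hgN']
  exact Dvd.intro_left y rfl

/-- The `q`-expansion of `θ` is fixed by every ring endomorphism of `ℂ`. -/
theorem theta_qExpansion_map (N : ℕ) [NeZero N] (s : ℂ →+* ℂ) :
    (qExpansion 1 (theta N)).map s = qExpansion 1 (theta N) := by
  ext n
  rw [PowerSeries.coeff_map]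
  obtain ⟨z, hz⟩ := theta_coeff_int N n
  rw [hz, map_intCast]

/-- The constant coefficient of `θ` is `N ^ 3`. -/
theorem theta_coeff_zero (N : ℕ) [NeZero N] : (qExpansion 1 (theta N)).coeff 0 = (N : ℂ) ^ 3 := by
  rw [qExpansion_theta_coeff, thetaCoeff, if_pos (dvd_zero N), Nat.zero_div,
    EisensteinSeries.E_qExpansion_coeff_zero (by norm_num) ⟨2, rfl⟩, mul_one]

theorem theta_ne_zero (N : ℕ) [NeZero N] : (theta N : ℍ → ℂ) ≠ 0 := by
  intro h
  have h0 := theta_coeff_zero N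
  rw [h, qExpansion_zero] at h0
  have hN : (N : ℂ) ≠ 0 := by exact_mod_cast NeZero.ne N
  exact pow_ne_zero 3 hN (by simpa using h0.symm)

end Theta

/-- **L3**: there is a weight 4 modular form on `Γ₀(N)` with integral `q`-expansion whose
stabiliser in `SL(2, ℤ)` is contained in `Γ₀(N)`. -/
theorem exists_theta (N : ℕ) [NeZero N] :
    ∃ θ : ModularForm (CongruenceSubgroup.Gamma0 N) 4,
      (∀ n, ∃ m : ℤ, (qExpansion 1 θ).coeff n = (m : ℂ)) ∧
      ∀ γ : SL(2, ℤ), (⇑θ) ∣[(4 : ℤ)] γ = ⇑θ → γ ∈ CongruenceSubgroup.Gamma0 N :=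
  ⟨Theta.theta N, Theta.theta_coeff_int N, Theta.mem_Gamma0_of_theta_slash_eq N⟩

end Fermat.Agent.S23
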