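import Mathlib
import Fermat.Prelude.Def_CuspForm_IntegralStructure
import Fermat.Prelude.Thm_CongruenceSubgroup_one_mem_strictPeriods_Gamma0
import Fermat.Agent.S23.Defs
import Fermat.Agent.S23.QAnalytic
import Fermat.Agent.S23.LevelOneInt
import Fermat.Agent.S23.Theta

/-!
# S23, task BDforms (core): `q`-expansion bookkeeping for bounded denominators

This file contains the `q`-expansion bookkeeping:

* `BDForms.integral_of_relation` (E1, core): a pointwise monic relation with level one
  coefficients gives a monic relation for the `q`-expansion with coefficients in the `ℂ`-span of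
  the integral power series;
* `BDForms.frac_of_relation` (E2, core): a pointwise identity `b f = ∑ r_j θ^j` exhibits the
  `q`-expansion of `f` as a quotient of two elements of that span;
* `BDForms.natCast_zsmul_mem_intLattice`: clearing denominators puts a multiple of a cusp form
  in `CuspForm.intLattice`.
-/

set_option autoImplicit false

open UpperHalfPlane ModularForm ModularFormClass CongruenceSubgroup
open scoped MatrixGroups Manifold

namespace Fermat.Agent.S23

namespace BDForms

/-- `intSpan` is the `ℂ`-span of the image of `ℤ⟦X⟧`. -/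
theorem intSpan_eq_span_range :
    intSpan = Submodule.span ℂ (Set.range (PowerSeries.map (Int.castRingHom ℂ))) := by
  unfold intSpan
  congr 1
  ext p
  exact isIntSeries_iff_mem_intSubring p

/-- A modular form on a group having `1` as a strict period is `q`-analytic. -/
theorem qan_of_modularForm {Γ : Subgroup (GL (Fin 2) ℝ)} [Γ.IsArithmetic] {k : ℤ}
    (f : ModularForm Γ k) (hΓ : (1 : ℝ) ∈ Γ.strictPeriods) : QAn ⇑f where
  per := SlashInvariantFormClass.periodic_comp_ofComplex f hΓ
  hol := f.holo'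
  bdd := ModularFormClass.bdd_at_infty f

/-- A level one modular form is `q`-analytic. -/
theorem qan_levelOne {w : ℤ} (g : ModularForm 𝒮ℒ w) : QAn ⇑g :=
  qan_of_modularForm g one_mem_strictPeriods_SL

/-- A modular form on `Γ₀(N)` is `q`-analytic. -/
theorem qan_gamma0 (N : ℕ) [NeZero N] {k : ℤ} (f : ModularForm (Gamma0 N) k) : QAn ⇑f :=
  qan_of_modularForm f (one_mem_strictPeriods_Gamma0 N)

/-- A cusp form on `Γ₀(N)` is `q`-analytic. -/
theorem qan_cusp (N : ℕ) [NeZero N] {k : ℤ} (f : CuspForm (Gamma0 N) k) : QAn ⇑f :=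
  qan_gamma0 N (CuspForm.toModularFormₗ f)

/-- **E1, core.**  A pointwise monic relation with level one coefficients for a `q`-analytic
function gives a monic relation for its `q`-expansion with coefficients in the span of the
integral power series. -/
theorem integral_of_relation {f : ℍ → ℂ} (hf : QAn f) (d : ℕ) (c : Fin d → ℍ → ℂ)
    (hc : ∀ i : Fin d, ∃ (w : ℤ) (g : ModularForm 𝒮ℒ w), ⇑g = c i)
    (hrel : ∀ z, f z ^ d + ∑ i, c i z * f z ^ (i : ℕ) = 0) :
    ∃ C : Fin d → PowerSeries ℂ,
      (∀ i, C i ∈ Submodule.span ℂ (Set.range (PowerSeries.map (Int.castRingHom ℂ)))) ∧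
      qExpansion 1 f ^ d + ∑ i, C i * qExpansion 1 f ^ (i : ℕ) = 0 := by
  have hcq : ∀ i, QAn (c i) := fun i => by
    obtain ⟨w, g, hg⟩ := hc i
    rw [← hg]
    exact qan_levelOne g
  refine ⟨fun i => qExpansion 1 (c i), fun i => ?_, ?_⟩
  · obtain ⟨w, g, hg⟩ := hc i
    show qExpansion 1 (c i) ∈ _
    rw [← hg]
    exact levelOne_qExpansion_mem_span_range g
  · have hfun : f ^ d + ∑ i, c i * f ^ (i : ℕ) = 0 := by
      funext z
      simpa using hrel z
    have hterm : ∀ i : Fin d, QAn (c i * f ^ (i : ℕ)) := fun i => (hcq i).mul (hf.pow _)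
    have h1 : qExpansion 1 (f ^ d + ∑ i, c i * f ^ (i : ℕ)) =
        qExpansion 1 f ^ d + ∑ i, qExpansion 1 (c i) * qExpansion 1 f ^ (i : ℕ) := by
      rw [QAn.qExpansion_add (hf.pow d) (QAn.sum _ fun i _ => hterm i), QAn.qExpansion_pow hf,
        QAn.qExpansion_sum _ fun i _ => hterm i]
      congr 1
      refine Finset.sum_congr rfl fun i _ => ?_
      rw [QAn.qExpansion_mul (hcq i) (hf.pow _), QAn.qExpansion_pow hf]
    rw [← h1, hfun, qExpansion_zero]

/-- **E2, core.**  A pointwise identity `b f = ∑ r_j θ^j` with `b ≠ 0`, `r_j` of level one and `θ`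
with integral `q`-expansion exhibits the `q`-expansion of `f` as a quotient of two elements of
the span of the integral power series. -/
theorem frac_of_relation {f θ b : ℍ → ℂ} (hf : QAn f) (hθ : QAn θ)
    (hθint : ∀ n, ∃ m : ℤ, (qExpansion 1 θ).coeff n = (m : ℂ))
    (hb : ∃ (W : ℤ) (g : ModularForm 𝒮ℒ W), ⇑g = b) (hb0 : b ≠ 0)
    (d : ℕ) (r : Fin d → ℍ → ℂ)
    (hr : ∀ j : Fin d, ∃ (w : ℤ) (R : ModularForm 𝒮ℒ w), ⇑R = r j)
    (hrel : ∀ z, b z * f z = ∑ j, r j z * θ z ^ (j : ℕ)) :
    ∃ A B : PowerSeries ℂ,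
      A ∈ Submodule.span ℂ (Set.range (PowerSeries.map (Int.castRingHom ℂ))) ∧
      B ∈ Submodule.span ℂ (Set.range (PowerSeries.map (Int.castRingHom ℂ))) ∧
      B ≠ 0 ∧ B * qExpansion 1 f = A := by
  have hrq : ∀ j, QAn (r j) := fun j => by
    obtain ⟨w, R, hR⟩ := hr j
    rw [← hR]
    exact qan_levelOne R
  have hbq : QAn b := by
    obtain ⟨W, g, hg⟩ := hb
    rw [← hg]
    exact qan_levelOne g
  have hθspan : qExpansion 1 θ ∈
      Submodule.span ℂ (Set.range (PowerSeries.map (Int.castRingHom ℂ))) := by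
    obtain ⟨q, hq⟩ := (isIntSeries_iff_mem_intSubring _).mp hθint
    exact Submodule.subset_span ⟨q, hq⟩
  have hterm : ∀ j : Fin d, QAn (r j * θ ^ (j : ℕ)) := fun j => (hrq j).mul (hθ.pow _)
  refine ⟨∑ j, qExpansion 1 (r j) * qExpansion 1 θ ^ (j : ℕ), qExpansion 1 b, ?_, ?_, ?_, ?_⟩
  · refine Submodule.sum_mem _ fun j _ => ?_
    refine LevelOneInt.span_mul_mem ?_ (LevelOneInt.span_pow_mem hθspan _)
    obtain ⟨w, R, hR⟩ := hr j
    rw [← hR]
    exact levelOne_qExpansion_mem_span_range R
  · obtain ⟨W, g, hg⟩ := hb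
    rw [← hg]
    exact levelOne_qExpansion_mem_span_range g
  · exact hbq.qExpansion_ne_zero hb0
  · have hfun : b * f = ∑ j, r j * θ ^ (j : ℕ) := by
      funext z
      simpa using hrel z
    rw [← QAn.qExpansion_mul hbq hf, hfun, QAn.qExpansion_sum _ fun j _ => hterm j]
    refine Finset.sum_congr rfl fun j _ => ?_
    rw [QAn.qExpansion_mul (hrq j) (hθ.pow _), QAn.qExpansion_pow hθ]

/-- A positive integer clearing the denominators of all `q`-coefficients of a cusp form puts the
corresponding multiple in the integral lattice. -/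
theorem natCast_zsmul_mem_intLattice (N : ℕ) [NeZero N] {k : ℤ} (f : CuspForm (Gamma0 N) k)
    (M : ℕ) (h : ∀ n, ∃ m : ℤ, (M : ℂ) * (qExpansion 1 f).coeff n = (m : ℂ)) :
    (M : ℤ) • f ∈ CuspForm.intLattice N k := by
  refine Submodule.subset_span ?_
  intro n
  obtain ⟨m, hm⟩ := h n
  refine ⟨m, ?_⟩
  rw [← hm]
  unfold qCoeff
  have h1 : (⇑((M : ℤ) • f) : ℍ → ℂ) = (M : ℂ) • ⇑f := by
    funext z
    simp
  rw [h1, QAn.qExpansion_smul _ (qan_cusp N f)]
  simp

end BDForms

end Fermat.Agent.S23
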