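import Mathlib
import Fermat.Agent.S23.Defs

/-!
# Bounded denominators (pure power-series algebra)

`intSpan` (from `Defs.lean`) is the `ℂ`-span of the power series with integer coefficients.
Main result:
`bounded_denominators`: a power series `x` with rational coefficients which is integral over
`intSpan` (monic relation with coefficients in `intSpan`) and is a fraction `A / B` of elements of
`intSpan` has bounded denominators.
-/

set_option autoImplicit false

namespace Fermat.Agent.S23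

open PowerSeries

/-- The subring of `ℚ⟦X⟧` of power series with integer coefficients. -/
noncomputable def intRange : Subring (PowerSeries ℚ) := (PowerSeries.map (Int.castRingHom ℚ)).range

theorem mem_intRange_iff {p : PowerSeries ℚ} :
    p ∈ intRange ↔ ∀ n, ∃ z : ℤ, PowerSeries.coeff n p = (z : ℚ) := by
  constructor
  · rintro ⟨r, rfl⟩ n
    exact ⟨PowerSeries.coeff n r, by simp⟩
  · intro h
    choose z hz using h
    refine ⟨PowerSeries.mk z, ?_⟩
    ext n
    simp [hz n]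

theorem C_int_mem_intRange (z : ℤ) : PowerSeries.C (z : ℚ) ∈ intRange :=
  ⟨PowerSeries.C z, by simp⟩

theorem C_nat_mem_intRange (n : ℕ) : PowerSeries.C (n : ℚ) ∈ intRange :=
  ⟨PowerSeries.C (n : ℤ), by simp⟩

theorem X_pow_mem_intRange (m : ℕ) : (PowerSeries.X : PowerSeries ℚ) ^ m ∈ intRange :=
  ⟨PowerSeries.X ^ m, by simp⟩

theorem mem_intRange_of_X_pow_mul {m : ℕ} {p : PowerSeries ℚ}
    (h : PowerSeries.X ^ m * p ∈ intRange) : p ∈ intRange := by
  rw [mem_intRange_iff] at h ⊢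
  intro n
  obtain ⟨z, hz⟩ := h (n + m)
  refine ⟨z, ?_⟩
  rw [← hz, PowerSeries.coeff_X_pow_mul]

/-- A rational number `x` with `c * x ^ m ∈ ℤ` for all `m` (`c ≠ 0`) is an integer. -/
theorem rat_isInt_of_mul_pow (c : ℤ) (hc : c ≠ 0) (x : ℚ)
    (h : ∀ m : ℕ, ∃ z : ℤ, (c : ℚ) * x ^ m = z) : ∃ z : ℤ, x = z := by
  have hint : IsIntegral ℤ x := by
    refine IsIntegral.of_mem_of_fg (Algebra.adjoin ℤ {x}) ?_ x (Algebra.subset_adjoin rfl)
    have hle : (Algebra.adjoin ℤ {x}).toSubmodule ≤ Submodule.span ℤ {(c : ℚ)⁻¹} := by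
      intro y hy
      rw [Subalgebra.mem_toSubmodule, Algebra.adjoin_singleton_eq_range_aeval] at hy
      obtain ⟨p, rfl⟩ := hy
      show Polynomial.aeval x p ∈ _
      rw [Polynomial.aeval_eq_sum_range]
      refine Submodule.sum_mem _ fun i _ => ?_
      obtain ⟨z, hz⟩ := h i
      rw [Submodule.mem_span_singleton]
      refine ⟨p.coeff i * z, ?_⟩
      have hc' : (c : ℚ) ≠ 0 := by exact_mod_cast hc
      have : x ^ i = (z : ℚ) * (c : ℚ)⁻¹ := by
        rw [← hz]; field_simp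
      simp only [zsmul_eq_mul, Int.cast_mul, this]
      ring
    exact Submodule.FG.of_le_of_isNoetherian hle
  obtain ⟨z, hz⟩ := IsIntegrallyClosed.isIntegral_iff.mp hint
  exact ⟨z, by simpa using hz.symm⟩


private theorem constCoeff_isInt_of_mul_pow {c' g : PowerSeries ℚ}
    (hc'0 : PowerSeries.constantCoeff c' ≠ 0) (hc'R : c' ∈ intRange)
    (hg : ∀ m : ℕ, c' * g ^ m ∈ intRange) : ∃ z : ℤ, PowerSeries.constantCoeff g = (z : ℚ) := by
  obtain ⟨c₀, hc₀⟩ : ∃ z : ℤ, PowerSeries.constantCoeff c' = (z : ℚ) := by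
    simpa using mem_intRange_iff.mp hc'R 0
  have hc₀' : c₀ ≠ 0 := by
    rintro rfl
    exact hc'0 (by simpa using hc₀)
  refine rat_isInt_of_mul_pow c₀ hc₀' _ fun m => ?_
  obtain ⟨z, hz⟩ := mem_intRange_iff.mp (hg m) 0
  refine ⟨z, ?_⟩
  rw [← hz, ← hc₀]
  simp

/-- (helper40's lemma) `ℤ⟦X⟧` is completely integrally closed in `ℚ⟦X⟧`: if `c ≠ 0` has integer
coefficients and `c * g ^ m` has integer coefficients for all `m`, then so does `g`. -/
theorem mem_intRange_of_mul_pow_mem {c g : PowerSeries ℚ} (hc : c ≠ 0)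
    (h : ∀ m : ℕ, c * g ^ m ∈ intRange) : g ∈ intRange := by
  have hcR : c ∈ intRange := by simpa using h 0
  -- reduce to `c'` with nonzero constant coefficient
  obtain ⟨c', hc'0, hc'R, h'⟩ : ∃ c' : PowerSeries ℚ, PowerSeries.constantCoeff c' ≠ 0 ∧
      c' ∈ intRange ∧ ∀ m, c' * g ^ m ∈ intRange := by
    refine ⟨c.divXPowOrder, ?_, ?_, ?_⟩
    · rwa [Ne, PowerSeries.constantCoeff_divXPowOrder_eq_zero_iff]
    · apply mem_intRange_of_X_pow_mul (m := c.order.toNat)
      rwa [PowerSeries.X_pow_order_mul_divXPowOrder]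
    · intro m
      apply mem_intRange_of_X_pow_mul (m := c.order.toNat)
      rw [← mul_assoc, PowerSeries.X_pow_order_mul_divXPowOrder]
      exact h m
  have key : ∀ n : ℕ, ∀ g : PowerSeries ℚ, (∀ m, c' * g ^ m ∈ intRange) →
      ∃ z : ℤ, PowerSeries.coeff n g = (z : ℚ) := by
    intro n
    induction n with
    | zero =>
      intro g hg
      simpa using constCoeff_isInt_of_mul_pow hc'0 hc'R hg
    | succ n ih =>
      intro g hg
      obtain ⟨z₀, hz₀⟩ := constCoeff_isInt_of_mul_pow hc'0 hc'R hg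
      set g₁ : PowerSeries ℚ := PowerSeries.mk fun p => PowerSeries.coeff (p + 1) g with hg₁
      have hg_eq : g = PowerSeries.X * g₁ + PowerSeries.C (z₀ : ℚ) := by
        rw [← hz₀]
        exact PowerSeries.eq_X_mul_shift_add_const g
      have hg₁' : ∀ m, c' * g₁ ^ m ∈ intRange := by
        intro m
        apply mem_intRange_of_X_pow_mul (m := m)
        have e : PowerSeries.X ^ m * (c' * g₁ ^ m) = c' * (g + -PowerSeries.C (z₀ : ℚ)) ^ m := by
          rw [hg_eq]; ring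
        rw [e, add_pow, Finset.mul_sum]
        refine Subring.sum_mem _ fun j _ => ?_
        have e2 : c' * (g ^ j * (-PowerSeries.C (z₀ : ℚ)) ^ (m - j) * (m.choose j : PowerSeries ℚ))
            = (c' * g ^ j) * ((-PowerSeries.C (z₀ : ℚ)) ^ (m - j) * (m.choose j : PowerSeries ℚ)) := by
          ring
        rw [e2]
        exact Subring.mul_mem _ (hg j) (Subring.mul_mem _
          (Subring.pow_mem _ (Subring.neg_mem _ (C_int_mem_intRange z₀)) _) (natCast_mem _ _))
      obtain ⟨z, hz⟩ := ih g₁ hg₁'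
      exact ⟨z, by rw [← hz, hg₁, PowerSeries.coeff_mk]⟩
  exact mem_intRange_iff.mpr fun n => key n g h'

/-- If `g` satisfies a monic equation of degree `d` with coefficients in `ℤ⟦X⟧` and `b * g ∈ ℤ⟦X⟧`
for some nonzero `b ∈ ℤ⟦X⟧`, then `g ∈ ℤ⟦X⟧`. -/
theorem mem_intRange_of_monic_of_fraction {g b : PowerSeries ℚ} (hb0 : b ≠ 0) (hb : b ∈ intRange)
    (hbg : b * g ∈ intRange) (d : ℕ) (t : Fin d → PowerSeries ℚ) (ht : ∀ i, t i ∈ intRange)
    (hmonic : g ^ d + ∑ i, t i * g ^ (i : ℕ) = 0) : g ∈ intRange := by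
  have hgd : g ^ d = -∑ i, t i * g ^ (i : ℕ) := eq_neg_of_add_eq_zero_left hmonic
  refine mem_intRange_of_mul_pow_mem (c := b ^ (d - 1)) (pow_ne_zero _ hb0) fun m => ?_
  induction m using Nat.strong_induction_on with
  | _ m ih =>
    rcases lt_or_ge m d with hm | hm
    · have e : b ^ (d - 1) * g ^ m = b ^ (d - 1 - m) * (b * g) ^ m := by
        rw [mul_pow, ← mul_assoc, ← pow_add]
        congr 2
        omega
      rw [e]
      exact Subring.mul_mem _ (Subring.pow_mem _ hb _) (Subring.pow_mem _ hbg _)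
    · have e : b ^ (d - 1) * g ^ m = -∑ i : Fin d, t i * (b ^ (d - 1) * g ^ (m - d + (i : ℕ))) := by
        have : g ^ m = g ^ (m - d) * g ^ d := by rw [← pow_add]; congr 1; omega
        rw [this, hgd, mul_neg, mul_neg, Finset.mul_sum, Finset.mul_sum]
        congr 1
        refine Finset.sum_congr rfl fun i _ => ?_
        rw [pow_add]; ring
      rw [e]
      refine Subring.neg_mem _ (Subring.sum_mem _ fun i _ => Subring.mul_mem _ (ht i) (ih _ ?_))
      have := i.2
      omega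


/-! ### The `ℂ`-span of integral power series -/

/-- `intSpan` as a subalgebra of `ℂ⟦X⟧`. -/
noncomputable def intSubalgebra : Subalgebra ℂ (PowerSeries ℂ) where
  carrier := intSpan
  mul_mem' := mul_mem_intSpan
  one_mem' := one_mem_intSpan
  add_mem' := add_mem
  zero_mem' := zero_mem _
  algebraMap_mem' c := by
    have : algebraMap ℂ (PowerSeries ℂ) c = c • (1 : PowerSeries ℂ) := by
      rw [Algebra.smul_def, mul_one]
    rw [this]
    exact Submodule.smul_mem _ c one_mem_intSpan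

theorem mem_intSubalgebra {p : PowerSeries ℂ} : p ∈ intSubalgebra ↔ p ∈ intSpan := Iff.rfl

/-! ### Applying a `ℚ`-linear functional coefficientwise -/

/-- Apply a `ℚ`-linear functional `ℂ → ℚ` to every coefficient. -/
noncomputable def lamMap (μ : ℂ →ₗ[ℚ] ℚ) (p : PowerSeries ℂ) : PowerSeries ℚ :=
  PowerSeries.mk fun n => μ (PowerSeries.coeff n p)

theorem coeff_lamMap (μ : ℂ →ₗ[ℚ] ℚ) (p : PowerSeries ℂ) (n : ℕ) :
    PowerSeries.coeff n (lamMap μ p) = μ (PowerSeries.coeff n p) := by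
  simp [lamMap]

theorem lamMap_zero (μ : ℂ →ₗ[ℚ] ℚ) : lamMap μ 0 = 0 := by
  ext n; simp [coeff_lamMap]

theorem lamMap_add (μ : ℂ →ₗ[ℚ] ℚ) (p q : PowerSeries ℂ) :
    lamMap μ (p + q) = lamMap μ p + lamMap μ q := by
  ext n; simp [coeff_lamMap]

theorem lamMap_sum (μ : ℂ →ₗ[ℚ] ℚ) {ι : Type*} (s : Finset ι) (p : ι → PowerSeries ℂ) :
    lamMap μ (∑ i ∈ s, p i) = ∑ i ∈ s, lamMap μ (p i) := by
  ext n; simp [coeff_lamMap]

theorem lamMap_ratMul (μ : ℂ →ₗ[ℚ] ℚ) (y : PowerSeries ℚ) (p : PowerSeries ℂ) :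
    lamMap μ (PowerSeries.map (algebraMap ℚ ℂ) y * p) = y * lamMap μ p := by
  ext n
  simp only [coeff_lamMap, PowerSeries.coeff_mul, PowerSeries.coeff_map, map_sum]
  refine Finset.sum_congr rfl fun ij _ => ?_
  rw [← Algebra.smul_def, map_smul, smul_eq_mul]

theorem lamMap_smul (μ : ℂ →ₗ[ℚ] ℚ) (c : ℂ) (p : PowerSeries ℂ) :
    lamMap μ (c • p) = lamMap (μ ∘ₗ LinearMap.mulLeft ℚ c) p := by
  ext n; simp [coeff_lamMap]

theorem lamMap_map_int (μ : ℂ →ₗ[ℚ] ℚ) (p : PowerSeries ℤ) :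
    lamMap μ (PowerSeries.map (Int.castRingHom ℂ) p)
      = PowerSeries.C (μ 1) * PowerSeries.map (Int.castRingHom ℚ) p := by
  ext n
  simp only [coeff_lamMap, PowerSeries.coeff_map, PowerSeries.coeff_C_mul, eq_intCast]
  have : ((PowerSeries.coeff n p : ℤ) : ℂ) = ((PowerSeries.coeff n p : ℤ) : ℚ) • (1 : ℂ) := by
    rw [Algebra.smul_def, mul_one]; simp
  rw [this, map_smul, smul_eq_mul, mul_comm]

theorem exists_nat_mul_lamMap_mem {S : PowerSeries ℂ} (hS : S ∈ intSpan) :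
    ∀ μ : ℂ →ₗ[ℚ] ℚ, ∃ D : ℕ, 0 < D ∧ PowerSeries.C (D : ℚ) * lamMap μ S ∈ intRange := by
  rw [mem_intSpan_iff_mem_span_range] at hS
  induction hS using Submodule.span_induction with
  | mem x hx =>
    obtain ⟨p, rfl⟩ := hx
    intro μ
    refine ⟨(μ 1).den, (μ 1).den_pos, ?_⟩
    rw [lamMap_map_int, ← mul_assoc, ← map_mul]
    have : ((μ 1).den : ℚ) * μ 1 = ((μ 1).num : ℚ) := by
      rw [mul_comm]; exact Rat.mul_den_eq_num _
    rw [this]
    exact Subring.mul_mem _ (C_int_mem_intRange _) ⟨p, rfl⟩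
  | zero =>
    intro μ
    exact ⟨1, one_pos, by rw [lamMap_zero, mul_zero]; exact Subring.zero_mem _⟩
  | add x y _ _ hx hy =>
    intro μ
    obtain ⟨D₁, h₁, hx'⟩ := hx μ
    obtain ⟨D₂, h₂, hy'⟩ := hy μ
    refine ⟨D₁ * D₂, Nat.mul_pos h₁ h₂, ?_⟩
    have : PowerSeries.C ((D₁ * D₂ : ℕ) : ℚ) * lamMap μ (x + y)
        = PowerSeries.C (D₂ : ℚ) * (PowerSeries.C (D₁ : ℚ) * lamMap μ x)
          + PowerSeries.C (D₁ : ℚ) * (PowerSeries.C (D₂ : ℚ) * lamMap μ y) := by
      rw [lamMap_add]; push_cast; rw [map_mul]; ring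
    rw [this]
    exact Subring.add_mem _ (Subring.mul_mem _ (C_nat_mem_intRange _) hx')
      (Subring.mul_mem _ (C_nat_mem_intRange _) hy')
  | smul c x _ hx =>
    intro μ
    rw [lamMap_smul]
    exact hx _

/-- **Bounded denominators.** A power series `x` with rational coefficients that satisfies a monic
relation with coefficients in `intSpan` and is a fraction `A / B` with `A, B ∈ intSpan`, `B ≠ 0`,
has bounded denominators. -/
theorem bounded_denominators (x : PowerSeries ℂ)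
    (hx : ∀ n, ∃ r : ℚ, PowerSeries.coeff n x = (r : ℂ))
    (d : ℕ) (S : Fin d → PowerSeries ℂ) (hS : ∀ i, S i ∈ intSpan)
    (hmonic : x ^ d + ∑ i, S i * x ^ (i : ℕ) = 0)
    (A B : PowerSeries ℂ) (hA : A ∈ intSpan) (hB : B ∈ intSpan) (hB0 : B ≠ 0) (hAB : B * x = A) :
    ∃ M : ℕ, 0 < M ∧ ∀ n, ∃ m : ℤ, (M : ℂ) * PowerSeries.coeff n x = (m : ℂ) := by
  choose r hr using hx
  set xq : PowerSeries ℚ := PowerSeries.mk r with hxq_def
  have hxq : x = PowerSeries.map (algebraMap ℚ ℂ) xq := by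
    ext n; simp [xq, hr n]
  obtain ⟨lam, hlam⟩ : ∃ lam : ℂ →ₗ[ℚ] ℚ, lam 1 = 1 := by
    obtain ⟨g, hg⟩ := (Algebra.linearMap ℚ ℂ).exists_leftInverse_of_injective
      (LinearMap.ker_eq_bot.mpr (algebraMap ℚ ℂ).injective)
    exact ⟨g, by simpa using LinearMap.congr_fun hg 1⟩
  have hlam1 : lamMap lam 1 = 1 := by
    ext n
    rw [coeff_lamMap, PowerSeries.coeff_one, PowerSeries.coeff_one]
    split_ifs <;> simp [hlam]
  have hpow : ∀ (m : ℕ) (T : PowerSeries ℂ), lamMap lam (T * x ^ m) = lamMap lam T * xq ^ m := by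
    intro m T
    rw [hxq, ← map_pow, mul_comm, lamMap_ratMul, mul_comm]
  -- the monic equation over `ℚ`
  have hmonicq : xq ^ d + ∑ i, lamMap lam (S i) * xq ^ (i : ℕ) = 0 := by
    have h1 := congrArg (lamMap lam) hmonic
    rw [lamMap_add, lamMap_sum, lamMap_zero] at h1
    have h2 : lamMap lam (x ^ d) = xq ^ d := by
      have := hpow d 1
      rwa [one_mul, hlam1, one_mul] at this
    rw [h2] at h1
    rw [← h1]
    congr 1
    exact Finset.sum_congr rfl fun i _ => (hpow _ _).symm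
  -- common denominator for the coefficients
  obtain ⟨D, hD, hDS⟩ : ∃ D : ℕ, 0 < D ∧
      ∀ i, PowerSeries.C (D : ℚ) * lamMap lam (S i) ∈ intRange := by
    choose Di hDi hDi' using fun i => exists_nat_mul_lamMap_mem (hS i) lam
    refine ⟨∏ i, Di i, Finset.prod_pos fun i _ => hDi i, fun i => ?_⟩
    rw [← Finset.mul_prod_erase Finset.univ Di (Finset.mem_univ i)]
    have : PowerSeries.C (((Di i * ∏ j ∈ Finset.univ.erase i, Di j : ℕ)) : ℚ) * lamMap lam (S i)
        = PowerSeries.C ((∏ j ∈ Finset.univ.erase i, Di j : ℕ) : ℚ)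
          * (PowerSeries.C (Di i : ℚ) * lamMap lam (S i)) := by
      push_cast; rw [map_mul]; ring
    rw [this]
    exact Subring.mul_mem _ (C_nat_mem_intRange _) (hDi' i)
  -- the fraction over `ℚ`
  obtain ⟨n₀, hn₀⟩ := PowerSeries.exists_coeff_ne_zero_iff_ne_zero.mpr hB0
  set mu : ℂ →ₗ[ℚ] ℚ := lam ∘ₗ LinearMap.mulLeft ℚ (PowerSeries.coeff n₀ B)⁻¹ with hmu
  have hfrac : lamMap mu B * xq = lamMap mu A := by
    rw [← hAB, hxq, mul_comm B, lamMap_ratMul, mul_comm]
  have hb'0 : lamMap mu B ≠ 0 := by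
    intro h0
    have := congrArg (PowerSeries.coeff n₀) h0
    rw [coeff_lamMap, hmu] at this
    simp [inv_mul_cancel₀ hn₀, hlam] at this
  obtain ⟨DA, hDA, hA'⟩ := exists_nat_mul_lamMap_mem hA mu
  obtain ⟨DB, hDB, hB'⟩ := exists_nat_mul_lamMap_mem hB mu
  have hDAq : (DA : ℚ) ≠ 0 := by exact_mod_cast hDA.ne'
  have hDBq : (DB : ℚ) ≠ 0 := by exact_mod_cast hDB.ne'
  have hg : PowerSeries.C (D : ℚ) * xq ∈ intRange := by
    refine mem_intRange_of_monic_of_fraction
      (b := PowerSeries.C (DA : ℚ) * (PowerSeries.C (DB : ℚ) * lamMap mu B)) ?_ ?_ ?_ d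
      (fun i => PowerSeries.C (D : ℚ) ^ (d - 1 - (i : ℕ)) *
        (PowerSeries.C (D : ℚ) * lamMap lam (S i))) ?_ ?_
    · refine mul_ne_zero ?_ (mul_ne_zero ?_ hb'0)
      · exact (map_ne_zero_iff _ PowerSeries.C_injective).mpr hDAq
      · exact (map_ne_zero_iff _ PowerSeries.C_injective).mpr hDBq
    · exact Subring.mul_mem _ (C_nat_mem_intRange _) hB'
    · have : PowerSeries.C (DA : ℚ) * (PowerSeries.C (DB : ℚ) * lamMap mu B)
          * (PowerSeries.C (D : ℚ) * xq)
          = PowerSeries.C (D : ℚ) * (PowerSeries.C (DB : ℚ)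
            * (PowerSeries.C (DA : ℚ) * lamMap mu A)) := by
        rw [← hfrac]; ring
      rw [this]
      exact Subring.mul_mem _ (C_nat_mem_intRange _)
        (Subring.mul_mem _ (C_nat_mem_intRange _) hA')
    · intro i
      exact Subring.mul_mem _ (Subring.pow_mem _ (C_nat_mem_intRange _) _) (hDS i)
    · have h3 : (PowerSeries.C (D : ℚ) * xq) ^ d
          + ∑ i : Fin d, PowerSeries.C (D : ℚ) ^ (d - 1 - (i : ℕ)) *
            (PowerSeries.C (D : ℚ) * lamMap lam (S i)) * (PowerSeries.C (D : ℚ) * xq) ^ (i : ℕ)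
          = PowerSeries.C (D : ℚ) ^ d * (xq ^ d + ∑ i, lamMap lam (S i) * xq ^ (i : ℕ)) := by
        rw [mul_add, Finset.mul_sum, mul_pow]
        congr 1
        refine Finset.sum_congr rfl fun i _ => ?_
        have hi : PowerSeries.C (D : ℚ) ^ d = PowerSeries.C (D : ℚ) ^ (d - 1 - (i : ℕ))
            * PowerSeries.C (D : ℚ) * PowerSeries.C (D : ℚ) ^ (i : ℕ) := by
          rw [← pow_succ, ← pow_add]
          congr 1
          have := i.2
          omega
        rw [mul_pow, hi]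
        ring
      rw [h3, hmonicq, mul_zero]
  refine ⟨D, hD, fun n => ?_⟩
  obtain ⟨z, hz⟩ := mem_intRange_iff.mp hg n
  refine ⟨z, ?_⟩
  rw [PowerSeries.coeff_C_mul, hxq_def, PowerSeries.coeff_mk] at hz
  rw [hr n]
  exact_mod_cast hz

end Fermat.Agent.S23
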