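import Mathlib

/-!
# S23 helper: a level-one denominator (Cramer / trace identity)

Let `Γ` be an arithmetic subgroup, `θ` a modular form on `Γ` of weight `w` whose stabiliser in
`SL(2, ℤ)` (under the weight `w` slash action) is contained in `Γ`.  Then there are `d`, a weight
`W` and a NONZERO level-one form `b` of weight `W` such that for every modular form `f` on `Γ`,
`b * f = ∑ j < d, r j * θ ^ j` with `r j` of level one and weight `k + W - j * w`.

Proof: with `θ_q`, `f_q` the conjugates (`SlashInvariantForm.quotientFunc`), `V = (θ_q ^ i)` the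
Vandermonde matrix, `G = Vᵀ V` (entries: traces of powers of `θ`), `t = Vᵀ (f_q)` (traces of
`θ ^ l * f`), one has `V * adj(G) * t = det(G) • (f_q)`, a commutative-ring identity.  `det G` and
the Cramer determinants are isobaric polynomials in level-one forms, hence level-one forms.
-/

set_option autoImplicit false

namespace Fermat.Agent.S23

open UpperHalfPlane ModularForm SlashInvariantForm
open scoped MatrixGroups Manifold ModularForm

namespace Denominator

/-! ### Pure linear algebra -/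

/-- `V * adj(Vᵀ V) * Vᵀ y = det(Vᵀ V) y`, valid in any commutative ring. -/
theorem mulVec_cramer_gram {R : Type*} [CommRing R] {d : ℕ} (V : Matrix (Fin d) (Fin d) R)
    (y : Fin d → R) :
    V.mulVec (Matrix.cramer (V.transpose * V) (V.transpose.mulVec y))
      = (V.transpose * V).det • y := by
  have h : V * (V.adjugate * V.transpose.adjugate) * V.transpose
      = (V.transpose * V).det • (1 : Matrix (Fin d) (Fin d) R) := by
    rw [← Matrix.mul_assoc, Matrix.mul_adjugate, Matrix.mul_assoc, Matrix.adjugate_mul,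
      Matrix.det_mul, Matrix.det_transpose]
    simp [smul_smul]
  rw [Matrix.cramer_eq_adjugate_mulVec, Matrix.adjugate_mul_distrib, Matrix.mulVec_mulVec,
    Matrix.mulVec_mulVec, h, Matrix.smul_mulVec, Matrix.one_mulVec]

/-! ### Functions that are level-one modular forms -/

/-- `F` is (the underlying function of) a level-one modular form of weight `k`. -/
def IsLevelOneFun (k : ℤ) (F : ℍ → ℂ) : Prop := ∃ R : ModularForm 𝒮ℒ k, ⇑R = F

theorem IsLevelOneFun.mul {k l : ℤ} {F G : ℍ → ℂ} (hF : IsLevelOneFun k F)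
    (hG : IsLevelOneFun l G) : IsLevelOneFun (k + l) (F * G) := by
  obtain ⟨R, rfl⟩ := hF
  obtain ⟨S, rfl⟩ := hG
  exact ⟨R.mul S, ModularForm.coe_mul R S⟩

theorem IsLevelOneFun.add {k : ℤ} {F G : ℍ → ℂ} (hF : IsLevelOneFun k F)
    (hG : IsLevelOneFun k G) : IsLevelOneFun k (F + G) := by
  obtain ⟨R, rfl⟩ := hF
  obtain ⟨S, rfl⟩ := hG
  exact ⟨R + S, rfl⟩

theorem isLevelOneFun_zero (k : ℤ) : IsLevelOneFun k 0 := ⟨0, rfl⟩

theorem isLevelOneFun_one : IsLevelOneFun 0 1 := ⟨1, ModularForm.one_coe_eq_one⟩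

theorem IsLevelOneFun.zsmul {k : ℤ} {F : ℍ → ℂ} (n : ℤ) (hF : IsLevelOneFun k F) :
    IsLevelOneFun k (n • F) := by
  obtain ⟨R, rfl⟩ := hF
  exact ⟨n • R, rfl⟩

theorem IsLevelOneFun.cast {k l : ℤ} (h : k = l) {F : ℍ → ℂ} (hF : IsLevelOneFun k F) :
    IsLevelOneFun l F := h ▸ hF

theorem IsLevelOneFun.sum {ι : Type*} (s : Finset ι) {k : ℤ} {F : ι → ℍ → ℂ}
    (h : ∀ i ∈ s, IsLevelOneFun k (F i)) : IsLevelOneFun k (∑ i ∈ s, F i) := by
  classical
  induction s using Finset.induction_on with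
  | empty => simpa using isLevelOneFun_zero k
  | insert a s ha ih =>
    rw [Finset.sum_insert ha]
    exact (h a (Finset.mem_insert_self a s)).add
      (ih fun i hi => h i (Finset.mem_insert_of_mem hi))

theorem IsLevelOneFun.prod {ι : Type*} (s : Finset ι) {κ : ι → ℤ} {F : ι → ℍ → ℂ}
    (h : ∀ i ∈ s, IsLevelOneFun (κ i) (F i)) :
    IsLevelOneFun (∑ i ∈ s, κ i) (∏ i ∈ s, F i) := by
  classical
  induction s using Finset.induction_on with
  | empty => simpa using isLevelOneFun_one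
  | insert a s ha ih =>
    rw [Finset.sum_insert ha, Finset.prod_insert ha]
    exact (h a (Finset.mem_insert_self a s)).mul
      (ih fun i hi => h i (Finset.mem_insert_of_mem hi))

/-- The determinant of a matrix of level-one forms with "bi-graded" weights `a i + b j`
is a level-one form of weight `∑ a + ∑ b`. -/
theorem IsLevelOneFun.det {d : ℕ} (A : Matrix (Fin d) (Fin d) (ℍ → ℂ)) (a b : Fin d → ℤ)
    (hA : ∀ i j, IsLevelOneFun (a i + b j) (A i j)) :
    IsLevelOneFun (∑ i, a i + ∑ j, b j) A.det := by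
  rw [Matrix.det_apply]
  refine IsLevelOneFun.sum _ fun σ _ => ?_
  rw [Units.smul_def]
  refine IsLevelOneFun.zsmul _ ?_
  have h := IsLevelOneFun.prod Finset.univ (κ := fun i => a (σ i) + b i)
    (F := fun i => A (σ i) i) (fun i _ => hA (σ i) i)
  refine h.cast ?_
  rw [Finset.sum_add_distrib, Equiv.sum_comp σ a]

/-! ### Slash action by elements of `𝒮ℒ` is multiplicative -/

theorem mul_slash_of_mem {k l : ℤ} (F G : ℍ → ℂ) {A : GL (Fin 2) ℝ} (hA : A ∈ 𝒮ℒ) :
    (F * G) ∣[k + l] A = F ∣[k] A * G ∣[l] A := by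
  obtain ⟨γ, rfl⟩ := hA
  exact mul_slash_SL2 k l γ F G

theorem pow_slash_of_mem {k : ℤ} (F : ℍ → ℂ) (n : ℕ) {A : GL (Fin 2) ℝ} (hA : A ∈ 𝒮ℒ) :
    (F ^ n) ∣[(n : ℤ) * k] A = (F ∣[k] A) ^ n := by
  induction n with
  | zero =>
    obtain ⟨γ, rfl⟩ := hA
    simp only [Nat.cast_zero, zero_mul, pow_zero]
    exact is_invariant_one γ
  | succ n ih =>
    have h : ((n + 1 : ℕ) : ℤ) * k = (n : ℤ) * k + k := by push_cast; ring
    rw [h, pow_succ, mul_slash_of_mem _ _ hA, ih, pow_succ]

/-! ### Conjugates -/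

section Conj

variable {Γ : Subgroup (GL (Fin 2) ℝ)} [Γ.IsArithmetic]

local notation "𝒬" => 𝒮ℒ ⧸ (Γ.subgroupOf 𝒮ℒ)

theorem quotientFunc_mul {k l : ℤ} (f : ModularForm Γ k) (g : ModularForm Γ l) (q : 𝒬) :
    quotientFunc (f.mul g) q = quotientFunc f q * quotientFunc g q := by
  induction q using Quotient.inductionOn with
  | h r =>
    simp only [quotientFunc_mk, ModularForm.coe_mul]
    exact mul_slash_of_mem _ _ (inv_mem r.2)

theorem quotientFunc_pow {k : ℤ} (f : ModularForm Γ k) (n : ℕ) (q : 𝒬) :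
    quotientFunc (f.pow n) q = quotientFunc f q ^ n := by
  induction q using Quotient.inductionOn with
  | h r =>
    simp only [quotientFunc_mk, ModularForm.coe_pow]
    exact pow_slash_of_mem _ n (inv_mem r.2)

omit [Γ.IsArithmetic] in
theorem mdiff_quotientFunc {k : ℤ} (f : ModularForm Γ k) (q : 𝒬) :
    MDiff (quotientFunc f q) := by
  induction q using Quotient.inductionOn with
  | h r => exact (ModularForm.translate f r.val⁻¹).holo'

omit [Γ.IsArithmetic] in
theorem quotientFunc_one {k : ℤ} (f : ModularForm Γ k) :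
    quotientFunc f ((1 : 𝒮ℒ) : 𝒬) = ⇑f := by
  have h : quotientFunc f ((1 : 𝒮ℒ) : 𝒬) = (⇑f : ℍ → ℂ) ∣[k] ((1 : 𝒮ℒ) : GL (Fin 2) ℝ)⁻¹ :=
    quotientFunc_mk (ℋ := 𝒮ℒ) f (1 : 𝒮ℒ)
  rw [h, OneMemClass.coe_one, inv_one, SlashAction.slash_one]

/-- The trace of a modular form is a level-one form. -/
theorem isLevelOneFun_trace [Fintype 𝒬] {κ : ℤ} (H : ModularForm Γ κ) :
    IsLevelOneFun κ (∑ q : 𝒬, quotientFunc H q) := by
  refine ⟨ModularForm.trace 𝒮ℒ H, ?_⟩
  rw [ModularForm.coe_trace]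
  congr!

omit [Γ.IsArithmetic] in
/-- Conjugates of `θ` are pairwise distinct if the stabiliser of `θ` is contained in `Γ`. -/
theorem quotientFunc_injective {w : ℤ} (θ : ModularForm Γ w)
    (hθ : ∀ γ : SL(2, ℤ), (⇑θ : ℍ → ℂ) ∣[w] γ = ⇑θ → Matrix.SpecialLinearGroup.mapGL ℝ γ ∈ Γ) :
    Function.Injective (fun q : 𝒬 => quotientFunc θ q) := by
  intro q q'
  induction q using Quotient.inductionOn with
  | h r =>
    induction q' using Quotient.inductionOn with
    | h r' =>
      intro h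
      simp only [quotientFunc_mk] at h
      have h2 : (⇑θ : ℍ → ℂ) ∣[w] ((r : GL (Fin 2) ℝ)⁻¹ * (r' : GL (Fin 2) ℝ)) = ⇑θ := by
        rw [SlashAction.slash_mul, h, ← SlashAction.slash_mul, inv_mul_cancel,
          SlashAction.slash_one]
      obtain ⟨γ, hγ⟩ : (r : GL (Fin 2) ℝ)⁻¹ * (r' : GL (Fin 2) ℝ) ∈ 𝒮ℒ :=
        mul_mem (inv_mem r.2) r'.2
      have h3 : Matrix.SpecialLinearGroup.mapGL ℝ γ ∈ Γ := by
        apply hθ γ
        show (⇑θ : ℍ → ℂ) ∣[w] (Matrix.SpecialLinearGroup.mapGL ℝ γ) = ⇑θ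
        rw [hγ]
        exact h2
      refine QuotientGroup.eq.mpr ?_
      rw [Subgroup.mem_subgroupOf]
      rw [hγ] at h3
      simpa using h3

end Conj

end Denominator

open Denominator in
/-- **Level-one denominator.** -/
theorem exists_levelOne_denominator {Γ : Subgroup (GL (Fin 2) ℝ)} [Γ.IsArithmetic] {w : ℤ}
    (θ : ModularForm Γ w)
    (hθ : ∀ γ : SL(2, ℤ), (⇑θ : ℍ → ℂ) ∣[w] γ = ⇑θ → Matrix.SpecialLinearGroup.mapGL ℝ γ ∈ Γ) :
    ∃ (d : ℕ) (W : ℤ) (b : ModularForm 𝒮ℒ W), b ≠ 0 ∧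
      ∀ {k : ℤ} (f : ModularForm Γ k), ∃ r : Fin d → ℍ → ℂ,
        (∀ j : Fin d, ∃ R : ModularForm 𝒮ℒ (k + W - (j : ℕ) * w), ⇑R = r j) ∧
        ∀ z, b z * f z = ∑ j, r j z * θ z ^ (j : ℕ) := by
  classical
  let _ : Fintype (𝒮ℒ ⧸ (Γ.subgroupOf 𝒮ℒ)) := Fintype.ofFinite _
  set d : ℕ := Fintype.card (𝒮ℒ ⧸ (Γ.subgroupOf 𝒮ℒ)) with hd
  let e : Fin d ≃ (𝒮ℒ ⧸ (Γ.subgroupOf 𝒮ℒ)) := (Fintype.equivFin _).symm
  let i0 : Fin d := e.symm ((1 : 𝒮ℒ) : 𝒮ℒ ⧸ (Γ.subgroupOf 𝒮ℒ))
  let v : Fin d → ℍ → ℂ := fun i => quotientFunc θ (e i)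
  let V : Matrix (Fin d) (Fin d) (ℍ → ℂ) := Matrix.vandermonde v
  let G : Matrix (Fin d) (Fin d) (ℍ → ℂ) := V.transpose * V
  let a : Fin d → ℤ := fun i => (i : ℕ) * w
  set S : ℤ := ∑ i, a i with hS
  have hv0 : v i0 = ⇑θ := by
    show quotientFunc θ (e (e.symm _)) = _
    rw [Equiv.apply_symm_apply, quotientFunc_one]
  -- entries of `G` are traces of powers of `θ`
  have hG : ∀ i j, IsLevelOneFun (a i + a j) (G i j) := by
    intro i j
    have h1 : G i j = ∑ q : 𝒮ℒ ⧸ (Γ.subgroupOf 𝒮ℒ), quotientFunc (θ.pow ((i : ℕ) + (j : ℕ))) q := by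
      rw [← Equiv.sum_comp e]
      simp only [G, V, Matrix.mul_apply, Matrix.transpose_apply, Matrix.vandermonde_apply, v,
        quotientFunc_pow, pow_add]
    rw [h1]
    refine (isLevelOneFun_trace (θ.pow ((i : ℕ) + (j : ℕ)))).cast ?_
    simp only [a]
    push_cast
    ring
  obtain ⟨b, hb⟩ := IsLevelOneFun.det G a a hG
  refine ⟨d, S + S, b, ?_, ?_⟩
  · -- `b ≠ 0`
    intro hb0
    have hdet : V.det = 0 := by
      have h1 : G.det = 0 := by rw [← hb, hb0]; rfl
      have h2 : V.det * V.det = 0 := by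
        rw [← h1]
        simp only [G, Matrix.det_mul, Matrix.det_transpose]
      funext z
      have := congrFun h2 z
      simpa using this
    rw [Matrix.det_vandermonde, Finset.prod_sigma'] at hdet
    rw [UpperHalfPlane.prod_eq_zero_iff] at hdet
    · obtain ⟨x, hx, hx0⟩ := hdet
      have hlt : x.1 < x.2 := by simpa using hx
      have heq : quotientFunc θ (e x.2) = quotientFunc θ (e x.1) := sub_eq_zero.mp hx0
      have := e.injective (quotientFunc_injective θ hθ heq)
      exact (ne_of_gt hlt) this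
    · intro x _
      exact (mdiff_quotientFunc θ _).sub (mdiff_quotientFunc θ _)
  · intro k f
    let y : Fin d → ℍ → ℂ := fun i => quotientFunc f (e i)
    let t : Fin d → ℍ → ℂ := V.transpose.mulVec y
    have hy0 : y i0 = ⇑f := by
      show quotientFunc f (e (e.symm _)) = _
      rw [Equiv.apply_symm_apply, quotientFunc_one]
    have ht : ∀ l, IsLevelOneFun (a l + k) (t l) := by
      intro l
      have h1 : t l = ∑ q : 𝒮ℒ ⧸ (Γ.subgroupOf 𝒮ℒ), quotientFunc ((θ.pow (l : ℕ)).mul f) q := by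
        rw [← Equiv.sum_comp e]
        simp only [t, y, V, Matrix.mulVec, dotProduct, Matrix.transpose_apply,
          Matrix.vandermonde_apply, v, quotientFunc_pow, quotientFunc_mul]
      rw [h1]
      exact isLevelOneFun_trace ((θ.pow (l : ℕ)).mul f)
    refine ⟨Matrix.cramer G t, ?_, ?_⟩
    · intro j
      rw [Matrix.cramer_apply]
      have h1 := IsLevelOneFun.det (G.updateCol j t) a (Function.update a j k) (by
        intro i c
        rw [Matrix.updateCol_apply]
        by_cases hc : c = j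
        · subst hc
          simpa using ht i
        · simpa [hc] using hG i c)
      refine h1.cast ?_
      rw [Finset.sum_update_of_mem (Finset.mem_univ j)]
      have h2 : ∑ x ∈ Finset.univ \ {j}, a x = S - a j := by
        rw [hS, ← Finset.sum_sdiff (Finset.subset_univ {j}), Finset.sum_singleton]
        ring
      rw [h2]
      simp only [a]
      ring
    · intro z
      have h1 := mulVec_cramer_gram V y
      have h2 := congrFun (congrFun h1 i0) z
      rw [Pi.smul_apply, smul_eq_mul, Pi.mul_apply, hy0] at h2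
      rw [show (b z : ℂ) = G.det z from congrFun hb z, ← h2]
      simp only [Matrix.mulVec, dotProduct, Finset.sum_apply, Pi.mul_apply, V,
        Matrix.vandermonde_apply, hv0, Pi.pow_apply, G, t]
      refine Finset.sum_congr rfl fun j _ => ?_
      ring

end Fermat.Agent.S23
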