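import Fermat.Agent.S23.QAnalytic

/-!
# S23 helper: functions that are level one modular forms

`IsLO k F` : `F : ℍ → ℂ` is the underlying function of a modular form of weight `k` for `SL(2,ℤ)`.
Working with this predicate (instead of bundled forms) avoids all weight casts.
-/

set_option autoImplicit false

namespace Fermat.Agent.S23

open UpperHalfPlane Filter Topology ModularForm Matrix.SpecialLinearGroup
open scoped Manifold MatrixGroups ModularForm

/-- `F` is the underlying function of a level one modular form of weight `k`. -/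
def IsLO (k : ℤ) (F : ℍ → ℂ) : Prop := ∃ c : ModularForm 𝒮ℒ k, ⇑c = F

namespace IsLO

variable {k k₁ k₂ : ℤ} {F G : ℍ → ℂ}

lemma of_form (c : ModularForm 𝒮ℒ k) : IsLO k ⇑c := ⟨c, rfl⟩

lemma congr_weight (h : k₁ = k₂) (hF : IsLO k₁ F) : IsLO k₂ F := h ▸ hF

lemma hol (hF : IsLO k F) : MDiff F := by
  obtain ⟨c, rfl⟩ := hF
  exact c.holo'

lemma bdd (hF : IsLO k F) : IsBoundedAtImInfty F := by
  obtain ⟨c, rfl⟩ := hF
  exact ModularFormClass.bdd_at_infty c

lemma slash (hF : IsLO k F) (γ : SL(2, ℤ)) : F ∣[k] γ = F := by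
  obtain ⟨c, rfl⟩ := hF
  exact c.slash_action_eq' (mapGL ℝ γ) ⟨γ, rfl⟩

lemma apply_smul (hF : IsLO k F) (γ : SL(2, ℤ)) (τ : ℍ) :
    F (γ • τ) = denom γ τ ^ k * F τ := by
  have h := congrFun (hF.slash γ) τ
  rw [SL_slash_apply] at h
  have hd : denom γ τ ≠ 0 := denom_ne_zero _ τ
  rw [← h, mul_comm, mul_assoc, ← zpow_add₀ hd]
  simp

lemma qan (hF : IsLO k F) : QAn F := by
  obtain ⟨c, rfl⟩ := hF
  exact
    { per := SlashInvariantFormClass.periodic_comp_ofComplex c (by simp)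
      hol := c.holo'
      bdd := ModularFormClass.bdd_at_infty c }

/-- Constructor from invariance + holomorphy + boundedness at `i∞`. -/
lemma of_invariant (hinv : ∀ γ : SL(2, ℤ), F ∣[k] γ = F) (hhol : MDiff F)
    (hbdd : IsBoundedAtImInfty F) : IsLO k F := by
  refine ⟨{ toFun := F
            slash_action_eq' := ?_
            holo' := hhol
            bdd_at_cusps' := ?_ }, rfl⟩
  · rintro γ ⟨γ', rfl⟩
    exact hinv γ'
  · intro c hc
    rw [OnePoint.isBoundedAt_iff_forall_SL2Z hc]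
    intro γ _
    rw [hinv γ]
    exact hbdd

/-- Constructor from the pointwise transformation law. -/
lemma of_apply_smul (hinv : ∀ (γ : SL(2, ℤ)) (τ : ℍ), F (γ • τ) = denom γ τ ^ k * F τ)
    (hhol : MDiff F) (hbdd : IsBoundedAtImInfty F) : IsLO k F := by
  refine of_invariant (fun γ => ?_) hhol hbdd
  funext τ
  rw [SL_slash_apply, hinv γ τ]
  have hd : denom γ τ ≠ 0 := denom_ne_zero _ τ
  rw [mul_comm, ← mul_assoc, ← zpow_add₀ hd]
  simp

lemma zero : IsLO k (0 : ℍ → ℂ) := ⟨0, rfl⟩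

lemma add (hF : IsLO k F) (hG : IsLO k G) : IsLO k (F + G) := by
  obtain ⟨c, rfl⟩ := hF
  obtain ⟨c', rfl⟩ := hG
  exact ⟨c + c', rfl⟩

lemma neg (hF : IsLO k F) : IsLO k (-F) := by
  obtain ⟨c, rfl⟩ := hF
  exact ⟨-c, rfl⟩

lemma sub (hF : IsLO k F) (hG : IsLO k G) : IsLO k (F - G) := by
  obtain ⟨c, rfl⟩ := hF
  obtain ⟨c', rfl⟩ := hG
  exact ⟨c - c', rfl⟩

lemma mul (hF : IsLO k₁ F) (hG : IsLO k₂ G) : IsLO (k₁ + k₂) (F * G) := by
  obtain ⟨c, rfl⟩ := hF
  obtain ⟨c', rfl⟩ := hG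
  exact ⟨c.mul c', rfl⟩

lemma const (a : ℂ) : IsLO 0 (fun _ : ℍ => a) := ⟨ModularForm.const a, rfl⟩

lemma one : IsLO 0 (1 : ℍ → ℂ) := const 1

lemma smul (a : ℂ) (hF : IsLO k F) : IsLO k (a • F) := by
  have h : a • F = (fun _ : ℍ => a) * F := by
    funext τ
    simp
  rw [h]
  exact ((const a).mul hF).congr_weight (zero_add k)

lemma sum {ι : Type*} (s : Finset ι) {f : ι → ℍ → ℂ} (h : ∀ i ∈ s, IsLO k (f i)) :
    IsLO k (∑ i ∈ s, f i) := by
  classical
  induction s using Finset.induction_on with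
  | empty => simpa using zero
  | insert a s ha ih =>
    rw [Finset.sum_insert ha]
    exact (h a (Finset.mem_insert_self a s)).add
      (ih fun i hi => h i (Finset.mem_insert_of_mem hi))

/-- Existence of the conjugate of a level one function under a ring endomorphism of `ℂ`,
given the black box for bundled forms. -/
lemma exists_conj (s : ℂ →+* ℂ)
    (hL1 : ∀ (k : ℤ) (c : ModularForm 𝒮ℒ k), ∃ c' : ModularForm 𝒮ℒ k,
      qExpansion 1 c' = (qExpansion 1 c).map s)
    (hF : IsLO k F) : ∃ F' : ℍ → ℂ, IsLO k F' ∧ qExpansion 1 F' = (qExpansion 1 F).map s := by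
  obtain ⟨c, rfl⟩ := hF
  obtain ⟨c', hc'⟩ := hL1 k c
  exact ⟨c', ⟨c', rfl⟩, hc'⟩

end IsLO

end Fermat.Agent.S23
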