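import Fermat.Agent.S23.CharPoly
import Fermat.Agent.S23.LevelOne

/-!
# S23, task L2: the monic relation of a modular form over level one

For an arithmetic subgroup `Γ` and `f : ModularForm Γ k`, the polynomial
`∏_q (X - f_q)` over the conjugates `f_q = SlashInvariantForm.quotientFunc f q`
(`q ∈ 𝒮ℒ ⧸ Γ`) has level one coefficients and kills `f`.
-/

set_option autoImplicit false

namespace Fermat.Agent.S23

open UpperHalfPlane ModularForm SlashInvariantForm Filter Topology Matrix.SpecialLinearGroup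
open scoped MatrixGroups Manifold ModularForm

namespace MonicRel

/-- An element of `SL(2, ℤ)`, as an element of the subgroup `𝒮ℒ` of `GL(2, ℝ)`. -/
def toSL (γ : SL(2, ℤ)) : 𝒮ℒ := ⟨mapGL ℝ γ, MonoidHom.mem_range.mpr ⟨γ, rfl⟩⟩

lemma coe_toSL (γ : SL(2, ℤ)) : ((toSL γ : 𝒮ℒ) : GL (Fin 2) ℝ) = mapGL ℝ γ := rfl

lemma exists_eq_toSL (r : 𝒮ℒ) : ∃ γ : SL(2, ℤ), r = toSL γ := by
  obtain ⟨r, hr⟩ := r
  obtain ⟨γ, rfl⟩ := MonoidHom.mem_range.mp hr
  exact ⟨γ, rfl⟩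

variable {Γ : Subgroup (GL (Fin 2) ℝ)} {k : ℤ} (f : ModularForm Γ k)

local notation "𝒬" => 𝒮ℒ ⧸ (Γ.subgroupOf 𝒮ℒ)

/-- Transformation law of the conjugates under `SL(2, ℤ)`. -/
lemma quotientFunc_apply_smul (q : 𝒬) (γ : SL(2, ℤ)) (τ : ℍ) :
    quotientFunc f q (γ • τ) = denom γ τ ^ k * quotientFunc f ((toSL γ)⁻¹ • q) τ := by
  have h := congrFun (quotientFunc_smul f (h := mapGL ℝ γ) (toSL γ).2 q) τ
  have h2 : (quotientFunc f q ∣[k] (mapGL ℝ γ : GL (Fin 2) ℝ)) τ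
      = quotientFunc f q (γ • τ) * denom γ τ ^ (-k) :=
    SL_slash_apply (f := quotientFunc f q) (k := k) γ τ
  rw [h2] at h
  have hd : denom γ τ ≠ 0 := denom_ne_zero _ τ
  have h3 : quotientFunc f ((toSL γ)⁻¹ • q) τ
      = quotientFunc f q (γ • τ) * denom γ τ ^ (-k) := h.symm
  rw [h3, mul_comm, mul_assoc, ← zpow_add₀ hd]
  simp

lemma mdiff_quotientFunc (q : 𝒬) : MDiff (quotientFunc f q) := by
  induction q using Quotient.inductionOn with
  | h r => exact (ModularForm.translate f (r : GL (Fin 2) ℝ)⁻¹).holo'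

lemma slash_inv_eq (γ : SL(2, ℤ)) :
    (⇑f : ℍ → ℂ) ∣[k] ((mapGL ℝ γ : GL (Fin 2) ℝ)⁻¹) = (⇑f : ℍ → ℂ) ∣[k] γ⁻¹ := by
  rw [← map_inv]
  rfl

lemma quotientFunc_mk_toSL (γ : SL(2, ℤ)) :
    quotientFunc f (QuotientGroup.mk (toSL γ) : 𝒬) = (⇑f : ℍ → ℂ) ∣[k] γ⁻¹ := by
  rw [← slash_inv_eq]
  rfl

variable [Γ.IsArithmetic]

lemma bdd_quotientFunc (q : 𝒬) : IsBoundedAtImInfty (quotientFunc f q) := by
  induction q using Quotient.inductionOn with
  | h r =>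
    obtain ⟨γ, rfl⟩ := exists_eq_toSL r
    have h := ModularFormClass.bdd_at_infty_slash f γ⁻¹
    rw [← quotientFunc_mk_toSL f γ] at h
    exact h

omit [Γ.IsArithmetic] in
lemma zero_quotientFunc (hf : ∀ γ : SL(2, ℤ), IsZeroAtImInfty ((⇑f : ℍ → ℂ) ∣[k] γ)) (q : 𝒬) :
    IsZeroAtImInfty (quotientFunc f q) := by
  induction q using Quotient.inductionOn with
  | h r =>
    obtain ⟨γ, rfl⟩ := exists_eq_toSL r
    have h := hf γ⁻¹
    rw [← quotientFunc_mk_toSL f γ] at h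
    exact h

/-- A `Fintype` structure on the (finite) coset space. -/
noncomputable local instance fintypeQ : Fintype 𝒬 := Fintype.ofFinite _

/-- The `l`-th coefficient of `∏_q (X - f_q)`, as a function on `ℍ`. -/
noncomputable def coefFn (l : ℕ) (z : ℍ) : ℂ :=
  (cpoly (fun q : 𝒬 => quotientFunc f q z)).coeff l

lemma coefFn_eq {l : ℕ} (hl : l ≤ Fintype.card 𝒬) :
    coefFn f l = ((-1 : ℂ) ^ (Fintype.card 𝒬 - l)) •
      ∑ t ∈ Finset.powersetCard (Fintype.card 𝒬 - l) (Finset.univ : Finset 𝒬),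
        ∏ q ∈ t, quotientFunc f q := by
  funext z
  simp only [coefFn, cpoly_coeff_eq_sum _ hl, Pi.smul_apply, Finset.sum_apply, Finset.prod_apply,
    smul_eq_mul]

lemma coefFn_apply_smul {l : ℕ} (hl : l ≤ Fintype.card 𝒬) (γ : SL(2, ℤ)) (τ : ℍ) :
    coefFn f l (γ • τ) = (denom γ τ ^ k) ^ (Fintype.card 𝒬 - l) * coefFn f l τ := by
  unfold coefFn
  have h1 : (fun q : 𝒬 => quotientFunc f q (γ • τ)) = fun q : 𝒬 => denom γ τ ^ k *
      ((fun q : 𝒬 => quotientFunc f q τ) ∘ (MulAction.toPerm (toSL γ)⁻¹ : 𝒬 ≃ 𝒬)) q := by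
    funext q
    exact quotientFunc_apply_smul f q γ τ
  rw [h1, cpoly_coeff_smul _ _ hl, cpoly_comp_equiv]

lemma isLO_coefFn {l : ℕ} (hl : l ≤ Fintype.card 𝒬) :
    IsLO (((Fintype.card 𝒬 : ℤ) - (l : ℤ)) * k) (coefFn f l) := by
  refine IsLO.of_apply_smul (fun γ τ => ?_) ?_ ?_
  · rw [coefFn_apply_smul f hl, ← zpow_natCast, ← zpow_mul]
    congr 2
    push_cast [Nat.cast_sub hl]
    ring
  · rw [coefFn_eq f hl]
    exact (MDifferentiable.sum fun t _ =>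
      MDifferentiable.prod fun q _ => mdiff_quotientFunc f q).const_smul _
  · rw [coefFn_eq f hl]
    exact BoundedAtFilter.smul _ ((boundedFilterSubmodule ℂ atImInfty).sum_mem fun t _ =>
      BoundedAtFilter.prod t fun q _ => bdd_quotientFunc f q)

lemma zero_coefFn (hf : ∀ q : 𝒬, IsZeroAtImInfty (quotientFunc f q)) {l : ℕ}
    (hl : l < Fintype.card 𝒬) : IsZeroAtImInfty (coefFn f l) := by
  have h : coefFn f l = fun z => (-1 : ℂ) ^ (Fintype.card 𝒬 - l) *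
      ∑ t ∈ Finset.powersetCard (Fintype.card 𝒬 - l) (Finset.univ : Finset 𝒬),
        ∏ q ∈ t, quotientFunc f q z := by
    funext z
    exact cpoly_coeff_eq_sum _ hl.le
  rw [h]
  have h2 : ∀ t ∈ Finset.powersetCard (Fintype.card 𝒬 - l) (Finset.univ : Finset 𝒬),
      Tendsto (fun z => ∏ q ∈ t, quotientFunc f q z) atImInfty (𝓝 0) := by
    intro t ht
    have hcard := (Finset.mem_powersetCard.mp ht).2
    have h3 : Tendsto (fun z => ∏ q ∈ t, quotientFunc f q z) atImInfty (𝓝 (∏ q ∈ t, (0 : ℂ))) :=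
      tendsto_finsetProd t fun q _ => hf q
    rwa [Finset.prod_const, hcard, zero_pow (by omega)] at h3
  have h4 := tendsto_finsetSum _ h2
  rw [Finset.sum_const_zero] at h4
  have h5 := h4.const_mul ((-1 : ℂ) ^ (Fintype.card 𝒬 - l))
  rw [mul_zero] at h5
  exact h5

lemma main :
    ∃ (d : ℕ) (c : Fin d → ℍ → ℂ), 0 < d ∧
      (∀ i : Fin d, ∃ g : ModularForm 𝒮ℒ (((d : ℤ) - (i : ℕ)) * k), ⇑g = c i) ∧
      (∀ z, f z ^ d + ∑ i, c i z * f z ^ (i : ℕ) = 0) ∧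
      ((∀ γ : SL(2, ℤ), IsZeroAtImInfty ((⇑f : ℍ → ℂ) ∣[k] γ)) → ∀ i, IsZeroAtImInfty (c i)) := by
  classical
  refine ⟨Fintype.card 𝒬, fun i => coefFn f i,
    Fintype.card_pos_iff.mpr ⟨QuotientGroup.mk 1⟩, fun i => isLO_coefFn f i.2.le, fun z => ?_,
    fun hf i => zero_coefFn f (zero_quotientFunc f hf) i.2⟩
  have h := cpoly_sum_coeff_mul_pow_self (fun q : 𝒬 => quotientFunc f q z) (QuotientGroup.mk 1)
  rw [Finset.sum_range_succ, cpoly_coeff_card, one_mul] at h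
  have h1 : quotientFunc f (QuotientGroup.mk 1 : 𝒬) z = f z := by
    have h2 : quotientFunc f (QuotientGroup.mk 1 : 𝒬)
        = (⇑f : ℍ → ℂ) ∣[k] ((1 : 𝒮ℒ) : GL (Fin 2) ℝ)⁻¹ := rfl
    rw [h2]
    simp
  rw [h1] at h
  rw [Fin.sum_univ_eq_sum_range (fun i => coefFn f i z * f z ^ i), add_comm]
  exact h

end MonicRel

/-- **Task L2.** The monic relation of a modular form on an arithmetic group over level one:
`c i` is the coefficient of `X ^ i` in `∏_q (X - f_q)`, `f_q` the conjugates of `f`. -/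
theorem exists_monic_relation {Γ : Subgroup (GL (Fin 2) ℝ)} [Γ.IsArithmetic] {k : ℤ}
    (f : ModularForm Γ k) :
    ∃ (d : ℕ) (c : Fin d → ℍ → ℂ), 0 < d ∧
      (∀ i : Fin d, ∃ g : ModularForm 𝒮ℒ (((d : ℤ) - (i : ℕ)) * k), ⇑g = c i) ∧
      (∀ z, f z ^ d + ∑ i, c i z * f z ^ (i : ℕ) = 0) ∧
      ((∀ γ : SL(2, ℤ), IsZeroAtImInfty ((⇑f : ℍ → ℂ) ∣[k] γ)) → ∀ i, IsZeroAtImInfty (c i)) :=
  MonicRel.main f

end Fermat.Agent.S23
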