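import Mathlib
import Fermat.Agent.S23.BDFormsCore
import Fermat.Agent.S23.MonicRel
import Fermat.Agent.S23.Denominator
import Fermat.Agent.S23.BoundedDenom

/-!
# S23, task BDforms: a rational cusp form on `Γ₀(N)` has an integral multiple

* `cuspForm_qExpansion_integral` (E1): the `q`-expansion of a cusp form on `Γ₀(N)` satisfies a
  monic relation with coefficients in the `ℂ`-span of the integral power series;
* `cuspForm_qExpansion_frac` (E2): it is a quotient of two elements of that span;
* `exists_int_smul_mem_intLattice`: a cusp form on `Γ₀(N)` with rational `q`-expansion has a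
  nonzero integral multiple in `CuspForm.intLattice` (the bounded denominators hypothesis `hBD`
  of the final assembly).
-/

set_option autoImplicit false

open UpperHalfPlane ModularForm ModularFormClass CongruenceSubgroup
open scoped MatrixGroups Manifold

namespace Fermat.Agent.S23

/-- **E1.**  The `q`-expansion of a cusp form on `Γ₀(N)` satisfies a monic relation with
coefficients in the `ℂ`-span of the integral power series. -/
theorem cuspForm_qExpansion_integral (N : ℕ) [NeZero N] {k : ℤ} (f : CuspForm (Gamma0 N) k) :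
    ∃ (d : ℕ) (C : Fin d → PowerSeries ℂ),
      (∀ i, C i ∈ Submodule.span ℂ (Set.range (PowerSeries.map (Int.castRingHom ℂ)))) ∧
      qExpansion 1 f ^ d + ∑ i, C i * qExpansion 1 f ^ (i : ℕ) = 0 := by
  obtain ⟨d, c, -, hc, hrel, -⟩ :=
    exists_monic_relation (CuspForm.toModularFormₗ f : ModularForm (Gamma0 N) k)
  obtain ⟨C, hC, hCrel⟩ := BDForms.integral_of_relation (BDForms.qan_cusp N f) d c
    (fun i => ⟨_, hc i⟩) hrel
  exact ⟨d, C, hC, hCrel⟩

/-- **E2.**  The `q`-expansion of a cusp form on `Γ₀(N)` is a quotient of two elements of the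
`ℂ`-span of the integral power series. -/
theorem cuspForm_qExpansion_frac (N : ℕ) [NeZero N] {k : ℤ} (f : CuspForm (Gamma0 N) k) :
    ∃ A B : PowerSeries ℂ,
      A ∈ Submodule.span ℂ (Set.range (PowerSeries.map (Int.castRingHom ℂ))) ∧
      B ∈ Submodule.span ℂ (Set.range (PowerSeries.map (Int.castRingHom ℂ))) ∧
      B ≠ 0 ∧ B * qExpansion 1 f = A := by
  obtain ⟨θ, hθint, hθ⟩ := exists_theta N
  obtain ⟨d, W, b, hb0, hden⟩ := exists_levelOne_denominator θ
    (fun γ hγ => Subgroup.mem_map_of_mem _ (hθ γ hγ))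
  obtain ⟨r, hr, hrel⟩ := hden (CuspForm.toModularFormₗ f : ModularForm (Gamma0 N) k)
  refine BDForms.frac_of_relation (BDForms.qan_cusp N f) (BDForms.qan_gamma0 N θ) hθint
    ⟨W, b, rfl⟩ ?_ d r (fun j => ⟨_, hr j⟩) hrel
  intro h
  exact hb0 (DFunLike.coe_injective h)

/-- **Bounded denominators for cusp forms.**  A cusp form on `Γ₀(N)` with rational
`q`-expansion has a nonzero integral multiple in the integral lattice. -/
theorem exists_int_smul_mem_intLattice (N : ℕ) [NeZero N] (k : ℤ)
    (f : CuspForm (CongruenceSubgroup.Gamma0 N) k)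
    (hrat : ∀ n, ∃ r : ℚ, (qExpansion 1 f).coeff n = (r : ℂ)) :
    ∃ M : ℤ, M ≠ 0 ∧ M • f ∈ CuspForm.intLattice N k := by
  obtain ⟨d, C, hC, hCrel⟩ := cuspForm_qExpansion_integral N f
  obtain ⟨A, B, hA, hB, hB0, hAB⟩ := cuspForm_qExpansion_frac N f
  rw [← BDForms.intSpan_eq_span_range] at hA hB
  obtain ⟨M, hM0, hM⟩ := bounded_denominators (qExpansion 1 f) hrat d C
    (fun i => by rw [BDForms.intSpan_eq_span_range]; exact hC i) hCrel A B hA hB hB0 hAB
  exact ⟨(M : ℤ), by exact_mod_cast hM0.ne', BDForms.natCast_zsmul_mem_intLattice N f M hM⟩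

end Fermat.Agent.S23
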