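import Mathlib

/-!
# Level-one modular forms are stable under conjugating q-expansions by a ring hom

For every ring homomorphism `s : ℂ →+* ℂ` and every level-one modular form `c` of weight `k`
there is a level-one modular form `c'` of the same weight whose q-expansion is the image of
the q-expansion of `c` under `s` (coefficientwise).
-/

open UpperHalfPlane ModularForm ModularFormClass MatrixGroups EisensteinSeries

namespace Fermat.Agent.S23

noncomputable section

/-- The q-expansion of the normalised Eisenstein series is fixed by every ring hom `ℂ →+* ℂ`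
(its coefficients are rational). -/
theorem qExpansion_E_map (s : ℂ →+* ℂ) {k : ℕ} (hk : 3 ≤ k) (hk2 : Even k) :
    (qExpansion 1 (E hk)).map s = qExpansion 1 (E hk) := by
  ext m
  rw [PowerSeries.coeff_map, E_qExpansion_coeff hk hk2]
  split_ifs with h
  · simp
  · simp [map_ratCast, map_ofNat]

/-- The q-expansion of `Δ` in terms of those of `E₄` and `E₆`. -/
theorem qExpansion_discriminant_eq :
    qExpansion 1 ModularForm.discriminant =
      PowerSeries.C (1 / 1728 : ℂ) * (qExpansion 1 E₄ ^ 3 - qExpansion 1 E₆ ^ 2) := by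
  set D' : ModularForm 𝒮ℒ 12 := (1 / 1728 : ℂ) •
    (ModularForm.mcast (by decide) (E₄.pow 3) - ModularForm.mcast (by decide) (E₆.pow 2)) with hD'
  have hcoe : (D' : ℍ → ℂ) = ModularForm.discriminant := by
    funext z
    rw [discriminant_eq_E₄_cube_sub_E₆_sq z]
    simp only [hD', FunLike.coe_smul, Pi.smul_apply, FunLike.coe_sub, coe_mcast, coe_pow,
      Pi.sub_apply, Pi.pow_apply, smul_eq_mul]
    ring
  rw [← hcoe, hD', FunLike.coe_smul,
    ModularForm.qExpansion_smul one_pos one_mem_strictPeriods_SL, FunLike.coe_sub,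
    ModularForm.qExpansion_sub one_pos one_mem_strictPeriods_SL]
  simp only [coe_mcast, ModularForm.qExpansion_pow one_pos one_mem_strictPeriods_SL,
    PowerSeries.smul_eq_C_mul]

/-- The q-expansion of `Δ` is fixed by every ring hom `ℂ →+* ℂ`. -/
theorem qExpansion_discriminant_map (s : ℂ →+* ℂ) :
    (qExpansion 1 ModularForm.discriminant).map s = qExpansion 1 ModularForm.discriminant := by
  rw [qExpansion_discriminant_eq]
  simp only [map_mul, map_sub, map_pow, PowerSeries.map_C]
  rw [qExpansion_E_map s (by norm_num) ⟨2, rfl⟩, qExpansion_E_map s (by norm_num) ⟨3, rfl⟩]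
  simp [map_ofNat]

/-- The zero form is its own conjugate. -/
theorem exists_levelOne_map_of_eq_zero (s : ℂ →+* ℂ) {k : ℤ} (c : ModularForm 𝒮ℒ k)
    (hc : c = 0) : ∃ c' : ModularForm 𝒮ℒ k, qExpansion 1 c' = (qExpansion 1 c).map s :=
  ⟨0, by subst hc; simp [qExpansion_zero]⟩

theorem exists_levelOne_map_aux (s : ℂ →+* ℂ) :
    ∀ (n : ℕ) (k : ℤ), k < n → ∀ c : ModularForm 𝒮ℒ k,
      ∃ c' : ModularForm 𝒮ℒ k, qExpansion 1 c' = (qExpansion 1 c).map s := by
  intro n
  induction n with
  | zero =>
    intro k hk c
    exact exists_levelOne_map_of_eq_zero s c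
      (rank_zero_iff_forall_zero.mp (levelOne_neg_weight_rank_zero (by exact_mod_cast hk)) c)
  | succ n ih =>
    intro k hk c
    rcases lt_or_ge k (n : ℤ) with hkn | hkn
    · exact ih k hkn c
    have hkn' : k = n := by push_cast at hk; omega
    rcases Int.even_or_odd k with hk2 | hk2
    swap
    · exact exists_levelOne_map_of_eq_zero s c (levelOne_odd_weight_eq_zero hk2 c)
    rcases lt_or_ge k 3 with hk3 | hk3
    · have h02 : k = 0 ∨ k = 2 := by
        obtain ⟨m, rfl⟩ := hk2
        omega
      rcases h02 with rfl | rfl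
      · -- weight zero: constants
        obtain ⟨x, hx⟩ := levelOne_weight_zero_const c
        refine ⟨ModularForm.const (s x), ?_⟩
        have h1 : ∀ y : ℂ, qExpansion 1 (Function.const ℍ y) = PowerSeries.C y := by
          intro y
          have : (Function.const ℍ y) = ⇑(y • (1 : ModularForm 𝒮ℒ 0)) := by
            funext z
            simp
          rw [this, FunLike.coe_smul, ModularForm.qExpansion_smul one_pos one_mem_strictPeriods_SL,
            ModularForm.qExpansion_one, PowerSeries.smul_eq_C_mul, mul_one]
        rw [hx, h1, PowerSeries.map_C]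
        have : (⇑(ModularForm.const (s x) : ModularForm 𝒮ℒ 0) : ℍ → ℂ) = Function.const ℍ (s x) := by
          funext z
          simp
        rw [this, h1]
      · exact exists_levelOne_map_of_eq_zero s c
          (rank_zero_iff_forall_zero.mp levelOne_weight_two_rank_zero c)
    · -- main case: even weight at least 4
      obtain ⟨k', rfl⟩ : ∃ k' : ℕ, k = k' := ⟨n, hkn'⟩
      have hk3' : 3 ≤ k' := by exact_mod_cast hk3
      have hk2' : Even k' := by exact_mod_cast hk2
      set a0 : ℂ := (qExpansion 1 c).coeff 0 with ha0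
      set h : ModularForm 𝒮ℒ (k' : ℤ) := c - a0 • E hk3' with hh
      have hcusp : (qExpansion 1 h).coeff 0 = 0 :=
        (isCuspForm_iff_coeffZero_eq_zero _).mp
          (sub_smul_isCuspForm c (E hk3') (E_qExpansion_coeff_zero hk3' hk2'))
      have hfac := qExpansion_eq_qExpansion_discriminant_mul h hcusp
      set g : ModularForm 𝒮ℒ ((k' : ℤ) - 12) :=
        CuspForm.discriminantEquiv (toCuspForm h hcusp) with hg
      obtain ⟨g', hg'⟩ := ih ((k' : ℤ) - 12) (by omega) g
      refine ⟨s a0 • E hk3' + CuspForm.toModularFormₗ (CuspForm.ofMulDiscriminant g'), ?_⟩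
      have h1 : qExpansion 1 (⇑(s a0 • E hk3' +
          CuspForm.toModularFormₗ (CuspForm.ofMulDiscriminant g')) : ℍ → ℂ) =
          PowerSeries.C (s a0) * qExpansion 1 (E hk3') +
            qExpansion 1 ModularForm.discriminant * qExpansion 1 g' := by
        rw [FunLike.coe_add, ModularForm.qExpansion_add one_pos one_mem_strictPeriods_SL,
          FunLike.coe_smul, ModularForm.qExpansion_smul one_pos one_mem_strictPeriods_SL,
          PowerSeries.smul_eq_C_mul]
        congr 1
        have : (⇑(CuspForm.toModularFormₗ (CuspForm.ofMulDiscriminant g')) : ℍ → ℂ) =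
            ⇑CuspForm.discriminant * ⇑g' := by
          funext z
          simp
        rw [this]
        exact ModularForm.qExpansion_mul_coe one_pos one_mem_strictPeriods_SL _ _
      have h2 : qExpansion 1 (c : ℍ → ℂ) =
          PowerSeries.C a0 * qExpansion 1 (E hk3') +
            qExpansion 1 ModularForm.discriminant * qExpansion 1 g := by
        have hc : c = a0 • E hk3' + h := by rw [hh]; abel
        conv_lhs => rw [hc]
        rw [FunLike.coe_add, ModularForm.qExpansion_add one_pos one_mem_strictPeriods_SL,
          FunLike.coe_smul, ModularForm.qExpansion_smul one_pos one_mem_strictPeriods_SL,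
          PowerSeries.smul_eq_C_mul, hfac]
      rw [h1, h2, map_add, map_mul, map_mul, PowerSeries.map_C, qExpansion_E_map s hk3' hk2',
        qExpansion_discriminant_map, hg']

/-- **Level-one conjugation.** For every ring hom `s : ℂ →+* ℂ` and every level-one modular
form `c` there is a level-one modular form of the same weight whose q-expansion is obtained
from that of `c` by applying `s` to every coefficient. -/
theorem exists_levelOne_map (s : ℂ →+* ℂ) {k : ℤ} (c : ModularForm 𝒮ℒ k) :
    ∃ c' : ModularForm 𝒮ℒ k, qExpansion 1 c' = (qExpansion 1 c).map s :=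
  exists_levelOne_map_aux s (k.toNat + 1) k (by omega) c

/-- Cusp form version of `exists_levelOne_map`. -/
theorem exists_levelOne_cusp_map (s : ℂ →+* ℂ) {k : ℤ} (c : CuspForm 𝒮ℒ k) :
    ∃ c' : CuspForm 𝒮ℒ k, qExpansion 1 c' = (qExpansion 1 c).map s := by
  obtain ⟨c', hc'⟩ := exists_levelOne_map s (CuspForm.toModularFormₗ c)
  have h0 : (qExpansion 1 (CuspForm.toModularFormₗ c)).coeff 0 = 0 :=
    (isCuspForm_iff_coeffZero_eq_zero _).mp (CuspForm.isCuspForm_toModularFormₗ c)
  have h0' : (qExpansion 1 c').coeff 0 = 0 := by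
    rw [hc', PowerSeries.coeff_map, h0, map_zero]
  exact ⟨toCuspForm c' h0', hc'⟩

/-! Alternative names for the same statements (two seats produced this file concurrently;
both sets of names are kept so that every consumer compiles). -/

theorem E_qExpansion_map (s : ℂ →+* ℂ) {k : ℕ} (hk : 3 ≤ k) (hk2 : Even k) :
    (qExpansion 1 (E hk)).map s = qExpansion 1 (E hk) :=
  qExpansion_E_map s hk hk2

theorem discriminant_qExpansion_eq :
    qExpansion 1 ModularForm.discriminant =
      PowerSeries.C (1 / 1728 : ℂ) * (qExpansion 1 E₄ ^ 3 - qExpansion 1 E₆ ^ 2) :=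
  qExpansion_discriminant_eq

theorem discriminant_qExpansion_map (s : ℂ →+* ℂ) :
    (qExpansion 1 ModularForm.discriminant).map s = qExpansion 1 ModularForm.discriminant :=
  qExpansion_discriminant_map s

theorem exists_levelOne_map_cusp (s : ℂ →+* ℂ) {k : ℤ} (c : CuspForm 𝒮ℒ k) :
    ∃ c' : CuspForm 𝒮ℒ k, qExpansion 1 c' = (qExpansion 1 c).map s :=
  exists_levelOne_cusp_map s c

end

end Fermat.Agent.S23
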