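import Mathlib

/-!
# Divisibility of holomorphic functions from a monic relation (helper lemma L4 for S23)

If `a, b` are holomorphic on a connected open set, `b` is not identically zero and
`a ^ d + ∑ i < d, c i * a ^ i * b ^ (d - i) = 0` with continuous `c i`, then `a = b * h` with `h`
holomorphic, and `h` satisfies the monic relation `h ^ d + ∑ i < d, c i * h ^ i = 0`.
We also record the root bounds used to control `h` at the cusps.
-/

set_option autoImplicit false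

open Filter Topology Set
open scoped Manifold

namespace Fermat.Agent.S23

/-- Root bound: a root of a monic polynomial is bounded by `max 1 (∑ ‖c i‖)`. -/
theorem norm_le_max_one_sum {d : ℕ} (c : Fin d → ℂ) (x : ℂ)
    (hx : x ^ d + ∑ i, c i * x ^ (i : ℕ) = 0) : ‖x‖ ≤ max 1 (∑ i, ‖c i‖) := by
  by_contra hcon
  replace hcon := not_le.mp hcon
  have h1 : 1 < ‖x‖ := lt_of_le_of_lt (le_max_left _ _) hcon
  have hS : ∑ i, ‖c i‖ < ‖x‖ := lt_of_le_of_lt (le_max_right _ _) hcon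
  have hx0 : 0 < ‖x‖ := lt_trans one_pos h1
  rcases Nat.eq_zero_or_pos d with rfl | hd
  · simp at hx
  have key : ‖x‖ ^ d ≤ (∑ i, ‖c i‖) * ‖x‖ ^ (d - 1) := by
    have : x ^ d = -∑ i, c i * x ^ (i : ℕ) := eq_neg_of_add_eq_zero_left hx
    calc ‖x‖ ^ d = ‖x ^ d‖ := (norm_pow x d).symm
      _ = ‖∑ i, c i * x ^ (i : ℕ)‖ := by rw [this, norm_neg]
      _ ≤ ∑ i, ‖c i * x ^ (i : ℕ)‖ := norm_sum_le _ _
      _ ≤ ∑ i, ‖c i‖ * ‖x‖ ^ (d - 1) := by
          refine Finset.sum_le_sum fun i _ => ?_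
          rw [norm_mul, norm_pow]
          refine mul_le_mul_of_nonneg_left ?_ (norm_nonneg _)
          exact pow_le_pow_right₀ h1.le (by have := i.2; omega)
      _ = (∑ i, ‖c i‖) * ‖x‖ ^ (d - 1) := (Finset.sum_mul _ _ _).symm
  have hpow : ‖x‖ ^ d = ‖x‖ * ‖x‖ ^ (d - 1) := by
    rw [← pow_succ']; congr 1; omega
  rw [hpow] at key
  have hpos : 0 < ‖x‖ ^ (d - 1) := pow_pos hx0 _
  have := le_of_mul_le_mul_right key hpos
  exact absurd this (not_le.mpr hS)

/-- Root bound for small coefficients: if `∑ ‖c i‖ ≤ 1` then `‖x‖ ^ d ≤ ∑ ‖c i‖`. -/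
theorem norm_pow_le_sum {d : ℕ} (c : Fin d → ℂ) (x : ℂ)
    (hx : x ^ d + ∑ i, c i * x ^ (i : ℕ) = 0) (hc : ∑ i, ‖c i‖ ≤ 1) :
    ‖x‖ ^ d ≤ ∑ i, ‖c i‖ := by
  have hle : ‖x‖ ≤ 1 := by
    have := norm_le_max_one_sum c x hx
    rwa [max_eq_left hc] at this
  have : x ^ d = -∑ i, c i * x ^ (i : ℕ) := eq_neg_of_add_eq_zero_left hx
  calc ‖x‖ ^ d = ‖x ^ d‖ := (norm_pow x d).symm
    _ = ‖∑ i, c i * x ^ (i : ℕ)‖ := by rw [this, norm_neg]
    _ ≤ ∑ i, ‖c i * x ^ (i : ℕ)‖ := norm_sum_le _ _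
    _ ≤ ∑ i, ‖c i‖ := by
        refine Finset.sum_le_sum fun i _ => ?_
        rw [norm_mul, norm_pow]
        exact mul_le_of_le_one_right (norm_nonneg _) (pow_le_one₀ (norm_nonneg _) hle)

/-- Divisibility on an open preconnected subset of `ℂ`. -/
theorem exists_differentiableOn_quotient {U : Set ℂ} (hU : IsOpen U) (hUc : IsPreconnected U)
    {d : ℕ} {a b : ℂ → ℂ} (ha : DifferentiableOn ℂ a U) (hb : DifferentiableOn ℂ b U)
    (hb0 : ∃ z ∈ U, b z ≠ 0) (c : Fin d → ℂ → ℂ) (hc : ∀ i, ContinuousOn (c i) U)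
    (hrel : ∀ z ∈ U, a z ^ d + ∑ i, c i z * a z ^ (i : ℕ) * b z ^ (d - (i : ℕ)) = 0) :
    ∃ h : ℂ → ℂ, DifferentiableOn ℂ h U ∧ (∀ z ∈ U, a z = b z * h z) ∧
      ∀ z ∈ U, h z ^ d + ∑ i, c i z * h z ^ (i : ℕ) = 0 := by
  classical
  -- the quotient away from the zeros of `b`
  set g : ℂ → ℂ := fun z => a z / b z with hg
  -- the monic relation for `g` where `b ≠ 0`
  have hgrel : ∀ z ∈ U, b z ≠ 0 → g z ^ d + ∑ i, c i z * g z ^ (i : ℕ) = 0 := by
    intro z hz hbz
    have h1 := hrel z hz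
    have hbd : b z ^ d ≠ 0 := pow_ne_zero _ hbz
    have : (g z ^ d + ∑ i, c i z * g z ^ (i : ℕ)) * b z ^ d = 0 := by
      rw [add_mul, Finset.sum_mul, ← h1]
      congr 1
      · rw [hg]; simp only; rw [div_pow, div_mul_cancel₀ _ hbd]
      · refine Finset.sum_congr rfl fun i _ => ?_
        have hi : (i : ℕ) ≤ d := i.2.le
        have : b z ^ d = b z ^ (i : ℕ) * b z ^ (d - (i : ℕ)) := by
          rw [← pow_add]; congr 1; omega
        rw [hg]; simp only
        rw [div_pow, this]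
        have hbi : b z ^ (i : ℕ) ≠ 0 := pow_ne_zero _ hbz
        field_simp
    exact (mul_eq_zero.mp this).resolve_right hbd
  -- zeros of `b` in `U` are isolated
  have hban : AnalyticOnNhd ℂ b U := hb.analyticOnNhd hU
  have hiso : ∀ z ∈ U, ∀ᶠ w in 𝓝[≠] z, b w ≠ 0 := by
    intro z hz
    rcases (hban z hz).eventually_eq_zero_or_eventually_ne_zero with h | h
    · exfalso
      obtain ⟨w, hw, hbw⟩ := hb0
      have := hban.eqOn_zero_of_preconnected_of_eventuallyEq_zero hUc hz h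
      exact hbw (this hw)
    · exact h
  set H : ℂ → ℂ := fun z => if b z ≠ 0 then g z else limUnder (𝓝[≠] z) g with hH
  have hHg : ∀ z, b z ≠ 0 → H z = g z := fun z hz => by simp [hH, hz]
  -- differentiability of `H` at each point
  have hHdiff : ∀ z ∈ U, DifferentiableAt ℂ H z ∧ (∀ᶠ w in 𝓝[≠] z, H w = g w) := by
    intro z hz
    by_cases hbz : b z ≠ 0
    · have hev : ∀ᶠ w in 𝓝 z, b w ≠ 0 :=
        (hb.continuousOn.continuousAt (hU.mem_nhds hz)).eventually_ne hbz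
      have hevU : ∀ᶠ w in 𝓝 z, w ∈ U := hU.mem_nhds hz
      have hgd : DifferentiableAt ℂ g z :=
        ((ha.differentiableAt (hU.mem_nhds hz)).div (hb.differentiableAt (hU.mem_nhds hz)) hbz)
      have heq : H =ᶠ[𝓝 z] g := by
        filter_upwards [hev] with w hw using hHg w hw
      exact ⟨hgd.congr_of_eventuallyEq heq, (heq.filter_mono nhdsWithin_le_nhds)⟩
    · -- a zero of `b`: removable singularity
      have hne : ∀ᶠ w in 𝓝[≠] z, b w ≠ 0 := hiso z hz
      -- bound for the coefficients near `z`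
      have hcb : ∀ᶠ w in 𝓝 z, (∑ i, ‖c i w‖) ≤ (∑ i, ‖c i z‖) + 1 := by
        have hcont : ContinuousAt (fun w => ∑ i, ‖c i w‖) z :=
          tendsto_finsetSum _ fun i _ =>
            ((hc i).continuousAt (hU.mem_nhds hz)).norm
        exact hcont.eventually_le_const (lt_add_one _) |>.mono fun _ h => h
      rw [eventually_nhdsWithin_iff] at hne
      obtain ⟨s, hsub, hs_open, hzs⟩ := eventually_nhds_iff.mp
        ((hne.and hcb).and (hU.mem_nhds hz))
      have hsU : s ⊆ U := fun w hw => (hsub w hw).2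
      have hs_nhds : s ∈ 𝓝 z := hs_open.mem_nhds hzs
      have hgd : DifferentiableOn ℂ g (s \ {z}) := by
        intro w hw
        have hbw : b w ≠ 0 := (hsub w hw.1).1.1 hw.2
        exact ((ha.differentiableAt (hU.mem_nhds (hsU hw.1))).div
          (hb.differentiableAt (hU.mem_nhds (hsU hw.1))) hbw).differentiableWithinAt
      have hbdd : BddAbove (norm ∘ g '' (s \ {z})) := by
        refine ⟨max 1 ((∑ i, ‖c i z‖) + 1), ?_⟩
        rintro _ ⟨w, hw, rfl⟩
        have hbw : b w ≠ 0 := (hsub w hw.1).1.1 hw.2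
        have h1 := norm_le_max_one_sum (fun i => c i w) (g w) (hgrel w (hsU hw.1) hbw)
        exact h1.trans (max_le_max le_rfl (hsub w hw.1).1.2)
      have hupd := Complex.differentiableOn_update_limUnder_of_bddAbove hs_nhds hgd hbdd
      have heq : H =ᶠ[𝓝 z] Function.update g z (limUnder (𝓝[≠] z) g) := by
        filter_upwards [hs_nhds] with w hw
        by_cases hwz : w = z
        · subst hwz
          simp [hH, hbz]
        · rw [Function.update_of_ne hwz]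
          exact hHg w ((hsub w hw).1.1 hwz)
      refine ⟨(hupd.differentiableAt hs_nhds).congr_of_eventuallyEq heq, ?_⟩
      rw [eventually_nhdsWithin_iff]
      filter_upwards [hs_nhds] with w hw hwz
      exact hHg w ((hsub w hw).1.1 hwz)
  have hHd : DifferentiableOn ℂ H U := fun z hz => (hHdiff z hz).1.differentiableWithinAt
  -- the monic relation for `H`
  have hHrel : ∀ z ∈ U, H z ^ d + ∑ i, c i z * H z ^ (i : ℕ) = 0 := by
    intro z hz
    by_cases hbz : b z ≠ 0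
    · rw [hHg z hbz]; exact hgrel z hz hbz
    · -- by continuity
      have hcont : ContinuousAt (fun w => H w ^ d + ∑ i, c i w * H w ^ (i : ℕ)) z := by
        have hHc : ContinuousAt H z := (hHdiff z hz).1.continuousAt
        exact (hHc.pow d).add (tendsto_finsetSum _ fun i _ =>
          ((hc i).continuousAt (hU.mem_nhds hz)).mul (hHc.pow _))
      have hev : ∀ᶠ w in 𝓝[≠] z, H w ^ d + ∑ i, c i w * H w ^ (i : ℕ) = 0 := by
        have h1 := (hHdiff z hz).2
        have h2 := hiso z hz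
        have h3 : ∀ᶠ w in 𝓝[≠] z, w ∈ U := nhdsWithin_le_nhds (hU.mem_nhds hz)
        filter_upwards [h1, h2, h3] with w hw1 hw2 hw3
        rw [hw1]; exact hgrel w hw3 hw2
      have ht : Tendsto (fun w => H w ^ d + ∑ i, c i w * H w ^ (i : ℕ)) (𝓝[≠] z) (𝓝 0) :=
        (tendsto_congr' hev).mpr tendsto_const_nhds
      exact tendsto_nhds_unique (hcont.tendsto.mono_left nhdsWithin_le_nhds) ht
  refine ⟨H, hHd, ?_, hHrel⟩
  intro z hz
  by_cases hbz : b z ≠ 0
  · rw [hHg z hbz, hg]; simp only; field_simp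
  · have hbz' : b z = 0 := not_not.mp hbz
    rw [hbz', zero_mul]
    have h1 := hrel z hz
    rcases Nat.eq_zero_or_pos d with rfl | hd
    · simp at h1
    have hsum : ∑ i : Fin d, c i z * a z ^ (i : ℕ) * b z ^ (d - (i : ℕ)) = 0 := by
      refine Finset.sum_eq_zero fun i _ => ?_
      have : d - (i : ℕ) ≠ 0 := by have := i.2; omega
      rw [hbz', zero_pow this, mul_zero]
    rw [hsum, add_zero] at h1
    exact pow_eq_zero_iff (by omega) |>.mp h1

open UpperHalfPlane in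
/-- Divisibility on the upper half plane: if `a, b : ℍ → ℂ` are holomorphic, `b ≠ 0` and
`a ^ d + ∑ i < d, c i * a ^ i * b ^ (d - i) = 0` with continuous `c i`, then `a = b * h` with `h`
holomorphic satisfying `h ^ d + ∑ i < d, c i * h ^ i = 0`. -/
theorem exists_mdiff_quotient {d : ℕ} {a b : ℍ → ℂ}
    (ha : MDifferentiable 𝓘(ℂ) 𝓘(ℂ) a) (hb : MDifferentiable 𝓘(ℂ) 𝓘(ℂ) b) (hb0 : b ≠ 0)
    (c : Fin d → ℍ → ℂ) (hc : ∀ i, Continuous (c i))
    (hrel : ∀ z, a z ^ d + ∑ i, c i z * a z ^ (i : ℕ) * b z ^ (d - (i : ℕ)) = 0) :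
    ∃ h : ℍ → ℂ, MDifferentiable 𝓘(ℂ) 𝓘(ℂ) h ∧ (∀ z, a z = b z * h z) ∧
      ∀ z, h z ^ d + ∑ i, c i z * h z ^ (i : ℕ) = 0 := by
  have hU : IsOpen {z : ℂ | 0 < z.im} := isOpen_upperHalfPlaneSet
  have hUc : IsPreconnected {z : ℂ | 0 < z.im} := (convex_halfSpace_im_gt 0).isPreconnected
  have hof : ∀ z : ℍ, ofComplex (z : ℂ) = z := ofComplex_apply
  have hb0' : ∃ z ∈ {z : ℂ | 0 < z.im}, (b ∘ ofComplex) z ≠ 0 := by
    obtain ⟨z, hz⟩ := Function.ne_iff.mp hb0
    exact ⟨(z : ℂ), z.im_pos, by simpa [hof] using hz⟩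
  have hc' : ∀ i, ContinuousOn (c i ∘ ofComplex) {z : ℂ | 0 < z.im} := by
    intro i z hz
    have : ContinuousAt ofComplex z :=
      (mdifferentiableAt_ofComplex hz).continuousAt
    exact ((hc i).continuousAt.comp this).continuousWithinAt
  have hrel' : ∀ z ∈ {z : ℂ | 0 < z.im}, (a ∘ ofComplex) z ^ d +
      ∑ i, (c i ∘ ofComplex) z * (a ∘ ofComplex) z ^ (i : ℕ) *
        (b ∘ ofComplex) z ^ (d - (i : ℕ)) = 0 := fun z _ => hrel (ofComplex z)
  obtain ⟨h, hh, hab, hhrel⟩ := exists_differentiableOn_quotient hU hUc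
    (mdifferentiable_iff.mp ha) (mdifferentiable_iff.mp hb) hb0' (fun i => c i ∘ ofComplex) hc'
    hrel'
  refine ⟨fun z => h (z : ℂ), ?_, ?_, ?_⟩
  · rw [mdifferentiable_iff]
    refine hh.congr fun z hz => ?_
    simp only [Function.comp_apply]
    rw [ofComplex_apply_of_im_pos hz]
  · intro z
    have := hab (z : ℂ) z.im_pos
    simpa [hof] using this
  · intro z
    have := hhrel (z : ℂ) z.im_pos
    simpa [hof] using this

open UpperHalfPlane in
/-- A function satisfying a monic relation with coefficients bounded at `i∞` is bounded at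
`i∞`. -/
theorem isBoundedAtImInfty_of_monic {d : ℕ} {h : ℍ → ℂ} (c : Fin d → ℍ → ℂ)
    (hc : ∀ i, IsBoundedAtImInfty (c i))
    (hrel : ∀ z, h z ^ d + ∑ i, c i z * h z ^ (i : ℕ) = 0) : IsBoundedAtImInfty h := by
  choose M A hMA using fun i => isBoundedAtImInfty_iff.mp (hc i)
  rw [isBoundedAtImInfty_iff]
  refine ⟨max 1 (∑ i, M i), Finset.univ.sup' ⟨0, Finset.mem_univ _⟩ (fun i : Fin (d + 1) =>
    if hi : (i : ℕ) < d then A ⟨i, hi⟩ else 0), fun z hz => ?_⟩
  refine (norm_le_max_one_sum (fun i => c i z) (h z) (hrel z)).trans (max_le_max le_rfl ?_)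
  refine Finset.sum_le_sum fun i _ => hMA i z (le_trans ?_ hz)
  have := Finset.le_sup' (fun i : Fin (d + 1) => if hi : (i : ℕ) < d then A ⟨i, hi⟩ else 0)
    (Finset.mem_univ (⟨i, i.2.trans (Nat.lt_succ_self d)⟩ : Fin (d + 1)))
  simpa using this

open UpperHalfPlane in
/-- A function satisfying a monic relation of positive degree with coefficients tending to zero
at `i∞` tends to zero at `i∞`. -/
theorem isZeroAtImInfty_of_monic {d : ℕ} (hd : d ≠ 0) {h : ℍ → ℂ} (c : Fin d → ℍ → ℂ)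
    (hc : ∀ i, IsZeroAtImInfty (c i))
    (hrel : ∀ z, h z ^ d + ∑ i, c i z * h z ^ (i : ℕ) = 0) : IsZeroAtImInfty h := by
  have hsum : Tendsto (fun z => ∑ i, ‖c i z‖) atImInfty (𝓝 0) := by
    have : Tendsto (fun z => ∑ i, ‖c i z‖) atImInfty (𝓝 (∑ _i : Fin d, (0 : ℝ))) :=
      tendsto_finsetSum _ fun i _ => by
        have := (hc i).norm
        simpa using this
    simpa using this
  -- `‖h z‖ ^ d ≤ ∑ ‖c i z‖` eventually, hence `‖h z‖ → 0`
  have hev : ∀ᶠ z in atImInfty, ‖h z‖ ^ d ≤ ∑ i, ‖c i z‖ := by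
    have h1 : ∀ᶠ z in atImInfty, ∑ i, ‖c i z‖ ≤ 1 := hsum.eventually_le_const one_pos
    filter_upwards [h1] with z hz
    exact norm_pow_le_sum (fun i => c i z) (h z) (hrel z) hz
  have hpow : Tendsto (fun z => ‖h z‖ ^ d) atImInfty (𝓝 0) :=
    squeeze_zero' (Eventually.of_forall fun z => pow_nonneg (norm_nonneg _) _) hev hsum
  have hroot : Tendsto (fun z => (‖h z‖ ^ d) ^ ((d : ℝ)⁻¹)) atImInfty (𝓝 0) := by
    have hcont : ContinuousAt (fun x : ℝ => x ^ ((d : ℝ)⁻¹)) 0 :=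
      Real.continuousAt_rpow_const _ _ (Or.inr (by positivity))
    have h0 : (0 : ℝ) ^ ((d : ℝ)⁻¹) = 0 :=
      Real.zero_rpow (inv_ne_zero (Nat.cast_ne_zero.mpr hd))
    have := hcont.tendsto.comp hpow
    rw [h0] at this
    exact this
  have heq : (fun z => (‖h z‖ ^ d) ^ ((d : ℝ)⁻¹)) = fun z => ‖h z‖ := by
    funext z
    rw [← Real.rpow_natCast, ← Real.rpow_mul (norm_nonneg _),
      mul_inv_cancel₀ (Nat.cast_ne_zero.mpr hd), Real.rpow_one]
  rw [heq] at hroot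
  exact tendsto_zero_iff_norm_tendsto_zero.mpr hroot

open UpperHalfPlane in
/-- Variant of `exists_mdiff_quotient` with coefficients indexed by `ℕ` and sums over
`Finset.range n` (the shape used in the assembly of Theorem A). -/
theorem exists_mdiff_quotient_of_monic (n : ℕ) (a b : ℍ → ℂ) (u : ℕ → ℍ → ℂ)
    (ha : MDifferentiable 𝓘(ℂ) 𝓘(ℂ) a) (hb : MDifferentiable 𝓘(ℂ) 𝓘(ℂ) b) (hb0 : b ≠ 0)
    (hu : ∀ i, MDifferentiable 𝓘(ℂ) 𝓘(ℂ) (u i))
    (h : ∀ τ, a τ ^ n + ∑ i ∈ Finset.range n, u i τ * a τ ^ i * b τ ^ (n - i) = 0) :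
    ∃ h : ℍ → ℂ, MDifferentiable 𝓘(ℂ) 𝓘(ℂ) h ∧ (∀ τ, a τ = b τ * h τ) ∧
      ∀ τ, h τ ^ n + ∑ i ∈ Finset.range n, u i τ * h τ ^ i = 0 := by
  obtain ⟨h', hh', hab, hrel⟩ := exists_mdiff_quotient (d := n) ha hb hb0
    (fun i => u (i : ℕ)) (fun i => (hu i).continuous) (fun τ => by
      rw [Fin.sum_univ_eq_sum_range (fun i => u i τ * a τ ^ i * b τ ^ (n - i)) n]
      exact h τ)
  refine ⟨h', hh', hab, fun τ => ?_⟩
  have := hrel τ
  rwa [Fin.sum_univ_eq_sum_range (fun i => u i τ * h' τ ^ i) n] at this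

open UpperHalfPlane in
/-- `ℕ`-indexed variant of `isBoundedAtImInfty_of_monic`. -/
theorem isBoundedAtImInfty_of_monic_range (n : ℕ) {h : ℍ → ℂ} (u : ℕ → ℍ → ℂ)
    (hu : ∀ i < n, IsBoundedAtImInfty (u i))
    (hrel : ∀ τ, h τ ^ n + ∑ i ∈ Finset.range n, u i τ * h τ ^ i = 0) : IsBoundedAtImInfty h := by
  refine isBoundedAtImInfty_of_monic (d := n) (fun i => u (i : ℕ)) (fun i => hu i i.2) fun τ => ?_
  rw [Fin.sum_univ_eq_sum_range (fun i => u i τ * h τ ^ i) n]
  exact hrel τ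

open UpperHalfPlane in
/-- `ℕ`-indexed variant of `isZeroAtImInfty_of_monic`. -/
theorem isZeroAtImInfty_of_monic_range {n : ℕ} (hn : n ≠ 0) {h : ℍ → ℂ} (u : ℕ → ℍ → ℂ)
    (hu : ∀ i < n, IsZeroAtImInfty (u i))
    (hrel : ∀ τ, h τ ^ n + ∑ i ∈ Finset.range n, u i τ * h τ ^ i = 0) : IsZeroAtImInfty h := by
  refine isZeroAtImInfty_of_monic (d := n) hn (fun i => u (i : ℕ)) (fun i => hu i i.2) fun τ => ?_
  rw [Fin.sum_univ_eq_sum_range (fun i => u i τ * h τ ^ i) n]
  exact hrel τ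

end Fermat.Agent.S23
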