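import Mathlib
import Fermat.Agent.S23.MonicDivide

/-!
# S23: a holomorphic invariant root of a monic level-one relation is a modular / cusp form

Let `Γ` be an arithmetic subgroup, `h : ℍ → ℂ` holomorphic and slash-invariant of weight `k`
under `Γ`, and suppose `h ^ d + ∑ i < d, c i * h ^ i = 0` where `c i` is a level-one modular
form of weight `(d - i) * k`.  Then every `SL(2, ℤ)`-translate `h ∣[k] γ` satisfies the same
relation, hence is bounded at `i∞` (resp. tends to zero at `i∞` if all the `c i` do), so `h` is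
a modular form (resp. a cusp form) for `Γ`.
-/

set_option autoImplicit false

open UpperHalfPlane ModularForm
open scoped MatrixGroups Manifold

namespace Fermat.Agent.S23

/-- The `SL(2, ℤ)`-translates of a root of a monic relation with level-one coefficients (of the
matching weights) satisfy the same relation. -/
theorem monic_relation_slash {k : ℤ} (h : ℍ → ℂ) {d : ℕ} (c : Fin d → ℍ → ℂ)
    (hc : ∀ i : Fin d, ∃ g : ModularForm 𝒮ℒ (((d : ℤ) - (i : ℕ)) * k), ⇑g = c i)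
    (hrel : ∀ z, h z ^ d + ∑ i, c i z * h z ^ (i : ℕ) = 0) (γ : SL(2, ℤ)) (z : ℍ) :
    (h ∣[k] γ) z ^ d + ∑ i, c i z * (h ∣[k] γ) z ^ (i : ℕ) = 0 := by
  have hJ : denom γ z ≠ 0 := denom_ne_zero γ z
  rw [ModularForm.SL_slash_apply]
  set J : ℂ := denom γ z with hJdef
  set H : ℂ := h (γ • z) with hHdef
  have hci : ∀ i : Fin d, c i (γ • z) = c i z * J ^ (((d : ℤ) - (i : ℕ)) * k) := by
    intro i
    obtain ⟨g, hg⟩ := hc i
    have h1 : (⇑g : ℍ → ℂ) ∣[((d : ℤ) - (i : ℕ)) * k] γ = ⇑g :=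
      SlashInvariantFormClass.slash_action_eq g (Matrix.SpecialLinearGroup.mapGL ℝ γ) ⟨γ, rfl⟩
    have h2 := congrFun h1 z
    rw [ModularForm.SL_slash_apply, hg] at h2
    rw [← h2, mul_assoc, ← zpow_add₀ hJ, neg_add_cancel, zpow_zero, mul_one]
  have key : (H * J ^ (-k)) ^ d + ∑ i : Fin d, c i z * (H * J ^ (-k)) ^ (i : ℕ) =
      (J ^ (-k)) ^ d * (H ^ d + ∑ i : Fin d, c i (γ • z) * H ^ (i : ℕ)) := by
    rw [mul_add, Finset.mul_sum, mul_pow, mul_comm (H ^ d)]
    congr 1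
    refine Finset.sum_congr rfl fun i _ => ?_
    have h3 : (J ^ (-k)) ^ d * J ^ (((d : ℤ) - (i : ℕ)) * k) = (J ^ (-k)) ^ (i : ℕ) := by
      rw [← zpow_natCast (J ^ (-k)) d, ← zpow_natCast (J ^ (-k)) (i : ℕ), ← zpow_mul, ← zpow_mul,
        ← zpow_add₀ hJ]
      congr 1
      ring
    rw [hci i, mul_pow, ← h3]
    ring
  rw [key, hrel (γ • z), mul_zero]

/-- A holomorphic function on `ℍ`, slash-invariant under an arithmetic group `Γ`, which is a
root of a monic relation with level-one modular coefficients, is a modular form for `Γ`. -/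
theorem exists_modularForm_of_monic_relation {Γ : Subgroup (GL (Fin 2) ℝ)} [Γ.IsArithmetic]
    {k : ℤ} (h : ℍ → ℂ) (hh : MDifferentiable 𝓘(ℂ) 𝓘(ℂ) h) (hinv : ∀ γ ∈ Γ, h ∣[k] γ = h)
    {d : ℕ} (c : Fin d → ℍ → ℂ)
    (hc : ∀ i : Fin d, ∃ g : ModularForm 𝒮ℒ (((d : ℤ) - (i : ℕ)) * k), ⇑g = c i)
    (hrel : ∀ z, h z ^ d + ∑ i, c i z * h z ^ (i : ℕ) = 0) : ∃ H : ModularForm Γ k, ⇑H = h := by
  have hcb : ∀ i, IsBoundedAtImInfty (c i) := by
    intro i
    obtain ⟨g, hg⟩ := hc i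
    rw [← hg]
    exact ModularFormClass.bdd_at_infty g
  refine ⟨{ toFun := h
            slash_action_eq' := hinv
            holo' := hh
            bdd_at_cusps' := ?_ }, rfl⟩
  intro cu hcu
  rw [Subgroup.IsArithmetic.isCusp_iff_isCusp_SL2Z] at hcu
  rw [OnePoint.isBoundedAt_iff_forall_SL2Z hcu]
  intro γ _
  exact isBoundedAtImInfty_of_monic c hcb (monic_relation_slash h c hc hrel γ)

/-- A holomorphic function on `ℍ`, slash-invariant under an arithmetic group `Γ`, which is a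
root of a monic relation of positive degree whose coefficients are level-one modular forms
vanishing at `i∞`, is a cusp form for `Γ`. -/
theorem exists_cuspForm_of_monic_relation {Γ : Subgroup (GL (Fin 2) ℝ)} [Γ.IsArithmetic]
    {k : ℤ} (h : ℍ → ℂ) (hh : MDifferentiable 𝓘(ℂ) 𝓘(ℂ) h) (hinv : ∀ γ ∈ Γ, h ∣[k] γ = h)
    {d : ℕ} (hd : 0 < d) (c : Fin d → ℍ → ℂ)
    (hc : ∀ i : Fin d, ∃ g : ModularForm 𝒮ℒ (((d : ℤ) - (i : ℕ)) * k), ⇑g = c i)
    (hc0 : ∀ i, IsZeroAtImInfty (c i))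
    (hrel : ∀ z, h z ^ d + ∑ i, c i z * h z ^ (i : ℕ) = 0) : ∃ H : CuspForm Γ k, ⇑H = h := by
  refine ⟨{ toFun := h
            slash_action_eq' := hinv
            holo' := hh
            zero_at_cusps' := ?_ }, rfl⟩
  intro cu hcu
  rw [Subgroup.IsArithmetic.isCusp_iff_isCusp_SL2Z] at hcu
  rw [OnePoint.isZeroAt_iff_forall_SL2Z hcu]
  intro γ _
  exact isZeroAtImInfty_of_monic hd.ne' c hc0 (monic_relation_slash h c hc hrel γ)

/-- Every `SL(2, ℤ)`-translate of a cusp form for an arithmetic group vanishes at `i∞`. -/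
theorem isZeroAtImInfty_slash_of_cuspForm {Γ : Subgroup (GL (Fin 2) ℝ)} [Γ.IsArithmetic] {k : ℤ}
    (f : CuspForm Γ k) (γ : SL(2, ℤ)) : IsZeroAtImInfty ((⇑f : ℍ → ℂ) ∣[k] γ) :=
  CuspFormClass.zero_at_infty_slash f γ

/-- Every `SL(2, ℤ)`-translate of a modular form for an arithmetic group is bounded at `i∞`. -/
theorem isBoundedAtImInfty_slash_of_modularForm {Γ : Subgroup (GL (Fin 2) ℝ)} [Γ.IsArithmetic]
    {k : ℤ} (f : ModularForm Γ k) (γ : SL(2, ℤ)) : IsBoundedAtImInfty ((⇑f : ℍ → ℂ) ∣[k] γ) :=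
  ModularFormClass.bdd_at_infty_slash f γ

end Fermat.Agent.S23
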