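import Mathlib
import Fermat.Prelude.Thm_CongruenceSubgroup_one_mem_strictPeriods_Gamma0
import Fermat.Agent.S23.Defs
import Fermat.Agent.S23.LevelOneConj
import Fermat.Agent.S23.MonicDivide
import Fermat.Agent.S23.QAnalytic
import Fermat.Agent.S23.LevelOne
import Fermat.Agent.S23.MonicRel
import Fermat.Agent.S23.OfMonic
import Fermat.Agent.S23.Denominator
import Fermat.Agent.S23.Theta

/-!
# S23: assembly of "Theorem A" (alternative path)

For a cusp form `f` on `Γ₀(N)` and a ring homomorphism `s : ℂ →+* ℂ`, the coefficientwise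
`s`-conjugate of the `q`-expansion of `f` is again the `q`-expansion of a cusp form on `Γ₀(N)`.

This file contains the assembly, with the three structural inputs (level-one denominator
identity, monic relation over level one, "a root of a monic level-one relation is a cusp form")
as explicit hypotheses.
-/

set_option autoImplicit false

open UpperHalfPlane ModularForm
open scoped MatrixGroups Manifold

namespace Fermat.Agent.S23

namespace ConjAlt

/-- A modular form on a group with strict period `1` is `q`-analytic. -/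
theorem qan_of_modularForm {Γ : Subgroup (GL (Fin 2) ℝ)} {k : ℤ} (g : ModularForm Γ k)
    (h1 : (1 : ℝ) ∈ Γ.strictPeriods) : QAn (⇑g : ℍ → ℂ) := by
  have : Fact (IsCusp OnePoint.infty Γ) := ⟨Γ.isCusp_of_mem_strictPeriods one_pos h1⟩
  exact
    { per := SlashInvariantFormClass.periodic_comp_ofComplex g h1
      hol := g.holo'
      bdd := ModularFormClass.bdd_at_infty g }

/-- A cusp form on a group with strict period `1` is `q`-analytic. -/
theorem qan_of_cuspForm {Γ : Subgroup (GL (Fin 2) ℝ)} {k : ℤ} (g : CuspForm Γ k)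
    (h1 : (1 : ℝ) ∈ Γ.strictPeriods) : QAn (⇑g : ℍ → ℂ) := by
  have : Fact (IsCusp OnePoint.infty Γ) := ⟨Γ.isCusp_of_mem_strictPeriods one_pos h1⟩
  exact
    { per := SlashInvariantFormClass.periodic_comp_ofComplex g h1
      hol := g.holo'
      bdd := ModularFormClass.bdd_at_infty g }

/-- Slash of a power by an element of `SL(2, ℤ)`. -/
theorem pow_slash_SL2 (w : ℤ) (γ : SL(2, ℤ)) (F : ℍ → ℂ) (j : ℕ) :
    (F ^ j) ∣[(j : ℤ) * w] γ = (F ∣[w] γ) ^ j := by
  induction j with
  | zero =>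
    simp only [pow_zero, Nat.cast_zero, zero_mul]
    exact ModularForm.is_invariant_one γ
  | succ j ih =>
    rw [pow_succ, pow_succ, ← ih]
    have : ((j + 1 : ℕ) : ℤ) * w = (j : ℤ) * w + w := by push_cast; ring
    rw [this]
    exact ModularForm.mul_slash_SL2 _ _ γ _ _

theorem map_injective (s : ℂ →+* ℂ) : Function.Injective (PowerSeries.map s) := by
  intro p q h
  ext n
  have := congrArg (PowerSeries.coeff n) h
  simp only [PowerSeries.coeff_map] at this
  exact s.injective this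

/-- **Theorem A, assembly.** -/
theorem exists_cuspForm_map_of (N : ℕ) [NeZero N] (s : ℂ →+* ℂ) {k : ℤ}
    (f : CuspForm (CongruenceSubgroup.Gamma0 N) k)
    (θ : ModularForm (CongruenceSubgroup.Gamma0 N) 4)
    (hθint : ∀ n, ∃ m : ℤ, (qExpansion 1 θ).coeff n = (m : ℂ))
    {d : ℕ} {W : ℤ} (b : ℍ → ℂ) (hb : IsLO W b) (hb0 : b ≠ 0) (r : Fin d → ℍ → ℂ)
    (hr : ∀ j : Fin d, IsLO (k + W - (j : ℕ) * 4) (r j))
    (hden : ∀ z, b z * f z = ∑ j, r j z * θ z ^ (j : ℕ))
    {n : ℕ} (c : Fin n → ℍ → ℂ)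
    (hc : ∀ i : Fin n, IsLO (((n : ℤ) - (i : ℕ)) * k) (c i))
    (hmon : ∀ z, f z ^ n + ∑ i, c i z * f z ^ (i : ℕ) = 0)
    (hc0 : ∀ i, IsZeroAtImInfty (c i))
    (hOf : ∀ (h : ℍ → ℂ), MDiff h →
      (∀ γ ∈ (CongruenceSubgroup.Gamma0 N : Subgroup (GL (Fin 2) ℝ)), h ∣[k] γ = h) →
      ∀ (c' : Fin n → ℍ → ℂ), (∀ i : Fin n, IsLO (((n : ℤ) - (i : ℕ)) * k) (c' i)) →
        (∀ i, IsZeroAtImInfty (c' i)) →
        (∀ z, h z ^ n + ∑ i, c' i z * h z ^ (i : ℕ) = 0) →
        ∃ H : CuspForm (CongruenceSubgroup.Gamma0 N) k, ⇑H = h) :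
    ∃ g : CuspForm (CongruenceSubgroup.Gamma0 N) k,
      qExpansion 1 g = (qExpansion 1 f).map s := by
  classical
  have h1 := CongruenceSubgroup.one_mem_strictPeriods_Gamma0 N
  have hL1 : ∀ (k : ℤ) (c : ModularForm 𝒮ℒ k), ∃ c' : ModularForm 𝒮ℒ k,
      qExpansion 1 c' = (qExpansion 1 c).map s := fun k c => exists_levelOne_map s c
  -- q-analyticity of the data
  have qf : QAn (⇑f : ℍ → ℂ) := qan_of_cuspForm f h1
  have qθ : QAn (⇑θ : ℍ → ℂ) := qan_of_modularForm θ h1
  have qb : QAn b := hb.qan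
  have qr : ∀ j, QAn (r j) := fun j => (hr j).qan
  have qc : ∀ i, QAn (c i) := fun i => (hc i).qan
  -- θ has an `s`-fixed q-expansion
  have hθmap : (qExpansion 1 θ).map s = qExpansion 1 θ :=
    IsIntSeries.map_eq (p := qExpansion 1 θ) hθint s
  -- the twists
  obtain ⟨b', hb', hb'q⟩ := hb.exists_conj s hL1
  choose r' hr' hr'q using fun j => (hr j).exists_conj s hL1
  choose c' hc' hc'q using fun i => (hc i).exists_conj s hL1
  have qb' : QAn b' := hb'.qan
  have qr' : ∀ j, QAn (r' j) := fun j => (hr' j).qan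
  have qc' : ∀ i, QAn (c' i) := fun i => (hc' i).qan
  -- the twisted numerator
  set a' : ℍ → ℂ := ∑ j, r' j * (⇑θ : ℍ → ℂ) ^ (j : ℕ) with ha'
  have qa' : QAn a' := QAn.sum _ fun j _ => (qr' j).mul (qθ.pow _)
  -- q-expansion of the untwisted identity
  have hden' : b * (⇑f : ℍ → ℂ) = ∑ j, r j * (⇑θ : ℍ → ℂ) ^ (j : ℕ) := by
    funext z
    simp only [Pi.mul_apply, Finset.sum_apply, Pi.pow_apply]
    exact hden z
  have hq1 : qExpansion 1 b * qExpansion 1 f =
      ∑ j, qExpansion 1 (r j) * qExpansion 1 θ ^ (j : ℕ) := by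
    rw [← qb.qExpansion_mul qf, hden', QAn.qExpansion_sum _ fun j _ => (qr j).mul (qθ.pow _)]
    refine Finset.sum_congr rfl fun j _ => ?_
    rw [(qr j).qExpansion_mul (qθ.pow _), qθ.qExpansion_pow]
  have hqa : qExpansion 1 a' = qExpansion 1 b' * (qExpansion 1 f).map s := by
    rw [ha', QAn.qExpansion_sum _ fun j _ => (qr' j).mul (qθ.pow _), hb'q, ← map_mul, hq1,
      map_sum]
    refine Finset.sum_congr rfl fun j _ => ?_
    rw [(qr' j).qExpansion_mul (qθ.pow _), qθ.qExpansion_pow, hr'q, map_mul, map_pow, hθmap]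
  -- b' is not zero
  have hb'0 : b' ≠ 0 := by
    intro h0
    have h2 : qExpansion 1 b' = 0 := by rw [h0]; exact UpperHalfPlane.qExpansion_zero 1
    rw [hb'q] at h2
    have h3 : qExpansion 1 b = 0 := map_injective s (by rw [h2, map_zero])
    exact hb0 (qb.eq_zero_of_qExpansion_eq_zero h3)
  -- the monic relation, twisted
  have hmon' : (⇑f : ℍ → ℂ) ^ n + ∑ i, c i * (⇑f : ℍ → ℂ) ^ (i : ℕ) = 0 := by
    funext z
    simp only [Pi.add_apply, Pi.pow_apply, Finset.sum_apply, Pi.mul_apply, Pi.zero_apply]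
    exact hmon z
  have hq2 : qExpansion 1 f ^ n + ∑ i, qExpansion 1 (c i) * qExpansion 1 f ^ (i : ℕ) = 0 := by
    have := congrArg (qExpansion 1) hmon'
    rw [(qf.pow n).qExpansion_add (QAn.sum _ fun i _ => (qc i).mul (qf.pow _)),
      qf.qExpansion_pow, QAn.qExpansion_sum _ fun i _ => (qc i).mul (qf.pow _),
      UpperHalfPlane.qExpansion_zero] at this
    rw [← this]
    congr 1
    refine Finset.sum_congr rfl fun i _ => ?_
    rw [(qc i).qExpansion_mul (qf.pow _), qf.qExpansion_pow]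
  have hrel : ∀ z, a' z ^ n + ∑ i : Fin n, c' i z * a' z ^ (i : ℕ) * b' z ^ (n - (i : ℕ)) = 0 := by
    have hΦ : QAn (a' ^ n + ∑ i : Fin n, c' i * a' ^ (i : ℕ) * b' ^ (n - (i : ℕ))) :=
      (qa'.pow n).add (QAn.sum _ fun i _ => ((qc' i).mul (qa'.pow _)).mul (qb'.pow _))
    have hΦ0 : a' ^ n + ∑ i : Fin n, c' i * a' ^ (i : ℕ) * b' ^ (n - (i : ℕ)) = 0 := by
      apply hΦ.eq_zero_of_qExpansion_eq_zero
      rw [(qa'.pow n).qExpansion_add
        (QAn.sum _ fun i _ => ((qc' i).mul (qa'.pow _)).mul (qb'.pow _)),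
        qa'.qExpansion_pow,
        QAn.qExpansion_sum _ fun i _ => ((qc' i).mul (qa'.pow _)).mul (qb'.pow _)]
      have hterm : ∀ i : Fin n,
          qExpansion 1 (c' i * a' ^ (i : ℕ) * b' ^ (n - (i : ℕ))) =
            qExpansion 1 b' ^ n *
              ((qExpansion 1 (c i)).map s * (qExpansion 1 f).map s ^ (i : ℕ)) := by
        intro i
        rw [((qc' i).mul (qa'.pow _)).qExpansion_mul (qb'.pow _),
          (qc' i).qExpansion_mul (qa'.pow _), qa'.qExpansion_pow, qb'.qExpansion_pow, hc'q, hqa,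
          mul_pow]
        have hi : (i : ℕ) + (n - (i : ℕ)) = n := Nat.add_sub_cancel' i.2.le
        calc (qExpansion 1 (c i)).map s *
              (qExpansion 1 b' ^ (i : ℕ) * (qExpansion 1 f).map s ^ (i : ℕ)) *
              qExpansion 1 b' ^ (n - (i : ℕ))
            = (qExpansion 1 b' ^ (i : ℕ) * qExpansion 1 b' ^ (n - (i : ℕ))) *
              ((qExpansion 1 (c i)).map s * (qExpansion 1 f).map s ^ (i : ℕ)) := by ring
          _ = _ := by rw [← pow_add, hi]
      rw [Finset.sum_congr rfl fun i _ => hterm i, hqa, mul_pow, ← Finset.mul_sum, ← mul_add]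
      have : (qExpansion 1 f).map s ^ n +
          ∑ i : Fin n, (qExpansion 1 (c i)).map s * (qExpansion 1 f).map s ^ (i : ℕ) = 0 := by
        have := congrArg (PowerSeries.map s) hq2
        simpa only [map_add, map_pow, map_sum, map_mul, map_zero] using this
      rw [this, mul_zero]
    intro z
    have := congrFun hΦ0 z
    simpa only [Pi.add_apply, Pi.pow_apply, Finset.sum_apply, Pi.mul_apply, Pi.zero_apply]
      using this
  -- divide
  obtain ⟨h, hh, hab, hhrel⟩ := exists_mdiff_quotient qa'.hol qb'.hol hb'0 c'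
    (fun i => (qc' i).hol.continuous) hrel
  have hab' : a' = b' * h := funext hab
  -- invariance of h
  have hinv : ∀ γ ∈ (CongruenceSubgroup.Gamma0 N : Subgroup (GL (Fin 2) ℝ)), h ∣[k] γ = h := by
    rintro γ ⟨γ', hγ', rfl⟩
    have hθγ : (⇑θ : ℍ → ℂ) ∣[(4 : ℤ)] γ' = ⇑θ :=
      θ.slash_action_eq' _ (Subgroup.mem_map_of_mem _ hγ')
    have hb'γ : b' ∣[W] γ' = b' := hb'.slash γ'
    have ha'γ : a' ∣[W + k] γ' = a' := by
      rw [ha']
      rw [SlashAction.sum_slash]
      refine Finset.sum_congr rfl fun j _ => ?_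
      have hw : W + k = (k + W - (j : ℕ) * 4) + ((j : ℕ) : ℤ) * 4 := by ring
      rw [hw, ModularForm.mul_slash_SL2, (hr' j).slash γ', pow_slash_SL2, hθγ]
    have h3 : b' * (h ∣[k] γ') = b' * h := by
      have h4 : (b' * h) ∣[W + k] γ' = b' ∣[W] γ' * h ∣[k] γ' :=
        ModularForm.mul_slash_SL2 W k γ' b' h
      rw [← hab', ha'γ, hb'γ] at h4
      rw [← h4, hab']
    have h5 : b' * (h ∣[k] γ' - h) = 0 := by
      rw [mul_sub, h3, sub_self]
    have hhγ : MDiff (h ∣[k] γ') := hh.slash k _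
    rcases (UpperHalfPlane.mul_eq_zero_iff qb'.hol (hhγ.sub hh)).mp h5 with h6 | h6
    · exact absurd h6 hb'0
    · exact sub_eq_zero.mp h6
  -- the twisted coefficients vanish at infinity
  have hc'0 : ∀ i, IsZeroAtImInfty (c' i) := by
    intro i
    rw [(qc' i).isZeroAtImInfty_iff, hc'q, PowerSeries.coeff_map,
      ((qc i).isZeroAtImInfty_iff).mp (hc0 i), map_zero]
  obtain ⟨H, hH⟩ := hOf h hh hinv c' hc' hc'0 hhrel
  refine ⟨H, ?_⟩
  have qh : QAn h := hH ▸ qan_of_cuspForm H h1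
  have h7 : qExpansion 1 b' * qExpansion 1 h = qExpansion 1 b' * (qExpansion 1 f).map s := by
    rw [← qb'.qExpansion_mul qh, ← hab', hqa]
  have hb'q0 : qExpansion 1 b' ≠ 0 := qb'.qExpansion_ne_zero hb'0
  rw [hH]
  exact mul_left_cancel₀ hb'q0 h7

/-- **Theorem A** (alternative assembly): the coefficientwise conjugate, by any ring
homomorphism `s : ℂ →+* ℂ`, of the `q`-expansion of a cusp form on `Γ₀(N)` is again the
`q`-expansion of a cusp form on `Γ₀(N)`. -/
theorem exists_cuspForm_map (N : ℕ) [NeZero N] (s : ℂ →+* ℂ) {k : ℤ}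
    (f : CuspForm (CongruenceSubgroup.Gamma0 N) k) :
    ∃ g : CuspForm (CongruenceSubgroup.Gamma0 N) k,
      qExpansion 1 g = (qExpansion 1 f).map s := by
  obtain ⟨θ, hθint, hθstab⟩ := exists_theta N
  -- denominator data
  obtain ⟨d, W, b, hb0, hden⟩ := exists_levelOne_denominator θ
    (fun γ hγ => Subgroup.mem_map_of_mem _ (hθstab γ hγ))
  set F : ModularForm (CongruenceSubgroup.Gamma0 N) k := ModularFormClass.modularForm f with hF
  have hFf : (⇑F : ℍ → ℂ) = ⇑f := rfl
  obtain ⟨r, hr, hrel⟩ := hden F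
  -- monic relation
  obtain ⟨n, c, hn, hc, hmon, hc0⟩ := exists_monic_relation F
  have hc0' : ∀ i, IsZeroAtImInfty (c i) :=
    hc0 fun γ => by rw [hFf]; exact isZeroAtImInfty_slash_of_cuspForm f γ
  have hb0' : (⇑b : ℍ → ℂ) ≠ 0 := fun h0 => hb0 (DFunLike.coe_injective (by rw [h0]; rfl))
  exact exists_cuspForm_map_of N s f θ hθint (⇑b) ⟨b, rfl⟩ hb0' r hr
    (fun z => by rw [← hFf]; exact hrel z) c hc (fun z => by rw [← hFf]; exact hmon z) hc0'
    (fun h hh hinv c' hc' hc'0 hrel' =>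
      exists_cuspForm_of_monic_relation h hh hinv hn c' hc' hc'0 hrel')

end ConjAlt

end Fermat.Agent.S23
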