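import Mathlib
import Fermat.Prelude.Def_CuspForm_IntegralStructure
import Fermat.Prelude.Thm_ModularForm_sturm_bound_Gamma0
import Fermat.Agent.S49.Forms

/-!
# S23: Galois descent and final assembly

`V = CuspForm (Gamma0 N) k` is finite dimensional (Sturm bound) and the `q`-coefficient functionals
separate its points.  If `V` is stable under conjugation of `q`-expansions by all ring
endomorphisms of `ℂ`, then the basis of `V` dual to a basis of coefficient functionals consists of
forms with rational `q`-expansion.  Together with bounded denominators this gives the integral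
structure.
-/

set_option autoImplicit false

open CongruenceSubgroup ModularFormClass UpperHalfPlane

namespace Fermat.Agent.S23

open Fermat.Agent.S49 (qLin qLin_apply ext_qCoeff)

/-- The space of cusp forms on `Γ₀(N)` is finite dimensional (consequence of the Sturm bound). -/
theorem finiteDimensional_cuspForm (N : ℕ) [NeZero N] (k : ℤ) :
    FiniteDimensional ℂ (CuspForm (Gamma0 N) k) := by
  set B : ℕ := (k * (Gamma0 N).index).toNat / 12 with hB
  let φ : CuspForm (Gamma0 N) k →ₗ[ℂ] (Fin (B + 1) → ℂ) :=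
    LinearMap.pi fun i => qLin N k i
  have hφ : Function.Injective φ := by
    rw [← LinearMap.ker_eq_bot, LinearMap.ker_eq_bot']
    intro f hf
    have h0 : (CuspForm.toModularFormₗ f : ModularForm (Gamma0 N) k) = 0 := by
      apply ModularForm.sturm_bound_Gamma0 N
      intro n hn
      have hcoe : (⇑(CuspForm.toModularFormₗ f) : ℍ → ℂ) = ⇑f := rfl
      have := congrFun hf ⟨n, Nat.lt_succ_of_le hn⟩
      rw [hcoe]
      simpa [φ, qLin_apply, qCoeff] using this
    exact CuspForm.toModularFormₗ_injective (by rw [h0, map_zero])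
  exact Module.Finite.of_injective φ hφ

/-- The `q`-coefficient functionals span the dual space. -/
theorem span_qLin_eq_top (N : ℕ) [NeZero N] (k : ℤ) :
    Submodule.span ℂ (Set.range (qLin N k)) = ⊤ := by
  have := finiteDimensional_cuspForm N k
  have h : (Submodule.span ℂ (Set.range (qLin N k))).dualCoannihilator = ⊥ := by
    rw [eq_bot_iff]
    intro f hf
    rw [Submodule.mem_dualCoannihilator] at hf
    have h0 : f = 0 := ext_qCoeff (fun n => by
      have h1 := hf (qLin N k n) (Submodule.subset_span ⟨n, rfl⟩)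
      rw [qLin_apply] at h1
      rw [h1, ← qLin_apply, map_zero])
    simpa using h0
  have h2 := Subspace.dualCoannihilator_dualAnnihilator_eq
    (W := Submodule.span ℂ (Set.range (qLin N k)))
  rw [h, Submodule.dualAnnihilator_bot] at h2
  exact h2.symm

/-- A basis of the space of cusp forms dual to a family of `q`-coefficient functionals. -/
theorem exists_dual_basis (N : ℕ) [NeZero N] (k : ℤ) :
    ∃ (ι : Type) (_ : Fintype ι) (_ : DecidableEq ι) (n : ι → ℕ)
      (f : ι → CuspForm (Gamma0 N) k),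
      Submodule.span ℂ (Set.range f) = ⊤ ∧
      (∀ i j, qCoeff (⇑(f j)) (n i) = if i = j then 1 else 0) ∧
      (∀ g : CuspForm (Gamma0 N) k, (∀ i, qCoeff (⇑g) (n i) = 0) → g = 0) := by
  classical
  have := finiteDimensional_cuspForm N k
  obtain ⟨b, hbs, hbspan, hbli⟩ := exists_linearIndependent ℂ (Set.range (qLin N k))
  have hb_top : ⊤ ≤ Submodule.span ℂ
      (Set.range ((↑) : b → Module.Dual ℂ (CuspForm (Gamma0 N) k))) := by
    rw [Subtype.range_coe, hbspan, span_qLin_eq_top]
  let e : Module.Basis b ℂ (Module.Dual ℂ (CuspForm (Gamma0 N) k)) := Module.Basis.mk hbli hb_top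
  have : Fintype b := FiniteDimensional.fintypeBasisIndex e
  choose n hn using fun i : b => hbs i.2
  let f : Module.Basis b ℂ (CuspForm (Gamma0 N) k) :=
    e.dualBasis.map (Module.evalEquiv ℂ (CuspForm (Gamma0 N) k)).symm
  have key : ∀ i (g : CuspForm (Gamma0 N) k), qCoeff (⇑g) (n i) = e i g := by
    intro i g
    rw [← qLin_apply, hn i]
    simp [e]
  refine ⟨b, inferInstance, inferInstance, n, f, f.span_eq, ?_, ?_⟩
  · intro i j
    rw [key]
    simp only [f, Module.Basis.map_apply, Module.apply_evalEquiv_symm_apply,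
      Module.Basis.dualBasis_apply_self]
  · intro g hg
    rw [← Module.forall_dual_apply_eq_zero_iff ℂ g]
    intro φ
    have hφ : φ ∈ Submodule.span ℂ (Set.range e) := by rw [e.span_eq]; trivial
    induction hφ using Submodule.span_induction with
    | mem x hx =>
      obtain ⟨i, rfl⟩ := hx
      rw [← key, hg]
    | zero => simp
    | add x y _ _ hx hy => simp [hx, hy]
    | smul c x _ hx => simp [hx]

/-- **Galois descent.** If the space of cusp forms is stable under conjugation of `q`-expansions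
by every ring endomorphism of `ℂ`, and the only complex numbers fixed by all ring endomorphisms
are the rationals, then the space is spanned by forms with rational `q`-expansion. -/
theorem exists_rational_spanning (N : ℕ) [NeZero N] (k : ℤ)
    (hfix : ∀ x : ℂ, (∀ s : ℂ →+* ℂ, s x = x) → ∃ r : ℚ, x = (r : ℂ))
    (hGS : ∀ (s : ℂ →+* ℂ) (f : CuspForm (Gamma0 N) k),
      ∃ g : CuspForm (Gamma0 N) k, qExpansion 1 g = (qExpansion 1 f).map s) :
    ∃ (ι : Type) (_ : Fintype ι) (f : ι → CuspForm (Gamma0 N) k),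
      Submodule.span ℂ (Set.range f) = ⊤ ∧
      ∀ j n, ∃ r : ℚ, (qExpansion 1 (f j)).coeff n = (r : ℂ) := by
  obtain ⟨ι, hι, hdec, n, f, hspan, hdual, hsep⟩ := exists_dual_basis N k
  refine ⟨ι, hι, f, hspan, ?_⟩
  intro j m
  apply hfix
  intro s
  obtain ⟨g, hg⟩ := hGS s (f j)
  have hcoeff : ∀ m, qCoeff (⇑g) m = s (qCoeff (⇑(f j)) m) := by
    intro m
    unfold qCoeff
    rw [hg, PowerSeries.coeff_map]
  have hgf : g = f j := by
    rw [← sub_eq_zero]
    apply hsep
    intro i
    rw [← qLin_apply, map_sub, qLin_apply, qLin_apply, hcoeff, hdual]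
    split_ifs <;> simp
  have := hcoeff m
  rw [hgf] at this
  exact this.symm

/-- **Final assembly.** Conjugation-stability, rationality of the fixed field of all ring
endomorphisms of `ℂ`, and bounded denominators give the integral structure. -/
theorem hasIntegralStructure_of_conj (N : ℕ) [NeZero N] (k : ℤ)
    (hfix : ∀ x : ℂ, (∀ s : ℂ →+* ℂ, s x = x) → ∃ r : ℚ, x = (r : ℂ))
    (hGS : ∀ (s : ℂ →+* ℂ) (f : CuspForm (Gamma0 N) k),
      ∃ g : CuspForm (Gamma0 N) k, qExpansion 1 g = (qExpansion 1 f).map s)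
    (hBD : ∀ f : CuspForm (Gamma0 N) k,
      (∀ n, ∃ r : ℚ, (qExpansion 1 f).coeff n = (r : ℂ)) →
        ∃ M : ℤ, M ≠ 0 ∧ M • f ∈ CuspForm.intLattice N k) :
    CuspForm.HasIntegralStructure N k := by
  obtain ⟨ι, hι, f, hspan, hrat⟩ := exists_rational_spanning N k hfix hGS
  unfold CuspForm.HasIntegralStructure
  rw [eq_top_iff, ← hspan, Submodule.span_le]
  rintro _ ⟨j, rfl⟩
  obtain ⟨M, hM0, hM⟩ := hBD (f j) (hrat j)
  have hMC : (M : ℂ) ≠ 0 := by exact_mod_cast hM0
  have h1 : f j = (M : ℂ)⁻¹ • (M • f j) := by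
    rw [← Int.cast_smul_eq_zsmul ℂ M (f j), smul_smul, inv_mul_cancel₀ hMC, one_smul]
  rw [h1]
  exact Submodule.smul_mem _ _ (Submodule.subset_span hM)

/-- Variant of the final assembly with the bounded-denominator hypothesis stated coefficientwise. -/
theorem hasIntegralStructure_of_conj' (N : ℕ) [NeZero N] (k : ℤ)
    (hfix : ∀ x : ℂ, (∀ s : ℂ →+* ℂ, s x = x) → ∃ r : ℚ, x = (r : ℂ))
    (hGS : ∀ (s : ℂ →+* ℂ) (f : CuspForm (Gamma0 N) k),
      ∃ g : CuspForm (Gamma0 N) k, qExpansion 1 g = (qExpansion 1 f).map s)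
    (hBD : ∀ f : CuspForm (Gamma0 N) k,
      (∀ n, ∃ r : ℚ, (qExpansion 1 f).coeff n = (r : ℂ)) →
        ∃ M : ℕ, 0 < M ∧ ∀ n, ∃ m : ℤ, (M : ℂ) * (qExpansion 1 f).coeff n = (m : ℂ)) :
    CuspForm.HasIntegralStructure N k := by
  refine hasIntegralStructure_of_conj N k hfix hGS ?_
  intro f hf
  obtain ⟨M, hM0, hM⟩ := hBD f hf
  refine ⟨(M : ℤ), by exact_mod_cast hM0.ne', ?_⟩
  refine Submodule.subset_span ?_
  intro n
  obtain ⟨m, hm⟩ := hM n
  refine ⟨m, ?_⟩
  rw [← hm, ← qLin_apply, map_zsmul, qLin_apply]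
  simp [qCoeff]

end Fermat.Agent.S23
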