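import Mathlib

/-!
# Complex numbers fixed by every ring endomorphism of `ℂ` are rational

Piece B1 / L6 of the S23 project.

* `Fermat.Agent.S23.exists_ringEquiv_of_mvPolynomial_equiv`: a ring automorphism of the polynomial
  ring on a transcendence basis of `ℂ` over a field `K` extends to a ring automorphism of `ℂ`.
* `Fermat.Agent.S23.exists_ringEquiv_ne_of_not_rat`: a non-rational complex number is moved by
  some ring automorphism of `ℂ`.
* `Fermat.Agent.S23.exists_rat_of_forall_ringHom_fixed`: a complex number fixed by all ring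
  homomorphisms `ℂ →+* ℂ` is rational.  Same statement under the names
  `rational_of_forall_ringHom_fixed` (task 30) and `exists_rat_of_fixed_by_ringHoms` (helper24).
* `Fermat.Agent.S23.exists_ringEquiv_extending` (helper24): a ring automorphism of a ring `R`
  embedded in an algebraically closed field `K` extends to a ring automorphism of `K`.
-/

namespace Fermat.Agent.S23

/-- A ring automorphism of the polynomial ring on a transcendence basis `v` of `ℂ` over a field
`K` extends to a ring automorphism of `ℂ`. -/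
theorem exists_ringEquiv_of_mvPolynomial_equiv {K : Type*} [Field K] [Algebra K ℂ] {ι : Type*}
    (v : ι → ℂ) (hv : IsTranscendenceBasis K v)
    (e : MvPolynomial ι K ≃+* MvPolynomial ι K) :
    ∃ τ : ℂ ≃+* ℂ, ∀ p : MvPolynomial ι K,
      τ (MvPolynomial.aeval v p) = MvPolynomial.aeval v (e p) := by
  have hcl := IsAlgClosed.isAlgClosure_of_transcendence_basis v hv
  let a : MvPolynomial ι K ≃+* Algebra.adjoin K (Set.range v) := hv.1.aevalEquiv.toRingEquiv
  let e' : Algebra.adjoin K (Set.range v) ≃+* Algebra.adjoin K (Set.range v) :=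
    a.symm.trans (e.trans a)
  refine ⟨IsAlgClosure.equivOfEquiv ℂ ℂ e', fun p => ?_⟩
  have h1 := IsAlgClosure.equivOfEquiv_algebraMap ℂ ℂ e' (a p)
  have h2 : ∀ q : MvPolynomial ι K,
      algebraMap (Algebra.adjoin K (Set.range v)) ℂ (a q) = MvPolynomial.aeval v q :=
    fun q => hv.1.algebraMap_aevalEquiv q
  have h3 : e' (a p) = a (e p) := by simp [e']
  rw [h3, h2, h2] at h1
  exact h1

/-- A complex number which is not rational is moved by some ring automorphism of `ℂ`. -/
theorem exists_ringEquiv_ne_of_not_rat (x : ℂ) (hx : ¬ ∃ r : ℚ, x = (r : ℂ)) :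
    ∃ τ : ℂ ≃+* ℂ, τ x ≠ x := by
  classical
  by_cases hxt : Transcendental ℚ x
  · -- transcendental case: shift a member of a transcendence basis
    have hind : AlgebraicIndepOn ℚ id ({x} : Set ℂ) :=
      (algebraicIndependent_singleton_iff (⟨x, rfl⟩ : ({x} : Set ℂ))).mpr hxt
    obtain ⟨t, hxmem, ht⟩ := exists_isTranscendenceBasis_superset hind
    let i0 : t := ⟨x, hxmem rfl⟩
    let f : MvPolynomial t ℚ →ₐ[ℚ] MvPolynomial t ℚ :=
      MvPolynomial.aeval fun i => if i = i0 then MvPolynomial.X i + 1 else MvPolynomial.X i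
    let g : MvPolynomial t ℚ →ₐ[ℚ] MvPolynomial t ℚ :=
      MvPolynomial.aeval fun i => if i = i0 then MvPolynomial.X i - 1 else MvPolynomial.X i
    let e : MvPolynomial t ℚ ≃ₐ[ℚ] MvPolynomial t ℚ := AlgEquiv.ofAlgHom f g
      (by ext i; by_cases hi : i = i0 <;> simp [f, g, hi])
      (by ext i; by_cases hi : i = i0 <;> simp [f, g, hi])
    obtain ⟨τ, hτ⟩ := exists_ringEquiv_of_mvPolynomial_equiv _ ht e.toRingEquiv
    refine ⟨τ, ?_⟩
    have h1 := hτ (MvPolynomial.X i0)
    have h2 : e.toRingEquiv (MvPolynomial.X i0) = MvPolynomial.X i0 + 1 := by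
      simp [e, f]
    rw [h2] at h1
    simp only [MvPolynomial.aeval_X, map_add, map_one] at h1
    have h3 : ((i0 : t) : ℂ) = x := rfl
    rw [h3] at h1
    rw [h1]
    simp
  · -- algebraic case: a Galois conjugate
    rw [Transcendental, not_not] at hxt
    have hxQ : x ∈ algebraicClosure ℚ ℂ := mem_algebraicClosure_iff.mpr hxt
    have hx' : (⟨x, hxQ⟩ : algebraicClosure ℚ ℂ) ∉
        Set.range (algebraMap ℚ (algebraicClosure ℚ ℂ)) := by
      rintro ⟨r, hr⟩
      exact hx ⟨r, by simpa using (congrArg Subtype.val hr).symm⟩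
    have hcl : IsAlgClosure ℚ (algebraicClosure ℚ ℂ) := algebraicClosure.isAlgClosure ℚ ℂ
    have hgal : IsGalois ℚ (algebraicClosure ℚ ℂ) := IsAlgClosure.isGalois _ _
    rw [InfiniteGalois.mem_range_algebraMap_iff_fixed] at hx'
    push Not at hx'
    obtain ⟨σ, hσ⟩ := hx'
    obtain ⟨s, hs⟩ := exists_isTranscendenceBasis (algebraicClosure ℚ ℂ) ℂ
    obtain ⟨τ, hτ⟩ := exists_ringEquiv_of_mvPolynomial_equiv _ hs
      (MvPolynomial.mapEquiv _ σ.toRingEquiv)
    refine ⟨τ, fun hfix => hσ (Subtype.val_injective ?_)⟩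
    have h1 := hτ (MvPolynomial.C ⟨x, hxQ⟩)
    simp only [MvPolynomial.mapEquiv_apply, MvPolynomial.map_C, MvPolynomial.aeval_C] at h1
    have h2 : algebraMap (algebraicClosure ℚ ℂ) ℂ ⟨x, hxQ⟩ = x := rfl
    rw [h2, hfix] at h1
    exact h1.symm

/-- A complex number fixed by every ring homomorphism `ℂ →+* ℂ` is rational. -/
theorem exists_rat_of_forall_ringHom_fixed (x : ℂ) (h : ∀ s : ℂ →+* ℂ, s x = x) :
    ∃ r : ℚ, x = (r : ℂ) := by
  by_contra hx
  obtain ⟨τ, hτ⟩ := exists_ringEquiv_ne_of_not_rat x hx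
  exact hτ (h τ.toRingHom)

/-- Task-30 spelling of `exists_ringEquiv_ne_of_not_rat`. -/
theorem exists_ringEquiv_ne (z : ℂ) (hz : z ∉ Set.range (algebraMap ℚ ℂ)) :
    ∃ s : ℂ ≃+* ℂ, s z ≠ z :=
  exists_ringEquiv_ne_of_not_rat z fun ⟨r, hr⟩ => hz ⟨r, by rw [hr]; rfl⟩

/-- Task-30 spelling of `exists_rat_of_forall_ringHom_fixed`. -/
theorem rational_of_forall_ringHom_fixed (z : ℂ) (h : ∀ s : ℂ →+* ℂ, s z = z) :
    ∃ r : ℚ, z = (r : ℂ) :=
  exists_rat_of_forall_ringHom_fixed z h

/-! ### helper24's independent version (general algebraically closed field)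

Kept verbatim so that both sets of names are available to downstream files. -/

/-- A ring automorphism of a ring `R` embedded in an algebraically closed field `K` extends to a
ring automorphism of `K`. -/
theorem exists_ringEquiv_extending {R K : Type*} [CommRing R] [Field K] [Algebra R K]
    [IsAlgClosed K] (hinj : Function.Injective (algebraMap R K)) (σ : R ≃+* R) :
    ∃ τ : K ≃+* K, ∀ r : R, τ (algebraMap R K r) = algebraMap R K (σ r) := by
  classical
  have : FaithfulSMul R K := (faithfulSMul_iff_algebraMap_injective R K).mpr hinj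
  obtain ⟨s, hs⟩ := exists_isTranscendenceBasis R K
  have := IsAlgClosed.isAlgClosure_of_transcendence_basis (R := R) ((↑) : s → K) hs
  let e0 : MvPolynomial s R ≃ₐ[R] Algebra.adjoin R (Set.range ((↑) : s → K)) := hs.1.aevalEquiv
  let e : Algebra.adjoin R (Set.range ((↑) : s → K)) ≃+*
      Algebra.adjoin R (Set.range ((↑) : s → K)) :=
    e0.symm.toRingEquiv.trans ((MvPolynomial.mapEquiv s σ).trans e0.toRingEquiv)
  refine ⟨IsAlgClosure.equivOfEquiv K K e, fun r => ?_⟩
  have h1 : algebraMap R K r = algebraMap (Algebra.adjoin R (Set.range ((↑) : s → K))) K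
      (algebraMap R (Algebra.adjoin R (Set.range ((↑) : s → K))) r) := rfl
  have h2 : algebraMap R K (σ r) = algebraMap (Algebra.adjoin R (Set.range ((↑) : s → K))) K
      (algebraMap R (Algebra.adjoin R (Set.range ((↑) : s → K))) (σ r)) := rfl
  rw [h1, h2, IsAlgClosure.equivOfEquiv_algebraMap]
  congr 1
  have h3 : e0.symm (algebraMap R (Algebra.adjoin R (Set.range ((↑) : s → K))) r) =
      MvPolynomial.C r := by
    rw [AlgEquiv.commutes]; rfl
  have h4 : e0 (MvPolynomial.C (σ r)) =
      algebraMap R (Algebra.adjoin R (Set.range ((↑) : s → K))) (σ r) := by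
    rw [← MvPolynomial.algebraMap_eq, AlgEquiv.commutes]
  change e0 (MvPolynomial.mapEquiv s σ (e0.symm _)) = _
  rw [h3, MvPolynomial.mapEquiv_apply, MvPolynomial.map_C]
  exact h4

/-- A transcendental complex number is moved by some ring automorphism of `ℂ`. -/
theorem exists_ringEquiv_ne_of_transcendental {K : Type*} [Field K] [IsAlgClosed K] [CharZero K]
    (x : K) (hx : Transcendental ℚ x) : ∃ τ : K ≃+* K, τ x ≠ x := by
  let : Algebra (Polynomial ℚ) K := (Polynomial.aeval x).toRingHom.toAlgebra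
  have hinj : Function.Injective (algebraMap (Polynomial ℚ) K) :=
    transcendental_iff_injective.mp hx
  obtain ⟨τ, hτ⟩ := exists_ringEquiv_extending (R := Polynomial ℚ) (K := K) hinj
    (Polynomial.algEquivAevalXAddC (1 : ℚ)).toRingEquiv
  refine ⟨τ, ?_⟩
  have h := hτ Polynomial.X
  have hX : algebraMap (Polynomial ℚ) K Polynomial.X = x := Polynomial.aeval_X x
  have hX1 : algebraMap (Polynomial ℚ) K
      ((Polynomial.algEquivAevalXAddC (1 : ℚ)).toRingEquiv Polynomial.X) = x + 1 := by
    change Polynomial.aeval x ((Polynomial.algEquivAevalXAddC (1 : ℚ)) Polynomial.X) = x + 1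
    simp [Polynomial.algEquivAevalXAddC_apply]
  rw [hX, hX1] at h
  rw [h]
  simp

/-- An algebraic irrational element of an algebraically closed field of characteristic zero is
moved by some ring automorphism. -/
theorem exists_ringEquiv_ne_of_isAlgebraic {K : Type*} [Field K] [IsAlgClosed K] [CharZero K]
    (x : K) (hx : IsAlgebraic ℚ x) (hx' : ∀ r : ℚ, x ≠ (r : K)) : ∃ τ : K ≃+* K, τ x ≠ x := by
  have hmem : x ∈ algebraicClosure ℚ K := mem_algebraicClosure_iff.mpr hx
  by_contra hcon
  simp only [not_exists, not_not] at hcon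
  have hgal : IsGalois ℚ (algebraicClosure ℚ K) :=
    have : IsAlgClosure ℚ (algebraicClosure ℚ K) := algebraicClosure.isAlgClosure ℚ K
    IsAlgClosure.isGalois ℚ _
  have hfix : ∀ σ : algebraicClosure ℚ K ≃ₐ[ℚ] algebraicClosure ℚ K,
      σ ⟨x, hmem⟩ = ⟨x, hmem⟩ := by
    intro σ
    obtain ⟨τ, hτ⟩ := exists_ringEquiv_extending (R := algebraicClosure ℚ K) (K := K)
      (algebraMap (algebraicClosure ℚ K) K).injective σ.toRingEquiv
    have h := hτ ⟨x, hmem⟩
    have h' : τ x = ((σ ⟨x, hmem⟩ : algebraicClosure ℚ K) : K) := h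
    rw [hcon τ] at h'
    exact Subtype.ext h'.symm
  have hbot : (⟨x, hmem⟩ : algebraicClosure ℚ K) ∈ (⊥ : IntermediateField ℚ (algebraicClosure ℚ K)) :=
    (InfiniteGalois.mem_bot_iff_fixed _).mpr hfix
  obtain ⟨r, hr⟩ := IntermediateField.mem_bot.mp hbot
  refine hx' r ?_
  have := congrArg (fun y : algebraicClosure ℚ K => (y : K)) hr
  simpa using this.symm

/-- **B1.** A complex number fixed by every ring homomorphism `ℂ →+* ℂ` is rational. -/
theorem exists_rat_of_fixed_by_ringHoms (x : ℂ) (h : ∀ s : ℂ →+* ℂ, s x = x) :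
    ∃ r : ℚ, x = (r : ℂ) := by
  by_contra hcon
  simp only [not_exists] at hcon
  by_cases hx : IsAlgebraic ℚ x
  · obtain ⟨τ, hτ⟩ := exists_ringEquiv_ne_of_isAlgebraic x hx hcon
    exact hτ (h τ.toRingHom)
  · obtain ⟨τ, hτ⟩ := exists_ringEquiv_ne_of_transcendental x hx
    exact hτ (h τ.toRingHom)

end Fermat.Agent.S23
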