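import Mathlib
import Fermat.Prelude.Def_CuspForm_IntegralStructure
import Fermat.Prelude.Thm_CuspForm_intLattice_fg
import Fermat.Agent.S22.CoeffSpan
import Fermat.Agent.S22.Trivial

/-!
# S22 from an integral structure

If `S_k(Γ₀(N))` has an integral structure (`CuspForm.HasIntegralStructure N k`), then the
coefficient-span property `Fermat.Agent.S22.CoeffSpan.CoeffSpanProp N k` holds, hence the Hecke
algebra is a finite `ℤ`-module.
-/

set_option autoImplicit false

namespace Fermat.Agent.S23.S22Alt

open UpperHalfPlane CongruenceSubgroup ModularFormClass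
open scoped MatrixGroups ModularForm
open Fermat.Agent.S22.CoeffSpan

/-- Every element of the integral lattice has integral `q`-coefficients. -/
theorem qCoeff_mem_of_mem_intLattice (N : ℕ) (k : ℤ) {g : CuspForm (Gamma0 N) k}
    (hg : g ∈ CuspForm.intLattice N k) (n : ℕ) : ∃ m : ℤ, qCoeff g n = (m : ℂ) := by
  unfold CuspForm.intLattice at hg
  induction hg using Submodule.span_induction with
  | mem x hx => exact hx n
  | zero =>
    refine ⟨0, ?_⟩
    have := (coeffFun N k n).map_zero
    rw [coeffFun_apply] at this
    rw [this, Int.cast_zero]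
  | add x y _ _ hx hy =>
    obtain ⟨a, ha⟩ := hx
    obtain ⟨b, hb⟩ := hy
    refine ⟨a + b, ?_⟩
    have := (coeffFun N k n).map_add x y
    rw [coeffFun_apply, coeffFun_apply, coeffFun_apply] at this
    rw [this, ha, hb, Int.cast_add]
  | smul a x _ hx =>
    obtain ⟨b, hb⟩ := hx
    refine ⟨a * b, ?_⟩
    have h1 : a • x = (a : ℂ) • x := (Int.cast_smul_eq_zsmul ℂ a x).symm
    have := (coeffFun N k n).map_smul (a : ℂ) x
    rw [coeffFun_apply, coeffFun_apply] at this
    rw [h1, this, hb, smul_eq_mul, Int.cast_mul]

/-- An integral structure gives the coefficient-span property. -/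
theorem coeffSpanProp_of_hasIntegralStructure (N : ℕ) [NeZero N] (k : ℤ)
    (h : CuspForm.HasIntegralStructure N k) : CoeffSpanProp N k := by
  classical
  obtain ⟨s, hs⟩ := CuspForm.intLattice_fg N k
  -- enumerate the generators
  let e := s.equivFin
  let g : Fin s.card → CuspForm (Gamma0 N) k := fun j => (e.symm j : CuspForm (Gamma0 N) k)
  have hg_mem : ∀ j, g j ∈ CuspForm.intLattice N k := fun j => by
    rw [← hs]
    exact Submodule.subset_span (e.symm j).2
  have hrange : Set.range g = (s : Set (CuspForm (Gamma0 N) k)) := by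
    ext x
    constructor
    · rintro ⟨j, rfl⟩
      exact (e.symm j).2
    · intro hx
      exact ⟨e ⟨x, hx⟩, by simp [g]⟩
  have htop : Submodule.span ℂ (Set.range g) = ⊤ := by
    rw [hrange]
    have h' := h
    unfold CuspForm.HasIntegralStructure at h'
    rw [← hs, Submodule.span_span_of_tower] at h'
    exact h'
  refine ⟨s.card, Submodule.span ℤ {(1 : ℂ)}, fun n j => qCoeff (g j) n,
    Submodule.fg_span_singleton _, ?_, ?_⟩
  · intro n j
    obtain ⟨m, hm⟩ := qCoeff_mem_of_mem_intLattice N k (hg_mem j) n
    show qCoeff (g j) n ∈ Submodule.span ℤ {(1 : ℂ)}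
    rw [hm, Submodule.mem_span_singleton]
    exact ⟨m, by simp⟩
  · intro f
    have hf : f ∈ Submodule.span ℂ (Set.range g) := by rw [htop]; exact Submodule.mem_top
    obtain ⟨c, hc⟩ := (Submodule.mem_span_range_iff_exists_fun ℂ).mp hf
    refine ⟨c, fun n => ?_⟩
    have := congrArg (coeffFun N k n) hc
    rw [map_sum] at this
    simp only [map_smul, coeffFun_apply, smul_eq_mul] at this
    show qCoeff f n = ∑ j, qCoeff (g j) n * c j
    rw [← this]
    exact Finset.sum_congr rfl fun j _ => mul_comm _ _

/-- **S22 from integral structures**: if `S_k(Γ₀(N))` has an integral structure, then the Hecke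
algebra of weight `k` (away from `S`) is a finite `ℤ`-module. -/
theorem finite_heckeAlgebra_of_hasIntegralStructure' (N : ℕ) [NeZero N] (k : ℤ) (S : Set ℕ)
    (h : CuspForm.HasIntegralStructure N k) : Module.Finite ℤ (CuspForm.heckeAlgebra N k S) := by
  rcases le_or_gt k 1 with hk | hk
  · exact Fermat.Agent.S22.Trivial.finite_heckeAlgebra_of_weight_le_one N hk S
  · exact finite_heckeAlgebra_of_coeffSpanProp N k hk.le S
      (coeffSpanProp_of_hasIntegralStructure N k h)

/-- **S22 from integral structures** (the shape of the task statement). -/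
theorem finite_heckeAlgebra_of_hasIntegralStructure (N : ℕ) [NeZero N] (k : ℤ) (S : Set ℕ)
    (h : ∀ k, CuspForm.HasIntegralStructure N k) : Module.Finite ℤ (CuspForm.heckeAlgebra N k S) :=
  finite_heckeAlgebra_of_hasIntegralStructure' N k S (h k)

end Fermat.Agent.S23.S22Alt
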