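import Mathlib
import Fermat.Prelude.Def_CuspForm_HeckeAlgebra
import Fermat.Prelude.Def_CuspForm_IntegralStructure
import Fermat.Prelude.Thm_ModularFormClass_qCoeff_heckeT
import Fermat.Prelude.Thm_ModularFormClass_qCoeff_heckeU
import Fermat.Prelude.Thm_CongruenceSubgroup_one_mem_strictPeriods_Gamma0

/-!
# Bounded denominators from finiteness of the Hecke algebra

If the Hecke algebra `𝕋 = heckeAlgebra N k ∅` is a finite `ℤ`-module (statement S22), then every
cusp form `f ∈ S_k(Γ₀(N))` (`k ≥ 1`) with rational `q`-coefficients has bounded denominators: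
some nonzero integer multiple of `f` lies in `CuspForm.intLattice N k`.

Proof: all `t f`, `t ∈ 𝕋`, have rational coefficients (coefficient formulas for `T_ℓ`, `U_q`);
`𝕋` is finitely generated over `ℤ`, so one `M ≠ 0` clears the denominators of `a₁(t f)` for all
`t ∈ 𝕋`; then `M · aₙ(t f) ∈ ℤ` for all `n ≥ 1`, `t ∈ 𝕋` by strong induction on `n`, writing
`n = m ℓ` with `ℓ` prime:  `a_{mℓ}(g) = a_m(U_ℓ g)` if `ℓ ∣ N`, and
`a_{mℓ}(g) = a_m(T_ℓ g) - ℓ^{k-1} a_{m/ℓ}(g) [ℓ ∣ m]` otherwise.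
-/

set_option autoImplicit false

noncomputable section

namespace Fermat.Agent.S23.BoundedDenomOfS22

open UpperHalfPlane ModularForm ModularFormClass
open scoped MatrixGroups ModularForm Manifold

variable {N : ℕ} {k : ℤ}

local notation "Γ₀(" N ")" => CongruenceSubgroup.Gamma0 N

theorem one_mem_strictPeriods (N : ℕ) :
    (1 : ℝ) ∈ (Subgroup.map (Matrix.SpecialLinearGroup.mapGL ℝ) Γ₀(N)).strictPeriods :=
  CongruenceSubgroup.one_mem_strictPeriods_Gamma0 N

theorem qCoeff_add (f g : CuspForm Γ₀(N) k) (n : ℕ) :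
    qCoeff ⇑(f + g) n = qCoeff ⇑f n + qCoeff ⇑g n := by
  simp only [qCoeff, FunLike.coe_add]
  rw [ModularForm.qExpansion_add one_pos (one_mem_strictPeriods N) f g, map_add]

theorem qCoeff_zero (n : ℕ) : qCoeff ⇑(0 : CuspForm Γ₀(N) k) n = 0 := by
  simp only [qCoeff, FunLike.coe_zero]
  rw [UpperHalfPlane.qExpansion_zero, map_zero]

theorem qCoeff_zsmul (c : ℤ) (f : CuspForm Γ₀(N) k) (n : ℕ) :
    qCoeff ⇑(c • f) n = c * qCoeff ⇑f n := by
  have h1 : ⇑(c • f) = (c : ℂ) • ⇑f := by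
    ext z
    simp
  simp only [qCoeff, h1]
  rw [ModularForm.qExpansion_smul one_pos (one_mem_strictPeriods N) (c : ℂ) f]
  simp

theorem qCoeff_cusp_zero (f : CuspForm Γ₀(N) k) : qCoeff ⇑f 0 = 0 :=
  CuspFormClass.qExpansion_coeff_zero f one_pos (one_mem_strictPeriods N)

theorem qCoeff_heckeTLin {ℓ : ℕ} (hℓ : ℓ.Prime) (hℓN : ¬ ℓ ∣ N) (g : CuspForm Γ₀(N) k) (n : ℕ) :
    qCoeff ⇑(CuspForm.heckeTLin k hℓ hℓN g) n =
      qCoeff ⇑g (n * ℓ) + if ℓ ∣ n then (ℓ : ℂ) ^ (k - 1) * qCoeff ⇑g (n / ℓ) else 0 := by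
  rw [CuspForm.coe_heckeTLin_apply,
    ModularFormClass.qCoeff_heckeT g (one_mem_strictPeriods N) hℓ.ne_zero n]
  rfl

theorem qCoeff_heckeULin [NeZero N] {ℓ : ℕ} (hℓ : ℓ.Prime) (hℓN : ℓ ∣ N) (g : CuspForm Γ₀(N) k)
    (n : ℕ) :
    qCoeff ⇑(CuspForm.heckeULin k hℓN g) n = qCoeff ⇑g (n * ℓ) := by
  rw [CuspForm.coe_heckeULin_apply,
    ModularFormClass.qCoeff_heckeU g (one_mem_strictPeriods N) hℓ.ne_zero n]
  rfl

/-- Rationality of all `q`-coefficients. -/
def IsRat (g : CuspForm Γ₀(N) k) : Prop := ∀ n : ℕ, ∃ r : ℚ, qCoeff ⇑g n = (r : ℂ)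

theorem isRat_of_mem_heckeAlgebra [NeZero N]
    {t : Module.End ℂ (CuspForm Γ₀(N) k)} (ht : t ∈ CuspForm.heckeAlgebra N k ∅) :
    ∀ g : CuspForm Γ₀(N) k, IsRat g → IsRat (t g) := by
  unfold CuspForm.heckeAlgebra at ht
  induction ht using Algebra.adjoin_induction with
  | mem x hx =>
    intro g hg n
    rcases hx with ⟨ℓ, hℓ, hℓN, -, rfl⟩ | ⟨q, hqN, hq, -, rfl⟩
    · rw [qCoeff_heckeTLin hℓ hℓN]
      obtain ⟨r1, hr1⟩ := hg (n * ℓ)
      obtain ⟨r2, hr2⟩ := hg (n / ℓ)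
      by_cases hd : ℓ ∣ n
      · refine ⟨r1 + (ℓ : ℚ) ^ (k - 1) * r2, ?_⟩
        rw [if_pos hd, hr1, hr2]
        push_cast
        ring
      · exact ⟨r1, by rw [if_neg hd, hr1, add_zero]⟩
    · rw [qCoeff_heckeULin hq hqN]
      exact hg _
  | algebraMap r =>
    intro g hg n
    obtain ⟨r1, hr1⟩ := hg n
    refine ⟨r * r1, ?_⟩
    have : (algebraMap ℤ (Module.End ℂ (CuspForm Γ₀(N) k)) r) g = r • g := by
      simp
    rw [this, qCoeff_zsmul, hr1]
    push_cast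
    ring
  | add x y hx hy ihx ihy =>
    intro g hg n
    obtain ⟨r1, hr1⟩ := ihx g hg n
    obtain ⟨r2, hr2⟩ := ihy g hg n
    refine ⟨r1 + r2, ?_⟩
    rw [LinearMap.add_apply, qCoeff_add, hr1, hr2]
    push_cast
    ring
  | mul x y hx hy ihx ihy =>
    intro g hg
    exact ihx _ (ihy g hg)

/-- **Bounded denominators from finiteness of the Hecke algebra.**  If `heckeAlgebra N k ∅` is a
finite `ℤ`-module and `k ≥ 1`, every cusp form of level `Γ₀(N)` with rational `q`-coefficients has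
a nonzero integer multiple in `CuspForm.intLattice N k`. -/
theorem exists_zsmul_mem_intLattice_of_rat [NeZero N] (hk : 1 ≤ k)
    (hfin : Module.Finite ℤ (CuspForm.heckeAlgebra N k ∅))
    (f : CuspForm Γ₀(N) k)
    (hf : ∀ n : ℕ, ∃ r : ℚ, (qExpansion 1 f).coeff n = (r : ℂ)) :
    ∃ M : ℤ, M ≠ 0 ∧ M • f ∈ CuspForm.intLattice N k := by
  classical
  have hfR : IsRat f := hf
  -- the first coefficient of `x f`, as a rational number
  have hr : ∀ x : CuspForm.heckeAlgebra N k ∅, ∃ r : ℚ,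
      qCoeff ⇑((x : Module.End ℂ (CuspForm Γ₀(N) k)) f) 1 = (r : ℂ) :=
    fun x => isRat_of_mem_heckeAlgebra x.2 f hfR 1
  choose r hr using hr
  obtain ⟨s, hs⟩ := (Module.Finite.fg_top : (⊤ : Submodule ℤ (CuspForm.heckeAlgebra N k ∅)).FG)
  set M : ℕ := ∏ x ∈ s, (r x).den with hM
  have hM0 : M ≠ 0 := Finset.prod_ne_zero_iff.mpr fun x _ => (r x).den_nz
  -- `M` clears the denominators of the first coefficient on all of `𝕋 f`
  have h1 : ∀ x : CuspForm.heckeAlgebra N k ∅, ∃ m : ℤ,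
      (M : ℂ) * qCoeff ⇑((x : Module.End ℂ (CuspForm Γ₀(N) k)) f) 1 = (m : ℂ) := by
    intro x
    have hx : x ∈ Submodule.span ℤ (s : Set (CuspForm.heckeAlgebra N k ∅)) := by
      rw [hs]; exact Submodule.mem_top
    induction hx using Submodule.span_induction with
    | mem y hy =>
      obtain ⟨c, hc⟩ : (r y).den ∣ M := Finset.dvd_prod_of_mem _ hy
      refine ⟨c * (r y).num, ?_⟩
      rw [hr y, hc]
      have h2 : (((r y).den : ℚ) : ℂ) * ((r y : ℚ) : ℂ) = (((r y).num : ℚ) : ℂ) := by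
        rw [← Rat.cast_mul, Rat.den_mul_eq_num]
      push_cast at h2 ⊢
      linear_combination (c : ℂ) * h2
    | zero =>
      refine ⟨0, ?_⟩
      rw [ZeroMemClass.coe_zero, LinearMap.zero_apply, qCoeff_zero]
      simp
    | add y z _ _ ihy ihz =>
      obtain ⟨a, ha⟩ := ihy
      obtain ⟨b, hb⟩ := ihz
      refine ⟨a + b, ?_⟩
      rw [Subalgebra.coe_add, LinearMap.add_apply, qCoeff_add, mul_add, ha, hb]
      push_cast
      ring
    | smul c y _ ihy =>
      obtain ⟨a, ha⟩ := ihy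
      refine ⟨c * a, ?_⟩
      rw [Subalgebra.coe_smul, LinearMap.smul_apply, qCoeff_zsmul, mul_left_comm, ha]
      push_cast
      ring
  -- strong induction on the index of the coefficient
  have hall : ∀ n : ℕ, 1 ≤ n → ∀ x : CuspForm.heckeAlgebra N k ∅, ∃ m : ℤ,
      (M : ℂ) * qCoeff ⇑((x : Module.End ℂ (CuspForm Γ₀(N) k)) f) n = (m : ℂ) := by
    intro n
    induction n using Nat.strong_induction_on with
    | _ n ih =>
      intro hn x
      rcases Nat.eq_or_lt_of_le hn with rfl | hn1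
      · exact h1 x
      have hn1' : n ≠ 1 := by omega
      have hℓ : (n.minFac).Prime := Nat.minFac_prime hn1'
      set ℓ := n.minFac with hℓdef
      set m := n / ℓ with hmdef
      have hmn : m * ℓ = n := Nat.div_mul_cancel (Nat.minFac_dvd n)
      have hm1 : 1 ≤ m := by
        rcases Nat.eq_zero_or_pos m with h0 | h0
        · rw [h0, zero_mul] at hmn; omega
        · exact h0
      have hmlt : m < n := by
        have := hℓ.two_le
        nlinarith
      set g := (x : Module.End ℂ (CuspForm Γ₀(N) k)) f with hg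
      by_cases hℓN : ℓ ∣ N
      · -- `U_ℓ`
        obtain ⟨a, ha⟩ := ih m hmlt hm1
          (⟨CuspForm.heckeULin k hℓN, CuspForm.heckeULin_mem_heckeAlgebra hℓ hℓN
            (Set.notMem_empty _)⟩ * x)
        refine ⟨a, ?_⟩
        rw [← ha, ← hmn, ← qCoeff_heckeULin hℓ hℓN g m]
        rfl
      · -- `T_ℓ`
        obtain ⟨a, ha⟩ := ih m hmlt hm1
          (⟨CuspForm.heckeTLin k hℓ hℓN, CuspForm.heckeTLin_mem_heckeAlgebra hℓ hℓN
            (Set.notMem_empty _)⟩ * x)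
        have hT : qCoeff ⇑(CuspForm.heckeTLin k hℓ hℓN g) m =
            qCoeff ⇑g n + if ℓ ∣ m then (ℓ : ℂ) ^ (k - 1) * qCoeff ⇑g (m / ℓ) else 0 := by
          rw [qCoeff_heckeTLin hℓ hℓN g m, hmn]
        have ha' : (M : ℂ) * qCoeff ⇑(CuspForm.heckeTLin k hℓ hℓN g) m = (a : ℂ) := ha
        by_cases hd : ℓ ∣ m
        · have hml1 : 1 ≤ m / ℓ := Nat.div_pos (Nat.le_of_dvd hm1 hd) hℓ.pos
          have hmllt : m / ℓ < n := lt_of_le_of_lt (Nat.div_le_self m ℓ) hmlt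
          obtain ⟨b, hb⟩ := ih (m / ℓ) hmllt hml1 x
          obtain ⟨j, hj⟩ : ∃ j : ℕ, k - 1 = (j : ℤ) :=
            ⟨(k - 1).toNat, (Int.toNat_of_nonneg (by omega)).symm⟩
          refine ⟨a - (ℓ : ℤ) ^ j * b, ?_⟩
          rw [if_pos hd, hj, zpow_natCast] at hT
          have : qCoeff ⇑g n = qCoeff ⇑(CuspForm.heckeTLin k hℓ hℓN g) m -
              (ℓ : ℂ) ^ j * qCoeff ⇑g (m / ℓ) := by
            rw [hT]; ring
          rw [this, mul_sub, ha', mul_left_comm, hb]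
          push_cast
          ring
        · refine ⟨a, ?_⟩
          rw [if_neg hd, add_zero] at hT
          rw [← hT, ha']
  refine ⟨(M : ℤ), by exact_mod_cast hM0, ?_⟩
  refine Submodule.subset_span ?_
  intro n
  show ∃ m : ℤ, qCoeff ⇑(((M : ℕ) : ℤ) • f) n = (m : ℂ)
  rw [qCoeff_zsmul]
  rcases Nat.eq_zero_or_pos n with rfl | hn
  · exact ⟨0, by rw [qCoeff_cusp_zero]; simp⟩
  · obtain ⟨a, ha⟩ := hall n hn 1
    refine ⟨a, ?_⟩
    rw [← ha]
    simp

end Fermat.Agent.S23.BoundedDenomOfS22
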