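import Mathlib

/-!
# S23 helper: pure algebra on the "characteristic polynomial" of a finite family of complex numbers

`cpoly x = ∏ q, (X - C (x q))`, its coefficients, behaviour under permutation and scaling,
and the Euler–Lagrange interpolation identity.
-/

set_option autoImplicit false

namespace Fermat.Agent.S23

open Polynomial Finset

section CharPoly

variable {ι : Type*} [Fintype ι]

/-- The monic polynomial whose roots are the members of the family `x`. -/
noncomputable def cpoly (x : ι → ℂ) : ℂ[X] := ∏ q, (X - C (x q))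

lemma cpoly_monic (x : ι → ℂ) : (cpoly x).Monic :=
  monic_prod_of_monic _ _ fun q _ => monic_X_sub_C (x q)

lemma cpoly_natDegree (x : ι → ℂ) : (cpoly x).natDegree = Fintype.card ι := by
  rw [cpoly, natDegree_prod_of_monic _ _ fun q _ => monic_X_sub_C (x q)]
  simp

lemma cpoly_coeff_card (x : ι → ℂ) : (cpoly x).coeff (Fintype.card ι) = 1 := by
  have h := (cpoly_monic x).coeff_natDegree
  rwa [cpoly_natDegree] at h

lemma cpoly_eval_self (x : ι → ℂ) (q : ι) : (cpoly x).eval (x q) = 0 := by
  rw [cpoly, eval_prod]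
  exact Finset.prod_eq_zero (mem_univ q) (by simp)

lemma cpoly_comp_equiv (x : ι → ℂ) (σ : ι ≃ ι) : cpoly (x ∘ σ) = cpoly x := by
  unfold cpoly
  exact Equiv.prod_comp σ (fun q => X - C (x q))

lemma cpoly_coeff_eq_sum (x : ι → ℂ) {l : ℕ} (hl : l ≤ Fintype.card ι) :
    (cpoly x).coeff l = (-1) ^ (Fintype.card ι - l) *
      ∑ t ∈ powersetCard (Fintype.card ι - l) (univ : Finset ι), ∏ q ∈ t, x q := by
  have h1 : cpoly x = ((univ : Finset ι).val.map x |>.map fun t => X - C t).prod := by
    rw [cpoly, Multiset.map_map]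
    rfl
  have hc : Multiset.card ((univ : Finset ι).val.map x) = Fintype.card ι := by
    simp
  rw [h1, Multiset.prod_X_sub_C_coeff _ (by rw [hc]; exact hl), hc, Finset.esymm_map_val]

lemma cpoly_coeff_smul (x : ι → ℂ) (c : ℂ) {l : ℕ} (hl : l ≤ Fintype.card ι) :
    (cpoly (fun q => c * x q)).coeff l = c ^ (Fintype.card ι - l) * (cpoly x).coeff l := by
  rw [cpoly_coeff_eq_sum _ hl, cpoly_coeff_eq_sum _ hl]
  have h : ∑ t ∈ powersetCard (Fintype.card ι - l) (univ : Finset ι), ∏ q ∈ t, c * x q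
      = c ^ (Fintype.card ι - l) *
        ∑ t ∈ powersetCard (Fintype.card ι - l) (univ : Finset ι), ∏ q ∈ t, x q := by
    rw [Finset.mul_sum]
    refine Finset.sum_congr rfl fun t ht => ?_
    rw [Finset.prod_mul_distrib, Finset.prod_const, (Finset.mem_powersetCard.mp ht).2]
  rw [h]
  ring

lemma cpoly_eval_eq_sum (x : ι → ℂ) (z : ℂ) :
    (cpoly x).eval z = ∑ l ∈ range (Fintype.card ι + 1), (cpoly x).coeff l * z ^ l := by
  rw [eval_eq_sum_range, cpoly_natDegree]

/-- The relation `P(x_q) = 0` written out with coefficients. -/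
lemma cpoly_sum_coeff_mul_pow_self (x : ι → ℂ) (q : ι) :
    ∑ l ∈ range (Fintype.card ι + 1), (cpoly x).coeff l * x q ^ l = 0 := by
  rw [← cpoly_eval_eq_sum, cpoly_eval_self]

/-- The quotient of `cpoly x` by `X - C (x q)`. -/
lemma cpoly_divByMonic [DecidableEq ι] (x : ι → ℂ) (q : ι) :
    cpoly x /ₘ (X - C (x q)) = ∏ q' ∈ univ.erase q, (X - C (x q')) := by
  have h1 : (X - C (x q)) * (cpoly x /ₘ (X - C (x q))) = cpoly x :=
    mul_divByMonic_eq_iff_isRoot.mpr (cpoly_eval_self x q)
  have h2 : (X - C (x q)) * ∏ q' ∈ univ.erase q, (X - C (x q')) = cpoly x :=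
    Finset.mul_prod_erase univ (fun q' => X - C (x q')) (mem_univ q)
  exact mul_left_cancel₀ (X_sub_C_ne_zero (x q)) (h1.trans h2.symm)

/-- **Euler–Lagrange interpolation identity** (no division, no distinctness hypothesis). -/
lemma lagrange_identity [DecidableEq ι] (x y : ι → ℂ) (q₀ : ι) :
    ∑ i ∈ range (Fintype.card ι),
        (∑ l ∈ Icc (i + 1) (Fintype.card ι),
          (cpoly x).coeff l * ∑ q, y q * x q ^ (l - (i + 1))) * x q₀ ^ i
      = y q₀ * ∏ q ∈ univ.erase q₀, (x q₀ - x q) := by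
  classical
  -- evaluation of the quotient polynomials
  have hB : ∀ q : ι, (cpoly x /ₘ (X - C (x q))).eval (x q₀)
      = ∑ i ∈ range (Fintype.card ι),
          (∑ l ∈ Icc (i + 1) (Fintype.card ι), x q ^ (l - (i + 1)) * (cpoly x).coeff l)
            * x q₀ ^ i := by
    intro q
    have hdeg : (cpoly x /ₘ (X - C (x q))).natDegree < Fintype.card ι := by
      rw [natDegree_divByMonic _ (monic_X_sub_C (x q)), cpoly_natDegree, natDegree_X_sub_C]
      have : 0 < Fintype.card ι := Fintype.card_pos_iff.mpr ⟨q⟩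
      omega
    rw [eval_eq_sum_range' hdeg]
    refine Finset.sum_congr rfl fun i _ => ?_
    rw [coeff_divByMonic_X_sub_C, cpoly_natDegree]
  have hE : ∀ q : ι, (cpoly x /ₘ (X - C (x q))).eval (x q₀)
      = if q = q₀ then ∏ q' ∈ univ.erase q₀, (x q₀ - x q') else 0 := by
    intro q
    rw [cpoly_divByMonic, eval_prod]
    split_ifs with h
    · subst h
      simp
    · exact Finset.prod_eq_zero (mem_erase.mpr ⟨Ne.symm h, mem_univ q₀⟩) (by simp)
  have hsum : ∑ i ∈ range (Fintype.card ι),
        (∑ l ∈ Icc (i + 1) (Fintype.card ι),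
          (cpoly x).coeff l * ∑ q, y q * x q ^ (l - (i + 1))) * x q₀ ^ i
      = ∑ q, y q * (cpoly x /ₘ (X - C (x q))).eval (x q₀) := by
    have h1 : ∀ q : ι, y q * (cpoly x /ₘ (X - C (x q))).eval (x q₀)
        = ∑ i ∈ range (Fintype.card ι), ∑ l ∈ Icc (i + 1) (Fintype.card ι),
            (cpoly x).coeff l * (y q * x q ^ (l - (i + 1))) * x q₀ ^ i := by
      intro q
      rw [hB q, Finset.mul_sum]
      refine Finset.sum_congr rfl fun i _ => ?_
      rw [Finset.sum_mul, Finset.mul_sum]
      refine Finset.sum_congr rfl fun l _ => ?_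
      ring
    simp_rw [h1]
    rw [Finset.sum_comm]
    refine Finset.sum_congr rfl fun i _ => ?_
    rw [Finset.sum_comm, Finset.sum_mul]
    refine Finset.sum_congr rfl fun l _ => ?_
    rw [Finset.mul_sum, Finset.sum_mul]
  rw [hsum]
  simp_rw [hE]
  simp

end CharPoly

end Fermat.Agent.S23
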