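import Mathlib

/-!
# A Cramer identity for power sums (Gram matrix of a Vandermonde matrix)

For `x y : ι → R` (`ι` finite with `d` elements), put
`G i j = ∑ q, x q ^ (i + j)` (`i j : Fin d`) and `t j = ∑ q, y q * x q ^ j`.
Then `det G * y q₀ = ∑ j, x q₀ ^ j * det (G.updateCol j t)` for every `q₀`, and
`det G = (∏_{i<j} (x j - x i))^2` up to reindexing.
-/

namespace Fermat.Agent.S23

open Matrix

/-- The power-sum Gram matrix of `x : ι → R`. -/
def powerSumMatrix {R : Type*} [CommRing R] {ι : Type*} [Fintype ι] (d : ℕ) (x : ι → R) :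
    Matrix (Fin d) (Fin d) R :=
  fun i j => ∑ q, x q ^ ((i : ℕ) + (j : ℕ))

/-- The mixed power sums `∑ q, y q * x q ^ j`. -/
def powerSumVec {R : Type*} [CommRing R] {ι : Type*} [Fintype ι] (d : ℕ) (x y : ι → R) :
    Fin d → R :=
  fun j => ∑ q, y q * x q ^ (j : ℕ)

theorem powerSumMatrix_fin {R : Type*} [CommRing R] {d : ℕ} (x : Fin d → R) :
    powerSumMatrix d x = (vandermonde x)ᵀ * vandermonde x := by
  ext i j
  simp [powerSumMatrix, Matrix.mul_apply, vandermonde_apply, pow_add]

theorem powerSumVec_fin {R : Type*} [CommRing R] {d : ℕ} (x y : Fin d → R) :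
    powerSumVec d x y = (vandermonde x)ᵀ *ᵥ y := by
  ext j
  simp [powerSumVec, Matrix.mulVec, dotProduct, vandermonde_apply, mul_comm]

theorem det_powerSumMatrix_fin {R : Type*} [CommRing R] {d : ℕ} (x : Fin d → R) :
    (powerSumMatrix d x).det = (vandermonde x).det ^ 2 := by
  rw [powerSumMatrix_fin, det_mul, det_transpose, sq]

theorem cramer_powerSum_fin {R : Type*} [CommRing R] {d : ℕ} (x y : Fin d → R) (q₀ : Fin d) :
    (powerSumMatrix d x).det * y q₀ =
      ∑ j : Fin d, x q₀ ^ (j : ℕ) * ((powerSumMatrix d x).updateCol j (powerSumVec d x y)).det := by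
  set W := vandermonde x with hW
  have h1 : ∀ j : Fin d, ((powerSumMatrix d x).updateCol j (powerSumVec d x y)).det =
      ((powerSumMatrix d x).adjugate *ᵥ (powerSumVec d x y)) j := by
    intro j
    rw [← cramer_eq_adjugate_mulVec, cramer_apply]
  have h2 : ∑ j : Fin d, x q₀ ^ (j : ℕ) *
      ((powerSumMatrix d x).adjugate *ᵥ (powerSumVec d x y)) j =
      (W *ᵥ ((powerSumMatrix d x).adjugate *ᵥ (powerSumVec d x y))) q₀ := by
    simp [Matrix.mulVec, dotProduct, hW, vandermonde_apply]
  simp_rw [h1]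
  rw [h2, powerSumMatrix_fin, powerSumVec_fin, ← hW, adjugate_mul_distrib, Matrix.mulVec_mulVec,
    Matrix.mulVec_mulVec, ← Matrix.mul_assoc, mul_adjugate, Matrix.smul_mul, Matrix.one_mul,
    Matrix.smul_mul, adjugate_mul, det_mul, det_transpose]
  simp [Matrix.smul_mulVec, mul_assoc]

theorem powerSumMatrix_reindex {R : Type*} [CommRing R] {ι κ : Type*} [Fintype ι] [Fintype κ]
    (d : ℕ) (e : κ ≃ ι) (x : ι → R) : powerSumMatrix d (x ∘ e) = powerSumMatrix d x := by
  ext i j
  simp only [powerSumMatrix, Function.comp_apply]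
  exact Equiv.sum_comp e (fun q => x q ^ ((i : ℕ) + (j : ℕ)))

theorem powerSumVec_reindex {R : Type*} [CommRing R] {ι κ : Type*} [Fintype ι] [Fintype κ]
    (d : ℕ) (e : κ ≃ ι) (x y : ι → R) : powerSumVec d (x ∘ e) (y ∘ e) = powerSumVec d x y := by
  ext j
  simp only [powerSumVec, Function.comp_apply]
  exact Equiv.sum_comp e (fun q => y q * x q ^ (j : ℕ))

/-- **Cramer identity for power sums.** -/
theorem cramer_powerSum {R : Type*} [CommRing R] {ι : Type*} [Fintype ι] (x y : ι → R) (q₀ : ι) :
    (powerSumMatrix (Fintype.card ι) x).det * y q₀ =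
      ∑ j : Fin (Fintype.card ι), x q₀ ^ (j : ℕ) *
        ((powerSumMatrix (Fintype.card ι) x).updateCol j (powerSumVec (Fintype.card ι) x y)).det := by
  classical
  let e : Fin (Fintype.card ι) ≃ ι := (Fintype.equivFin ι).symm
  have h := cramer_powerSum_fin (x ∘ e) (y ∘ e) (e.symm q₀)
  rw [powerSumMatrix_reindex, powerSumVec_reindex] at h
  simpa using h

/-- The determinant of the power-sum matrix is the square of a Vandermonde determinant. -/
theorem det_powerSumMatrix {R : Type*} [CommRing R] {ι : Type*} [Fintype ι] (x : ι → R)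
    (e : Fin (Fintype.card ι) ≃ ι) :
    (powerSumMatrix (Fintype.card ι) x).det = (vandermonde (x ∘ e)).det ^ 2 := by
  rw [← det_powerSumMatrix_fin, powerSumMatrix_reindex]

/-- If the `x q` are pairwise distinct elements of a domain, the power-sum determinant is
nonzero. -/
theorem det_powerSumMatrix_ne_zero {R : Type*} [CommRing R] [IsDomain R] {ι : Type*} [Fintype ι]
    (x : ι → R) (hx : Function.Injective x) :
    (powerSumMatrix (Fintype.card ι) x).det ≠ 0 := by
  classical
  let e : Fin (Fintype.card ι) ≃ ι := (Fintype.equivFin ι).symm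
  rw [det_powerSumMatrix x e]
  exact pow_ne_zero 2 (det_vandermonde_ne_zero_iff.mpr (hx.comp e.injective))

end Fermat.Agent.S23
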