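import Fermat.Agent.S22
import Fermat.Agent.S23.Descent
import Fermat.Agent.S23.FixedField
import Fermat.Agent.S23.BoundedDenomOfS22

/-!
# S23: final glue

The integral structure on `S_k(Γ₀(N))` (`k ≥ 1`) from the single remaining input "Theorem A"
(stability of the space of cusp forms under conjugation of `q`-expansions by ring endomorphisms
of `ℂ`), using
* `Descent.lean` (dual-basis Galois descent),
* `FixedField.lean` (complex numbers fixed by all ring endomorphisms are rational),
* `BoundedDenomOfS22.lean` + `Fermat.Agent.S22.result` (bounded denominators from the finiteness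
  of the Hecke algebra).
-/

set_option autoImplicit false

open CuspForm UpperHalfPlane CongruenceSubgroup

namespace Fermat.Agent.S23

/-- Integral structure in weight `k ≥ 1` from conjugation-stability of the space of cusp forms. -/
theorem hasIntegralStructure_of_conj_of_one_le (N : ℕ) [NeZero N] {k : ℤ} (hk : 1 ≤ k)
    (hGS : ∀ (s : ℂ →+* ℂ) (f : CuspForm (Gamma0 N) k),
      ∃ g : CuspForm (Gamma0 N) k, qExpansion 1 g = (qExpansion 1 f).map s) :
    CuspForm.HasIntegralStructure N k :=
  hasIntegralStructure_of_conj N k exists_rat_of_forall_ringHom_fixed hGS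
    (fun f hf => BoundedDenomOfS22.exists_zsmul_mem_intLattice_of_rat hk
      (Fermat.Agent.S22.result N k ∅) f hf)

/-- Integral structure in weight `2` from conjugation-stability of the space of cusp forms. -/
theorem hasIntegralStructure_two_of_conj (N : ℕ) [NeZero N]
    (hGS : ∀ (s : ℂ →+* ℂ) (f : CuspForm (Gamma0 N) 2),
      ∃ g : CuspForm (Gamma0 N) 2, qExpansion 1 g = (qExpansion 1 f).map s) :
    CuspForm.HasIntegralStructure N 2 :=
  hasIntegralStructure_of_conj_of_one_le N one_le_two hGS

end Fermat.Agent.S23
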