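import Fermat.Agent.S23.Descent
import Fermat.Agent.S23.FixedField
import Fermat.Agent.S23.BDForms
import Fermat.Agent.S23.ConjAlt

/-!
# S23, all weights: the space of cusp forms on `Γ₀(N)` has an integral structure

`hasIntegralStructure N k : CuspForm.HasIntegralStructure N k` for every level `N ≠ 0` and every
weight `k : ℤ`, together with the two main inputs in packaged form:

* `exists_cuspForm_conj`: ring-homomorphism conjugates of cusp forms are cusp forms (Theorem A);
* `exists_rational_basis`: a spanning family with rational `q`-expansions.
-/

set_option autoImplicit false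

open UpperHalfPlane ModularForm

namespace Fermat.Agent.S23

/-- Theorem A, in the root `S23` namespace under a fresh name: for every ring homomorphism
`s : ℂ →+* ℂ` and every cusp form `f` on `Γ₀(N)`, the coefficientwise conjugate of the
`q`-expansion of `f` is the `q`-expansion of a cusp form on `Γ₀(N)`. -/
theorem exists_cuspForm_conj (N : ℕ) [NeZero N] (s : ℂ →+* ℂ) {k : ℤ}
    (f : CuspForm (CongruenceSubgroup.Gamma0 N) k) :
    ∃ g : CuspForm (CongruenceSubgroup.Gamma0 N) k,
      qExpansion 1 g = (qExpansion 1 f).map s :=
  ConjAlt.exists_cuspForm_map N s f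

/-- The space of cusp forms of any weight on `Γ₀(N)` has an integral structure. -/
theorem hasIntegralStructure (N : ℕ) [NeZero N] (k : ℤ) : CuspForm.HasIntegralStructure N k :=
  hasIntegralStructure_of_conj N k exists_rat_of_forall_ringHom_fixed
    (fun s f => ConjAlt.exists_cuspForm_map N s f)
    (fun f hf => exists_int_smul_mem_intLattice N k f hf)

/-- A finite spanning family of cusp forms with rational `q`-expansions. -/
theorem exists_rational_basis (N : ℕ) [NeZero N] (k : ℤ) :
    ∃ (ι : Type) (_ : Fintype ι) (f : ι → CuspForm (CongruenceSubgroup.Gamma0 N) k),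
      Submodule.span ℂ (Set.range f) = ⊤ ∧
        ∀ j n, ∃ r : ℚ, (qExpansion 1 (f j)).coeff n = (r : ℂ) :=
  exists_rational_spanning N k exists_rat_of_forall_ringHom_fixed
    (fun s f => ConjAlt.exists_cuspForm_map N s f)

end Fermat.Agent.S23
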