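import Mathlib

/-!
# S23 helper: elementary bounds for roots of monic polynomials
-/

set_option autoImplicit false

namespace Fermat.Agent.S23

open Finset Filter Topology

/-- A root of a monic polynomial is bounded by `1 +` the sum of the norms of the lower
coefficients. -/
lemma norm_le_of_monic_root {n : ℕ} {z : ℂ} {c : ℕ → ℂ}
    (h : z ^ n + ∑ i ∈ range n, c i * z ^ i = 0) :
    ‖z‖ ≤ 1 + ∑ i ∈ range n, ‖c i‖ := by
  have hS : 0 ≤ ∑ i ∈ range n, ‖c i‖ := Finset.sum_nonneg fun i _ => norm_nonneg _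
  rcases le_or_gt ‖z‖ 1 with h1 | h1
  · linarith
  · rcases Nat.eq_zero_or_pos n with rfl | hn
    · simp at h
    have hz : z ^ n = -∑ i ∈ range n, c i * z ^ i := eq_neg_of_add_eq_zero_left h
    have h2 : ‖z‖ ^ n ≤ (∑ i ∈ range n, ‖c i‖) * ‖z‖ ^ (n - 1) := by
      calc ‖z‖ ^ n = ‖z ^ n‖ := (norm_pow z n).symm
        _ = ‖∑ i ∈ range n, c i * z ^ i‖ := by rw [hz, norm_neg]
        _ ≤ ∑ i ∈ range n, ‖c i * z ^ i‖ := norm_sum_le _ _
        _ ≤ ∑ i ∈ range n, ‖c i‖ * ‖z‖ ^ (n - 1) := by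
            refine Finset.sum_le_sum fun i hi => ?_
            rw [norm_mul, norm_pow]
            refine mul_le_mul_of_nonneg_left ?_ (norm_nonneg _)
            exact pow_le_pow_right₀ h1.le (by have := Finset.mem_range.mp hi; omega)
        _ = (∑ i ∈ range n, ‖c i‖) * ‖z‖ ^ (n - 1) := by rw [Finset.sum_mul]
    have h3 : ‖z‖ ^ n = ‖z‖ * ‖z‖ ^ (n - 1) := by
      rw [← pow_succ']
      congr 1
      omega
    rw [h3] at h2
    have hpos : 0 < ‖z‖ ^ (n - 1) := pow_pos (by linarith) _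
    have := le_of_mul_le_mul_right h2 hpos
    linarith

/-- If the lower coefficients are small, the `n`-th power of a root is bounded by their sum. -/
lemma norm_pow_le_of_monic_root {n : ℕ} {z : ℂ} {c : ℕ → ℂ}
    (h : z ^ n + ∑ i ∈ range n, c i * z ^ i = 0) (hS : ∑ i ∈ range n, ‖c i‖ ≤ 1 / 2) :
    ‖z‖ ^ n ≤ ∑ i ∈ range n, ‖c i‖ := by
  have hS0 : 0 ≤ ∑ i ∈ range n, ‖c i‖ := Finset.sum_nonneg fun i _ => norm_nonneg _
  have hz1 : ‖z‖ ≤ 1 := by
    by_contra hcon
    push Not at hcon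
    rcases Nat.eq_zero_or_pos n with rfl | hn
    · simp at h
    -- redo the estimate of the previous lemma
    have hz : z ^ n = -∑ i ∈ range n, c i * z ^ i := eq_neg_of_add_eq_zero_left h
    have h2 : ‖z‖ ^ n ≤ (∑ i ∈ range n, ‖c i‖) * ‖z‖ ^ (n - 1) := by
      calc ‖z‖ ^ n = ‖z ^ n‖ := (norm_pow z n).symm
        _ = ‖∑ i ∈ range n, c i * z ^ i‖ := by rw [hz, norm_neg]
        _ ≤ ∑ i ∈ range n, ‖c i * z ^ i‖ := norm_sum_le _ _
        _ ≤ ∑ i ∈ range n, ‖c i‖ * ‖z‖ ^ (n - 1) := by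
            refine Finset.sum_le_sum fun i hi => ?_
            rw [norm_mul, norm_pow]
            refine mul_le_mul_of_nonneg_left ?_ (norm_nonneg _)
            exact pow_le_pow_right₀ hcon.le (by have := Finset.mem_range.mp hi; omega)
        _ = (∑ i ∈ range n, ‖c i‖) * ‖z‖ ^ (n - 1) := by rw [Finset.sum_mul]
    have h3 : ‖z‖ ^ n = ‖z‖ * ‖z‖ ^ (n - 1) := by
      rw [← pow_succ']
      congr 1
      omega
    rw [h3] at h2
    have hpos : 0 < ‖z‖ ^ (n - 1) := pow_pos (by linarith) _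
    have := le_of_mul_le_mul_right h2 hpos
    linarith
  have hz : z ^ n = -∑ i ∈ range n, c i * z ^ i := eq_neg_of_add_eq_zero_left h
  calc ‖z‖ ^ n = ‖z ^ n‖ := (norm_pow z n).symm
    _ = ‖∑ i ∈ range n, c i * z ^ i‖ := by rw [hz, norm_neg]
    _ ≤ ∑ i ∈ range n, ‖c i * z ^ i‖ := norm_sum_le _ _
    _ ≤ ∑ i ∈ range n, ‖c i‖ := by
        refine Finset.sum_le_sum fun i _ => ?_
        rw [norm_mul, norm_pow]
        exact mul_le_of_le_one_right (norm_nonneg _) (pow_le_one₀ (norm_nonneg _) hz1)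

/-- Roots of a monic polynomial whose lower coefficients are bounded along a filter are bounded
along that filter. -/
lemma isBigO_one_of_monic_root {α : Type*} {l : Filter α} {n : ℕ} (H : α → ℂ) (u : ℕ → α → ℂ)
    (hu : ∀ i < n, u i =O[l] (1 : α → ℝ))
    (h : ∀ a, H a ^ n + ∑ i ∈ range n, u i a * H a ^ i = 0) :
    H =O[l] (1 : α → ℝ) := by
  have h1 : (fun a => (1 : ℝ) + ∑ i ∈ range n, ‖u i a‖) =O[l] (1 : α → ℝ) := by
    have h0 : (fun _ : α => (1 : ℝ)) =O[l] (1 : α → ℝ) := Asymptotics.isBigO_refl _ _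
    have h2 : (fun a => ∑ i ∈ range n, ‖u i a‖) =O[l] (1 : α → ℝ) := by
      have h3 : (∑ i ∈ range n, fun x => ‖u i x‖) =O[l] (1 : α → ℝ) :=
        Asymptotics.IsBigO.sum fun i hi => (hu i (Finset.mem_range.mp hi)).norm_left
      have h4 : (∑ i ∈ range n, fun x => ‖u i x‖) = fun a => ∑ i ∈ range n, ‖u i a‖ := by
        funext a
        simp
      rwa [h4] at h3
    exact h0.add h2
  refine Asymptotics.IsBigO.trans (Asymptotics.IsBigO.of_bound 1 ?_) h1
  refine Filter.Eventually.of_forall fun a => ?_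
  have := norm_le_of_monic_root (h a)
  rw [one_mul, Real.norm_of_nonneg
    (add_nonneg zero_le_one (Finset.sum_nonneg fun i _ => norm_nonneg _))]
  exact this

/-- Roots of a monic polynomial whose lower coefficients tend to zero along a filter tend to
zero along that filter. -/
lemma tendsto_zero_of_monic_root {α : Type*} {l : Filter α} {n : ℕ} (hn : 0 < n) (H : α → ℂ)
    (u : ℕ → α → ℂ) (hu : ∀ i < n, Tendsto (u i) l (𝓝 0))
    (h : ∀ a, H a ^ n + ∑ i ∈ range n, u i a * H a ^ i = 0) :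
    Tendsto H l (𝓝 0) := by
  have hS : Tendsto (fun a => ∑ i ∈ range n, ‖u i a‖) l (𝓝 0) := by
    have : Tendsto (fun a => ∑ i ∈ range n, ‖u i a‖) l (𝓝 (∑ i ∈ range n, (0 : ℝ))) :=
      tendsto_finsetSum _ fun i hi => by
        simpa using (hu i (Finset.mem_range.mp hi)).norm
    simpa using this
  have hev : ∀ᶠ a in l, ∑ i ∈ range n, ‖u i a‖ ≤ 1 / 2 :=
    hS.eventually (eventually_le_nhds (by norm_num))
  have hpow : Tendsto (fun a => ‖H a‖ ^ n) l (𝓝 0) := by
    refine tendsto_of_tendsto_of_tendsto_of_le_of_le' tendsto_const_nhds hS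
      (Filter.Eventually.of_forall fun a => by positivity) ?_
    filter_upwards [hev] with a ha
    exact norm_pow_le_of_monic_root (h a) ha
  rw [tendsto_zero_iff_norm_tendsto_zero]
  have hn' : (n : ℝ) ≠ 0 := by exact_mod_cast hn.ne'
  have hrp : Tendsto (fun a => (‖H a‖ ^ n) ^ ((n : ℝ)⁻¹)) l (𝓝 ((0 : ℝ) ^ ((n : ℝ)⁻¹))) :=
    hpow.rpow_const (Or.inr (by positivity))
  rw [Real.zero_rpow (inv_ne_zero hn')] at hrp
  refine hrp.congr fun a => ?_
  rw [← Real.rpow_natCast, ← Real.rpow_mul (norm_nonneg _), mul_inv_cancel₀ hn', Real.rpow_one]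

end Fermat.Agent.S23
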