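import Mathlib
import Fermat.Agent.S23.Theta

set_option autoImplicit false

open UpperHalfPlane ModularForm Filter Topology
open scoped MatrixGroups ModularForm Manifold Pointwise

namespace Fermat.Agent.S23

namespace Theta

/-- The stabiliser statement for `θ`, phrased in `GL(2, ℝ)`: an element of `𝒮ℒ` fixing `θ`
lies in the image of `Γ₀(N)`. -/
theorem mem_Gamma0_of_theta_slash_eq_GL (N : ℕ) [NeZero N] (g : GL (Fin 2) ℝ) (hg : g ∈ 𝒮ℒ)
    (h : (theta N : ℍ → ℂ) ∣[(4 : ℤ)] g = theta N) :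
    g ∈ ((CongruenceSubgroup.Gamma0 N : Subgroup SL(2, ℤ)) : Subgroup (GL (Fin 2) ℝ)) := by
  obtain ⟨γ, rfl⟩ := MonoidHom.mem_range.mp hg
  have h' : (theta N : ℍ → ℂ) ∣[(4 : ℤ)] γ = theta N := by
    rw [ModularForm.SL_slash]
    exact h
  exact ⟨γ, mem_Gamma0_of_theta_slash_eq N γ h', rfl⟩

/-- The conjugates `θ_q` of `θ` under `𝒮ℒ ⧸ Γ₀(N)` are pairwise distinct (as functions). -/
theorem quotientFunc_theta_injective (N : ℕ) [NeZero N] :
    Function.Injective (SlashInvariantForm.quotientFunc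
      (𝒢 := ((CongruenceSubgroup.Gamma0 N : Subgroup SL(2, ℤ)) : Subgroup (GL (Fin 2) ℝ)))
      (ℋ := 𝒮ℒ) (k := 4) (theta N)) := by
  intro q q' hqq'
  induction q using Quotient.inductionOn with
  | h a =>
    induction q' using Quotient.inductionOn with
    | h b =>
      rw [SlashInvariantForm.quotientFunc_mk, SlashInvariantForm.quotientFunc_mk] at hqq'
      have h1 : (theta N : ℍ → ℂ) ∣[(4 : ℤ)] (a.val⁻¹ * b.val) = theta N := by
        rw [SlashAction.slash_mul, hqq', ← SlashAction.slash_mul, inv_mul_cancel,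
          SlashAction.slash_one]
      have h2 := mem_Gamma0_of_theta_slash_eq_GL N (a.val⁻¹ * b.val)
        (Subgroup.mul_mem _ (Subgroup.inv_mem _ a.2) b.2) h1
      refine Quotient.sound (QuotientGroup.leftRel_apply.mpr ?_)
      rw [Subgroup.mem_subgroupOf]
      simpa using h2

end Theta

end Fermat.Agent.S23
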